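import Mathlib

/-!
# S13, module A (part 1): the ladder polynomials

For a Weierstrass curve with `a₃ = a₆ = 0` the `x`-coordinates of the multiples of a point are
computed by a binary ladder from the doubling formula and the formula for `x(Q+R) + x(Q-R)`.
Here we define the resulting polynomials `X n`, `Z n` (`= φ_n`, `ψ_n²`) and `F n`
(`= ± ψ_n` for odd `n`) over an arbitrary commutative ring with parameters `b₂`, `a₄`, and compute
their degrees and leading coefficients.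
-/

set_option autoImplicit false

namespace Fermat.Agent.S13.Ladder

open Polynomial

section Poly

variable {R : Type*} [CommRing R]

/-- `f` has degree at most `d` and its coefficient of degree `d` is `c`. -/
def IsLC (f : R[X]) (d : ℕ) (c : R) : Prop := f.natDegree ≤ d ∧ f.coeff d = c

namespace IsLC

variable {f g : R[X]} {a b d : ℕ} {α β : R}

theorem mul (hf : IsLC f a α) (hg : IsLC g b β) : IsLC (f * g) (a + b) (α * β) :=
  ⟨natDegree_mul_le_of_le hf.1 hg.1, by rw [coeff_mul_add_eq_of_natDegree_le hf.1 hg.1, hf.2, hg.2]⟩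

theorem pow (hf : IsLC f a α) (n : ℕ) : IsLC (f ^ n) (n * a) (α ^ n) :=
  ⟨natDegree_pow_le_of_le n hf.1, by rw [coeff_pow_of_natDegree_le hf.1, hf.2]⟩

theorem add (hf : IsLC f d α) (hg : IsLC g d β) : IsLC (f + g) d (α + β) :=
  ⟨natDegree_add_le_of_degree_le hf.1 hg.1, by rw [coeff_add, hf.2, hg.2]⟩

theorem sub (hf : IsLC f d α) (hg : IsLC g d β) : IsLC (f - g) d (α - β) :=
  ⟨(natDegree_sub_le_of_le hf.1 hg.1).trans (by simp), by rw [coeff_sub, hf.2, hg.2]⟩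

theorem of_lt (hf : f.natDegree ≤ a) (h : a < d) : IsLC f d 0 :=
  ⟨hf.trans h.le, coeff_eq_zero_of_natDegree_lt (lt_of_le_of_lt hf h)⟩

theorem lower (hf : IsLC f a α) (h : a < d) : IsLC f d 0 := of_lt hf.1 h

theorem C_mul (c : R) (hf : IsLC f d α) : IsLC (C c * f) d (c * α) :=
  ⟨(natDegree_C_mul_le c f).trans hf.1, by rw [coeff_C_mul, hf.2]⟩

theorem X_mul (hf : IsLC f d α) : IsLC (X * f) (d + 1) α :=
  ⟨by
    refine (natDegree_mul_le_of_le (natDegree_X_le) hf.1).trans ?_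
    omega, by rw [coeff_X_mul, hf.2]⟩

theorem congr (hf : IsLC f a α) (h1 : a = b) (h2 : α = β) : IsLC f b β := by
  subst h1; subst h2; exact hf

theorem X_var : IsLC (X : R[X]) 1 1 := ⟨natDegree_X_le, coeff_X_one⟩

theorem one : IsLC (1 : R[X]) 0 1 := ⟨by simp, by simp⟩

end IsLC

/-- Doubling on the Kummer line (projective coordinates `(X : Z)`). -/
noncomputable def dbl (b₂ a₄ : R) (p : R[X] × R[X]) : R[X] × R[X] :=
  ((p.1 ^ 2 - C a₄ * p.2 ^ 2) ^ 2,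
   p.1 * p.2 * (C 4 * p.1 ^ 2 + C b₂ * (p.1 * p.2) + C (4 * a₄) * p.2 ^ 2))

/-- The difference polynomial `X_p Z_q - X_q Z_p`. -/
noncomputable def dif (p q : R[X] × R[X]) : R[X] := p.1 * q.2 - q.1 * p.2

/-- Differential addition: `p + q` when `q - p` is the base point `(X : 1)`. -/
noncomputable def dadd (b₂ a₄ : R) (p q : R[X] × R[X]) : R[X] × R[X] :=
  (p.1 * q.1 * (C 2 * (p.1 * q.2) + C 2 * (q.1 * p.2) + C b₂ * (p.2 * q.2))
     + C (2 * a₄) * (p.2 * q.2) * (p.1 * q.2 + q.1 * p.2) - X * dif p q ^ 2,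
   dif p q ^ 2)

/-- The ladder: `XZ n = (X_n, Z_n)` with `x(nP) = X_n(x(P)) / Z_n(x(P))`. -/
noncomputable def XZ (b₂ a₄ : R) : ℕ → R[X] × R[X]
  | 0 => (1, 0)
  | 1 => (X, 1)
  | (n + 2) =>
    if h : (n + 2) % 2 = 0 then dbl b₂ a₄ (XZ b₂ a₄ ((n + 2) / 2))
    else dadd b₂ a₄ (XZ b₂ a₄ ((n + 2) / 2)) (XZ b₂ a₄ ((n + 2) / 2 + 1))
termination_by n => n
decreasing_by all_goals omega

theorem XZ_zero (b₂ a₄ : R) : XZ b₂ a₄ 0 = (1, 0) := by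
  rw [XZ]

theorem XZ_one (b₂ a₄ : R) : XZ b₂ a₄ 1 = (X, 1) := by
  rw [XZ]

theorem XZ_two_mul (b₂ a₄ : R) {m : ℕ} (hm : 1 ≤ m) :
    XZ b₂ a₄ (2 * m) = dbl b₂ a₄ (XZ b₂ a₄ m) := by
  obtain ⟨k, rfl⟩ : ∃ k, m = k + 1 := ⟨m - 1, by omega⟩
  have h1 : 2 * (k + 1) = 2 * k + 2 := by ring
  rw [h1, XZ]
  have h2 : (2 * k + 2) % 2 = 0 := by omega
  have h3 : (2 * k + 2) / 2 = k + 1 := by omega
  rw [dif_pos h2, h3]

theorem XZ_two_mul_add_one (b₂ a₄ : R) {m : ℕ} (hm : 1 ≤ m) :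
    XZ b₂ a₄ (2 * m + 1) = dadd b₂ a₄ (XZ b₂ a₄ m) (XZ b₂ a₄ (m + 1)) := by
  obtain ⟨k, rfl⟩ : ∃ k, m = k + 1 := ⟨m - 1, by omega⟩
  have h1 : 2 * (k + 1) + 1 = (2 * k + 1) + 2 := by ring
  rw [h1, XZ]
  have h2 : ¬ (2 * k + 1 + 2) % 2 = 0 := by omega
  have h3 : (2 * k + 1 + 2) / 2 = k + 1 := by omega
  rw [dif_neg h2, h3]

/-- Induction along the ladder. -/
theorem ladder_induction {P : ℕ → Prop} (h1 : P 1)
    (hd : ∀ m, 1 ≤ m → P m → P (2 * m))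
    (ha : ∀ m, 1 ≤ m → P m → P (m + 1) → P (2 * m + 1)) :
    ∀ n, 1 ≤ n → P n := by
  intro n
  induction n using Nat.strong_induction_on with
  | _ n ih =>
    intro hn
    rcases Nat.even_or_odd' n with ⟨m, rfl | rfl⟩
    · exact hd m (by omega) (ih m (by omega) (by omega))
    · rcases Nat.eq_zero_or_pos m with rfl | hm
      · exact h1
      · exact ha m hm (ih m (by omega) hm) (ih (m + 1) (by omega) (by omega))

/-- The polynomial `F n = X_m Z_{m+1} - X_{m+1} Z_m`, `m = n / 2` (`= ± ψ_n` for odd `n`). -/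
noncomputable def F (b₂ a₄ : R) (n : ℕ) : R[X] :=
  dif (XZ b₂ a₄ (n / 2)) (XZ b₂ a₄ (n / 2 + 1))

theorem XZ_odd_snd (b₂ a₄ : R) {m : ℕ} (hm : 1 ≤ m) :
    (XZ b₂ a₄ (2 * m + 1)).2 = F b₂ a₄ (2 * m + 1) ^ 2 := by
  rw [XZ_two_mul_add_one b₂ a₄ hm, F]
  have : (2 * m + 1) / 2 = m := by omega
  rw [this]
  rfl

/-! ### Degrees and leading coefficients -/

theorem isLC_dbl (b₂ a₄ : R) {p : R[X] × R[X]} {s : ℕ} (hs : 1 ≤ s) {c : R}
    (h1 : IsLC p.1 s 1) (h2 : IsLC p.2 (s - 1) c) :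
    IsLC (dbl b₂ a₄ p).1 (4 * s) 1 ∧ IsLC (dbl b₂ a₄ p).2 (4 * s - 1) (4 * c) := by
  have hX2 : IsLC (p.1 ^ 2) (2 * s) 1 := (h1.pow 2).congr rfl (by ring)
  have hZ2 : (p.2 ^ 2).natDegree ≤ 2 * (s - 1) := (h2.pow 2).1
  have hXZ : (p.1 * p.2).natDegree ≤ s + (s - 1) := (h1.mul h2).1
  constructor
  · have hb : IsLC (C a₄ * p.2 ^ 2) (2 * s) 0 :=
      IsLC.of_lt ((natDegree_C_mul_le _ _).trans hZ2) (by omega)
    exact ((hX2.sub hb).pow 2).congr (by ring) (by ring)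
  · have ha : IsLC (C 4 * p.1 ^ 2) (2 * s) 4 := (hX2.C_mul 4).congr rfl (by ring)
    have hb : IsLC (C b₂ * (p.1 * p.2)) (2 * s) 0 :=
      IsLC.of_lt ((natDegree_C_mul_le _ _).trans hXZ) (by omega)
    have hc : IsLC (C (4 * a₄) * p.2 ^ 2) (2 * s) 0 :=
      IsLC.of_lt ((natDegree_C_mul_le _ _).trans hZ2) (by omega)
    exact ((h1.mul h2).mul ((ha.add hb).add hc)).congr (by omega) (by ring)

theorem isLC_dif {p q : R[X] × R[X]} {s t : ℕ} (hs : 1 ≤ s) (ht : 1 ≤ t) {c e : R}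
    (h1 : IsLC p.1 s 1) (h2 : IsLC p.2 (s - 1) c)
    (h3 : IsLC q.1 t 1) (h4 : IsLC q.2 (t - 1) e) :
    IsLC (dif p q) (s + t - 1) (e - c) := by
  have ha : IsLC (p.1 * q.2) (s + t - 1) e := (h1.mul h4).congr (by omega) (by ring)
  have hb : IsLC (q.1 * p.2) (s + t - 1) c := (h3.mul h2).congr (by omega) (by ring)
  exact ha.sub hb

theorem isLC_dadd (b₂ a₄ : R) {p q : R[X] × R[X]} {s t : ℕ} (hs : 1 ≤ s) (ht : 1 ≤ t) {c e : R}
    (h1 : IsLC p.1 s 1) (h2 : IsLC p.2 (s - 1) c)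
    (h3 : IsLC q.1 t 1) (h4 : IsLC q.2 (t - 1) e) :
    IsLC (dadd b₂ a₄ p q).1 (2 * (s + t) - 1) (2 * e + 2 * c - (e - c) ^ 2) ∧
    IsLC (dadd b₂ a₄ p q).2 (2 * (s + t) - 2) ((e - c) ^ 2) := by
  have hF := isLC_dif hs ht h1 h2 h3 h4
  have hF2 : IsLC (dif p q ^ 2) (2 * (s + t) - 2) ((e - c) ^ 2) :=
    (hF.pow 2).congr (by omega) rfl
  refine ⟨?_, hF2⟩
  have ha : IsLC (p.1 * q.2) (s + t - 1) e := (h1.mul h4).congr (by omega) (by ring)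
  have hb : IsLC (q.1 * p.2) (s + t - 1) c := (h3.mul h2).congr (by omega) (by ring)
  have hzz : (p.2 * q.2).natDegree ≤ (s - 1) + (t - 1) := (h2.mul h4).1
  have hc : IsLC (C b₂ * (p.2 * q.2)) (s + t - 1) 0 :=
    IsLC.of_lt ((natDegree_C_mul_le _ _).trans hzz) (by omega)
  have hbr : IsLC (C 2 * (p.1 * q.2) + C 2 * (q.1 * p.2) + C b₂ * (p.2 * q.2)) (s + t - 1)
      (2 * e + 2 * c) :=
    (((ha.C_mul 2).add (hb.C_mul 2)).add hc).congr rfl (by ring)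
  have ht1 : IsLC (p.1 * q.1 * (C 2 * (p.1 * q.2) + C 2 * (q.1 * p.2) + C b₂ * (p.2 * q.2)))
      (2 * (s + t) - 1) (2 * e + 2 * c) :=
    ((h1.mul h3).mul hbr).congr (by omega) (by ring)
  have ht2 : IsLC (C (2 * a₄) * (p.2 * q.2) * (p.1 * q.2 + q.1 * p.2)) (2 * (s + t) - 1) 0 := by
    refine IsLC.of_lt (a := (s - 1) + (t - 1) + (s + t - 1)) ?_ (by omega)
    refine natDegree_mul_le_of_le ((natDegree_C_mul_le _ _).trans hzz) (ha.add hb).1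
  have ht3 : IsLC (X * dif p q ^ 2) (2 * (s + t) - 1) ((e - c) ^ 2) :=
    (hF2.X_mul).congr (by omega) rfl
  exact ((ht1.add ht2).sub ht3).congr rfl (by ring)

theorem isLC_XZ (b₂ a₄ : R) : ∀ n, 1 ≤ n →
    IsLC (XZ b₂ a₄ n).1 (n ^ 2) 1 ∧ IsLC (XZ b₂ a₄ n).2 (n ^ 2 - 1) ((n : R) ^ 2) := by
  apply ladder_induction
  · rw [XZ_one]
    exact ⟨IsLC.X_var.congr (by norm_num) rfl, IsLC.one.congr (by norm_num) (by norm_num)⟩
  · intro m hm ih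
    have hs : 1 ≤ m ^ 2 := Nat.one_le_pow _ _ hm
    rw [XZ_two_mul b₂ a₄ hm]
    obtain ⟨h1, h2⟩ := isLC_dbl b₂ a₄ hs ih.1 ih.2
    have e1 : 4 * m ^ 2 = (2 * m) ^ 2 := by ring
    exact ⟨h1.congr e1 rfl, h2.congr (by rw [e1]) (by push_cast; ring)⟩
  · intro m hm ih ih'
    have hs : 1 ≤ m ^ 2 := Nat.one_le_pow _ _ hm
    have ht : 1 ≤ (m + 1) ^ 2 := Nat.one_le_pow _ _ (by omega)
    rw [XZ_two_mul_add_one b₂ a₄ hm]
    obtain ⟨h1, h2⟩ := isLC_dadd b₂ a₄ hs ht ih.1 ih.2 ih'.1 ih'.2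
    have e1 : 2 * (m ^ 2 + (m + 1) ^ 2) - 1 = (2 * m + 1) ^ 2 := by
      have : 2 * (m ^ 2 + (m + 1) ^ 2) = (2 * m + 1) ^ 2 + 1 := by ring
      omega
    have e2 : 2 * (m ^ 2 + (m + 1) ^ 2) - 2 = (2 * m + 1) ^ 2 - 1 := by
      have : 2 * (m ^ 2 + (m + 1) ^ 2) = (2 * m + 1) ^ 2 + 1 := by ring
      omega
    exact ⟨h1.congr e1 (by push_cast; ring), h2.congr e2 (by push_cast; ring)⟩

theorem isLC_F (b₂ a₄ : R) {m : ℕ} (hm : 1 ≤ m) :
    IsLC (F b₂ a₄ (2 * m + 1)) (2 * m ^ 2 + 2 * m) ((2 * m + 1 : ℕ) : R) := by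
  have hs : 1 ≤ m ^ 2 := Nat.one_le_pow _ _ hm
  have ht : 1 ≤ (m + 1) ^ 2 := Nat.one_le_pow _ _ (by omega)
  have h := isLC_dif hs ht (isLC_XZ b₂ a₄ m hm).1 (isLC_XZ b₂ a₄ m hm).2
    (isLC_XZ b₂ a₄ (m + 1) (by omega)).1 (isLC_XZ b₂ a₄ (m + 1) (by omega)).2
  rw [F]
  have : (2 * m + 1) / 2 = m := by omega
  rw [this]
  refine h.congr ?_ (by push_cast; ring)
  have : m ^ 2 + (m + 1) ^ 2 = 2 * m ^ 2 + 2 * m + 1 := by ring
  omega

/-! ### Base change -/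

theorem map_dbl {S : Type*} [CommRing S] (φ : R →+* S) (b₂ a₄ : R) (p : R[X] × R[X]) :
    ((dbl b₂ a₄ p).1.map φ, (dbl b₂ a₄ p).2.map φ) =
      dbl (φ b₂) (φ a₄) (p.1.map φ, p.2.map φ) := by
  simp [dbl, Polynomial.map_mul, Polynomial.map_pow, Polynomial.map_sub, Polynomial.map_add,
    map_ofNat]

theorem map_dif {S : Type*} [CommRing S] (φ : R →+* S) (p q : R[X] × R[X]) :
    (dif p q).map φ = dif (p.1.map φ, p.2.map φ) (q.1.map φ, q.2.map φ) := by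
  simp [dif, Polynomial.map_mul, Polynomial.map_sub]

theorem map_dadd {S : Type*} [CommRing S] (φ : R →+* S) (b₂ a₄ : R) (p q : R[X] × R[X]) :
    ((dadd b₂ a₄ p q).1.map φ, (dadd b₂ a₄ p q).2.map φ) =
      dadd (φ b₂) (φ a₄) (p.1.map φ, p.2.map φ) (q.1.map φ, q.2.map φ) := by
  simp [dadd, dif, Polynomial.map_mul, Polynomial.map_pow, Polynomial.map_sub,
    Polynomial.map_add, map_ofNat]

theorem map_XZ {S : Type*} [CommRing S] (φ : R →+* S) (b₂ a₄ : R) : ∀ n,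
    ((XZ b₂ a₄ n).1.map φ, (XZ b₂ a₄ n).2.map φ) = XZ (φ b₂) (φ a₄) n := by
  have key : ∀ n, 1 ≤ n →
      ((XZ b₂ a₄ n).1.map φ, (XZ b₂ a₄ n).2.map φ) = XZ (φ b₂) (φ a₄) n := by
    apply ladder_induction
    · simp [XZ_one]
    · intro m hm ih
      rw [XZ_two_mul _ _ hm, XZ_two_mul _ _ hm, map_dbl, ih]
    · intro m hm ih ih'
      rw [XZ_two_mul_add_one _ _ hm, XZ_two_mul_add_one _ _ hm, map_dadd, ih, ih']
  intro n
  rcases Nat.eq_zero_or_pos n with rfl | hn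
  · simp [XZ_zero]
  · exact key n hn

theorem map_F {S : Type*} [CommRing S] (φ : R →+* S) (b₂ a₄ : R) (n : ℕ) :
    (F b₂ a₄ n).map φ = F (φ b₂) (φ a₄) n := by
  rw [F, F, map_dif, map_XZ, map_XZ]

end Poly

end Fermat.Agent.S13.Ladder
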