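import Mathlib
import Fermat.Agent.S13.Ladder

/-!
# S13, module A (part 2): correctness of the ladder

For a Weierstrass curve `W` over a field `K` (with `2 ≠ 0`) such that `a₃ = a₆ = 0`, and a point
`P = (x, y)`, the pair `(X_n(x) : Z_n(x))` represents the `x`-coordinate of `n • P`.
-/

set_option autoImplicit false
set_option linter.unusedSectionVars false

namespace Fermat.Agent.S13.LadderPoint

open WeierstrassCurve WeierstrassCurve.Affine Polynomial
open Fermat.Agent.S13.Ladder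

variable {K : Type*} [Field K] [DecidableEq K] {W : WeierstrassCurve K}

/-- The pair `(u : w)` represents the `x`-coordinate of the point `Q`. -/
def Rep (Q : W.toAffine.Point) (u w : K) : Prop :=
  ¬ (u = 0 ∧ w = 0) ∧ (Q = 0 ↔ w = 0) ∧
    ∀ (x' y' : K) (h' : W.toAffine.Nonsingular x' y'), Q = Point.some x' y' h' → x' * w = u

theorem exists_some_of_ne_zero {Q : W.toAffine.Point} (hQ : Q ≠ 0) :
    ∃ (x y : K) (h : W.toAffine.Nonsingular x y), Q = Point.some x y h := by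
  rcases Q with _ | ⟨x, y, h⟩
  · exact absurd Point.zero_def.symm hQ
  · exact ⟨x, y, h, rfl⟩

theorem rep_zero_iff {Q : W.toAffine.Point} {u w : K} (h : Rep Q u w) : Q = 0 ↔ w = 0 := h.2.1

theorem rep_some {x y : K} (h : W.toAffine.Nonsingular x y) : Rep (Point.some x y h) x 1 := by
  refine ⟨fun h' => one_ne_zero h'.2, ⟨fun h' => absurd h' (Point.some_ne_zero _),
    fun h' => absurd h' one_ne_zero⟩, ?_⟩
  intro x' y' h' he
  have := (Point.some.injEq ..).mp he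
  rw [mul_one]; exact this.1.symm

/-- The curve equation in the form used below. -/
theorem eqn (h3 : W.a₃ = 0) (h6 : W.a₆ = 0) {x y : K} (h : W.toAffine.Nonsingular x y) :
    y ^ 2 + W.a₁ * x * y = x ^ 3 + W.a₂ * x ^ 2 + W.a₄ * x := by
  have := (Affine.equation_iff (W := W.toAffine) x y).mp h.1
  rw [h3, h6] at this
  linear_combination this

theorem negY_eq (h3 : W.a₃ = 0) (x y : K) : W.toAffine.negY x y = -y - W.a₁ * x := by
  rw [Affine.negY, h3]; ring

/-- `ψ₂²(x) = (2y + a₁x)²`. -/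
theorem psi2_eq (h3 : W.a₃ = 0) (h6 : W.a₆ = 0) {x y : K} (h : W.toAffine.Nonsingular x y) :
    x * (4 * x ^ 2 + W.b₂ * x + 4 * W.a₄) = (y - W.toAffine.negY x y) ^ 2 := by
  rw [negY_eq h3, WeierstrassCurve.b₂]
  linear_combination (-4 : K) * eqn h3 h6 h

/-- At a point of order two, `x² ≠ a₄`. -/
theorem sq_ne_of_two_torsion (h2 : (2 : K) ≠ 0) (h3 : W.a₃ = 0) (h6 : W.a₆ = 0) {x y : K}
    (h : W.toAffine.Nonsingular x y) (hy : y = W.toAffine.negY x y) : x ^ 2 - W.a₄ ≠ 0 := by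
  intro hx
  have hE := eqn h3 h6 h
  have hpsi := psi2_eq h3 h6 h
  rw [← hy, sub_self, zero_pow two_ne_zero] at hpsi
  have hy' : 2 * y = - W.a₁ * x := by
    have := hy; rw [negY_eq h3] at this; linear_combination this
  have hns := (Affine.nonsingular_iff (W := W.toAffine) x y).mp h
  rcases hns.2 with hX | hY
  · apply hX
    have ha4 : W.a₄ = x ^ 2 := by linear_combination -hx
    rcases eq_or_ne x 0 with rfl | hx0
    · have hy0 : y = 0 := by
        have : 2 * y = 0 := by rw [hy']; ring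
        rcases mul_eq_zero.mp this with h | h
        · exact absurd h h2
        · exact h
      rw [hy0, ha4]; ring
    · have hb : 4 * x ^ 2 + W.b₂ * x + 4 * W.a₄ = 0 := by
        rcases mul_eq_zero.mp hpsi with h | h
        · exact absurd h hx0
        · exact h
      rw [WeierstrassCurve.b₂, ha4] at hb
      have hb' : W.a₁ ^ 2 + 4 * W.a₂ = -8 * x := by
        have : x * (W.a₁ ^ 2 + 4 * W.a₂ + 8 * x) = 0 := by linear_combination hb
        rcases mul_eq_zero.mp this with h | h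
        · exact absurd h hx0
        · linear_combination h
      apply mul_left_cancel₀ h2
      rw [ha4]
      linear_combination W.a₁ * hy' - x * hb'
  · apply hY
    rw [h3]
    have := hy; rw [negY_eq h3] at this
    linear_combination this

/-- The doubling formula. -/
theorem addX_double (h3 : W.a₃ = 0) (h6 : W.a₆ = 0) {x y : K}
    (h : W.toAffine.Nonsingular x y) (hy : y ≠ W.toAffine.negY x y) :
    W.toAffine.addX x x (W.toAffine.slope x x y y) * (x * (4 * x ^ 2 + W.b₂ * x + 4 * W.a₄)) =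
      (x ^ 2 - W.a₄) ^ 2 := by
  have hE := eqn h3 h6 h
  have hne : y - W.toAffine.negY x y ≠ 0 := sub_ne_zero.mpr hy
  rw [psi2_eq h3 h6 h, Affine.slope_of_Y_ne rfl hy, Affine.addX]
  field_simp
  rw [negY_eq h3]
  linear_combination (-(W.a₁ ^ 2 + 4 * W.a₂ + 8 * x)) * hE

/-- The formula for `x(Q + R) + x(Q - R)`. -/
theorem addX_sum (h3 : W.a₃ = 0) (h6 : W.a₆ = 0) {x₁ y₁ x₂ y₂ : K}
    (h₁ : W.toAffine.Nonsingular x₁ y₁) (h₂ : W.toAffine.Nonsingular x₂ y₂) (hx : x₁ ≠ x₂) :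
    (W.toAffine.addX x₁ x₂ (W.toAffine.slope x₁ x₂ y₁ y₂) +
      W.toAffine.addX x₁ x₂ (W.toAffine.slope x₁ x₂ y₁ (W.toAffine.negY x₂ y₂))) *
        (x₁ - x₂) ^ 2 =
      x₁ * x₂ * (2 * x₁ + 2 * x₂ + W.b₂) + 2 * W.a₄ * (x₁ + x₂) := by
  have hE₁ := eqn h3 h6 h₁
  have hE₂ := eqn h3 h6 h₂
  have hne : x₁ - x₂ ≠ 0 := sub_ne_zero.mpr hx
  rw [Affine.slope_of_X_ne hx, Affine.slope_of_X_ne hx, Affine.addX, Affine.addX, negY_eq h3,
    WeierstrassCurve.b₂]
  field_simp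
  linear_combination 2 * hE₁ + 2 * hE₂

theorem rep_dbl (h2 : (2 : K) ≠ 0) (h3 : W.a₃ = 0) (h6 : W.a₆ = 0) {Q : W.toAffine.Point}
    {u w : K} (hQ : Rep Q u w) :
    Rep (Q + Q) ((u ^ 2 - W.a₄ * w ^ 2) ^ 2)
      (u * w * (4 * u ^ 2 + W.b₂ * (u * w) + 4 * W.a₄ * w ^ 2)) := by
  by_cases hQ0 : Q = 0
  · have hw : w = 0 := hQ.2.1.mp hQ0
    have hu : u ≠ 0 := fun hu => hQ.1 ⟨hu, hw⟩
    subst hw
    subst hQ0
    rw [add_zero]
    refine ⟨fun h => hu ?_, ?_, ?_⟩
    · have := h.1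
      simpa using this
    · simp
    · intro x' y' h' he
      exact absurd he.symm (Point.some_ne_zero _)
  · obtain ⟨x₁, y₁, h₁, rfl⟩ := exists_some_of_ne_zero hQ0
    have hw : w ≠ 0 := fun hw => hQ0 (hQ.2.1.mpr hw)
    have hu : x₁ * w = u := hQ.2.2 x₁ y₁ h₁ rfl
    have e1 : (u ^ 2 - W.a₄ * w ^ 2) ^ 2 = w ^ 4 * (x₁ ^ 2 - W.a₄) ^ 2 := by
      rw [← hu]; ring
    have e2 : u * w * (4 * u ^ 2 + W.b₂ * (u * w) + 4 * W.a₄ * w ^ 2) =
        w ^ 4 * (x₁ * (4 * x₁ ^ 2 + W.b₂ * x₁ + 4 * W.a₄)) := by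
      rw [← hu]; ring
    have hw4 : w ^ 4 ≠ 0 := pow_ne_zero _ hw
    rw [e1, e2]
    by_cases hy : y₁ = W.toAffine.negY x₁ y₁
    · have hsum : Point.some x₁ y₁ h₁ + Point.some x₁ y₁ h₁ = 0 := Point.add_of_Y_eq rfl hy
      have hpsi : x₁ * (4 * x₁ ^ 2 + W.b₂ * x₁ + 4 * W.a₄) = 0 := by
        rw [psi2_eq h3 h6 h₁, ← hy, sub_self, zero_pow two_ne_zero]
      rw [hsum, hpsi, mul_zero]
      refine ⟨fun h => ?_, by simp, ?_⟩
      · have := h.1
        rcases mul_eq_zero.mp this with h' | h'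
        · exact hw4 h'
        · exact sq_ne_of_two_torsion h2 h3 h6 h₁ hy (pow_eq_zero_iff two_ne_zero |>.mp h')
      · intro x' y' h' he
        exact absurd he.symm (Point.some_ne_zero _)
    · have hpsi : x₁ * (4 * x₁ ^ 2 + W.b₂ * x₁ + 4 * W.a₄) ≠ 0 := by
        rw [psi2_eq h3 h6 h₁]
        exact pow_ne_zero _ (sub_ne_zero.mpr hy)
      have hsum := Point.add_self_of_Y_ne (W := W.toAffine) (h₁ := h₁) hy
      rw [hsum]
      refine ⟨fun h => mul_ne_zero hw4 hpsi h.2, ?_, ?_⟩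
      · constructor
        · intro h; exact absurd h (Point.some_ne_zero _)
        · intro h; exact absurd h (mul_ne_zero hw4 hpsi)
      · intro x' y' h' he
        have hx' := ((Point.some.injEq ..).mp he).1
        rw [← hx']
        have := addX_double h3 h6 h₁ hy
        linear_combination w ^ 4 * this

theorem rep_dadd (h3 : W.a₃ = 0) (h6 : W.a₆ = 0) {x y : K} (h : W.toAffine.Nonsingular x y)
    {Q R : W.toAffine.Point} {u₁ w₁ u₂ w₂ : K} (hR : Rep R u₁ w₁) (hQ : Rep Q u₂ w₂)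
    (hP : Q - R = Point.some x y h) :
    Rep (Q + R)
      (u₁ * u₂ * (2 * (u₁ * w₂) + 2 * (u₂ * w₁) + W.b₂ * (w₁ * w₂))
        + 2 * W.a₄ * (w₁ * w₂) * (u₁ * w₂ + u₂ * w₁) - x * (u₁ * w₂ - u₂ * w₁) ^ 2)
      ((u₁ * w₂ - u₂ * w₁) ^ 2) := by
  by_cases hR0 : R = 0
  · -- R = 0
    have hw₁ : w₁ = 0 := hR.2.1.mp hR0
    have hu₁ : u₁ ≠ 0 := fun hu => hR.1 ⟨hu, hw₁⟩
    subst hw₁
    subst hR0
    rw [sub_zero] at hP
    subst hP
    have hw₂ : w₂ ≠ 0 := fun hw => Point.some_ne_zero _ (hQ.2.1.mpr hw)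
    have hu₂ : x * w₂ = u₂ := hQ.2.2 x y h rfl
    have hw' : (u₁ * w₂ - u₂ * 0) ^ 2 ≠ 0 := by
      rw [mul_zero, sub_zero]; exact pow_ne_zero _ (mul_ne_zero hu₁ hw₂)
    rw [add_zero]
    refine ⟨fun h' => hw' h'.2, ⟨fun h' => absurd h' (Point.some_ne_zero _),
      fun h' => absurd h' hw'⟩, ?_⟩
    intro x' y' h' he
    have hx' := ((Point.some.injEq ..).mp he).1
    rw [← hx', ← hu₂]; ring
  · obtain ⟨x₁, y₁, h₁, rfl⟩ := exists_some_of_ne_zero hR0
    have hw₁ : w₁ ≠ 0 := fun hw => hR0 (hR.2.1.mpr hw)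
    have hu₁ : x₁ * w₁ = u₁ := hR.2.2 x₁ y₁ h₁ rfl
    by_cases hQ0 : Q = 0
    · -- Q = 0, R = -P
      have hw₂ : w₂ = 0 := hQ.2.1.mp hQ0
      have hu₂ : u₂ ≠ 0 := fun hu => hQ.1 ⟨hu, hw₂⟩
      subst hw₂
      subst hQ0
      have hx : x₁ = x := by
        rw [zero_sub, Point.neg_some] at hP
        exact ((Point.some.injEq ..).mp hP).1
      have hw' : (u₁ * 0 - u₂ * w₁) ^ 2 ≠ 0 := by
        rw [mul_zero, zero_sub, neg_sq]; exact pow_ne_zero _ (mul_ne_zero hu₂ hw₁)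
      rw [zero_add]
      refine ⟨fun h' => hw' h'.2, ⟨fun h' => absurd h' (Point.some_ne_zero _),
        fun h' => absurd h' hw'⟩, ?_⟩
      intro x' y' h' he
      have hx' := ((Point.some.injEq ..).mp he).1
      rw [← hx', ← hu₁, ← hx]; ring
    · obtain ⟨x₂, y₂, h₂, rfl⟩ := exists_some_of_ne_zero hQ0
      have hw₂ : w₂ ≠ 0 := fun hw => hQ0 (hQ.2.1.mpr hw)
      have hu₂ : x₂ * w₂ = u₂ := hQ.2.2 x₂ y₂ h₂ rfl
      have e1 : (u₁ * w₂ - u₂ * w₁) ^ 2 = (w₁ * w₂) ^ 2 * (x₂ - x₁) ^ 2 := by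
        rw [← hu₁, ← hu₂]; ring
      have hww : (w₁ * w₂) ^ 2 ≠ 0 := pow_ne_zero _ (mul_ne_zero hw₁ hw₂)
      by_cases hx : x₂ = x₁
      · -- Q = -R
        subst hx
        have hyne : y₂ ≠ y₁ := by
          rintro rfl
          rw [sub_self] at hP
          exact absurd hP.symm (Point.some_ne_zero _)
        have hy : y₂ = W.toAffine.negY x₂ y₁ := by
          rcases Affine.Y_eq_of_X_eq h₂.1 h₁.1 rfl with h' | h'
          · exact absurd h' hyne
          · exact h'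
        have hsum : Point.some x₂ y₂ h₂ + Point.some x₂ y₁ h₁ = 0 := Point.add_of_Y_eq rfl hy
        have hy1 : y₁ ≠ W.toAffine.negY x₂ y₁ := fun h' => hyne (hy.trans h'.symm)
        have hpsi : x₂ * (4 * x₂ ^ 2 + W.b₂ * x₂ + 4 * W.a₄) ≠ 0 := by
          rw [psi2_eq h3 h6 h₁]
          exact pow_ne_zero _ (sub_ne_zero.mpr hy1)
        rw [hsum, e1, sub_self, zero_pow two_ne_zero, mul_zero, mul_zero, sub_zero]
        refine ⟨fun h' => ?_, by simp, ?_⟩
        · have := h'.1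
          rw [← hu₁, ← hu₂] at this
          have h'' : (w₁ * w₂) ^ 2 * (x₂ * (4 * x₂ ^ 2 + W.b₂ * x₂ + 4 * W.a₄)) = 0 := by
            linear_combination this
          exact mul_ne_zero hww hpsi h''
        · intro x' y' h' he
          exact absurd he.symm (Point.some_ne_zero _)
      · have hsum := Point.add_of_X_ne (W := W.toAffine) (h₁ := h₂) (h₂ := h₁) hx
        have hneg : Point.some x₂ y₂ h₂ - Point.some x₁ y₁ h₁ =
            Point.some x₂ y₂ h₂ + Point.some x₁ (W.toAffine.negY x₁ y₁)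
              ((Affine.nonsingular_neg ..).mpr h₁) := by
          rw [sub_eq_add_neg, Point.neg_some]
        have hdiff := Point.add_of_X_ne (W := W.toAffine) (h₁ := h₂)
          (h₂ := (Affine.nonsingular_neg ..).mpr h₁) hx
        rw [hneg, hdiff] at hP
        have hxP := ((Point.some.injEq ..).mp hP).1
        have hw' : (w₁ * w₂) ^ 2 * (x₂ - x₁) ^ 2 ≠ 0 :=
          mul_ne_zero hww (pow_ne_zero _ (sub_ne_zero.mpr hx))
        rw [hsum, e1]
        refine ⟨fun h' => hw' h'.2, ⟨fun h' => absurd h' (Point.some_ne_zero _),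
          fun h' => absurd h' hw'⟩, ?_⟩
        intro x' y' h' he
        have hx' := ((Point.some.injEq ..).mp he).1
        have key := addX_sum h3 h6 h₂ h₁ hx
        rw [hxP, hx'] at key
        rw [← hu₁, ← hu₂]
        linear_combination (w₁ * w₂) ^ 2 * key

end Fermat.Agent.S13.LadderPoint
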