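import Mathlib
import Fermat.Agent.S13.LadderPoint

/-!
# S13, module A (part 3): torsion points via the ladder

For a Weierstrass curve `W` over a field `K` (with `2 ≠ 0`) such that `a₃ = a₆ = 0` and an odd
number `n = 2m + 1 ≥ 3`:

* `nsmul_eq_zero_iff` : `n • (x, y) = 0 ↔ divPoly W n` vanishes at `x`;
* `natDegree_divPoly`, `coeff_divPoly` : `divPoly W n` has degree `(n² - 1)/2` and leading
  coefficient `n`;
* `ncard_torsion_le` : there are at most `n²` points killed by `n`;
* `exists_torsion` : over an algebraically closed field there is a nonzero point killed by `n`;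
* `val_mul_prod_le_one` : if `b₂, a₄` are integral for a valuation subring `A`, then
  `v(n) * ∏ v(x_R) ≤ 1` over any finite set of non-integral `x`-coordinates of points killed by `n`;
* `val_x_le_one` : if moreover `v(n) = 1`, points killed by `n` have integral `x`-coordinate.
-/

set_option autoImplicit false
set_option linter.unusedSectionVars false

namespace Fermat.Agent.S13.LadderTorsion

open WeierstrassCurve WeierstrassCurve.Affine Polynomial
open Fermat.Agent.S13.Ladder Fermat.Agent.S13.LadderPoint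

variable {K : Type*} [Field K] [DecidableEq K] (W : WeierstrassCurve K)

/-- The `n`-th division polynomial (for odd `n`, up to sign) of a curve with `a₃ = a₆ = 0`. -/
noncomputable def divPoly (n : ℕ) : K[X] := F W.b₂ W.a₄ n

theorem eval_dbl (b₂ a₄ x : K) (p : K[X] × K[X]) :
    ((dbl b₂ a₄ p).1.eval x, (dbl b₂ a₄ p).2.eval x) =
      (((p.1.eval x) ^ 2 - a₄ * (p.2.eval x) ^ 2) ^ 2,
        p.1.eval x * p.2.eval x * (4 * (p.1.eval x) ^ 2 + b₂ * (p.1.eval x * p.2.eval x)
          + 4 * a₄ * (p.2.eval x) ^ 2)) := by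
  simp [dbl, map_ofNat]

theorem eval_dif (x : K) (p q : K[X] × K[X]) :
    (dif p q).eval x = p.1.eval x * q.2.eval x - q.1.eval x * p.2.eval x := by
  simp [dif]

theorem eval_dadd (b₂ a₄ x : K) (p q : K[X] × K[X]) :
    ((dadd b₂ a₄ p q).1.eval x, (dadd b₂ a₄ p q).2.eval x) =
      (p.1.eval x * q.1.eval x * (2 * (p.1.eval x * q.2.eval x) + 2 * (q.1.eval x * p.2.eval x)
          + b₂ * (p.2.eval x * q.2.eval x))
        + 2 * a₄ * (p.2.eval x * q.2.eval x) * (p.1.eval x * q.2.eval x + q.1.eval x * p.2.eval x)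
        - x * (p.1.eval x * q.2.eval x - q.1.eval x * p.2.eval x) ^ 2,
       (p.1.eval x * q.2.eval x - q.1.eval x * p.2.eval x) ^ 2) := by
  simp [dadd, dif, map_ofNat]

variable {W}

/-- Correctness of the ladder. -/
theorem rep_nsmul (h2 : (2 : K) ≠ 0) (h3 : W.a₃ = 0) (h6 : W.a₆ = 0) {x y : K}
    (h : W.toAffine.Nonsingular x y) : ∀ n, 1 ≤ n →
    Rep (n • Point.some x y h) ((XZ W.b₂ W.a₄ n).1.eval x) ((XZ W.b₂ W.a₄ n).2.eval x) := by
  apply ladder_induction
  · rw [XZ_one, one_nsmul]
    simpa using rep_some h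
  · intro m hm ih
    have e := eval_dbl W.b₂ W.a₄ x (XZ W.b₂ W.a₄ m)
    rw [← XZ_two_mul _ _ hm] at e
    have e1 := congrArg Prod.fst e
    have e2 := congrArg Prod.snd e
    simp only at e1 e2
    rw [e1, e2, two_mul, add_nsmul]
    exact rep_dbl h2 h3 h6 ih
  · intro m hm ih ih'
    have e := eval_dadd W.b₂ W.a₄ x (XZ W.b₂ W.a₄ m) (XZ W.b₂ W.a₄ (m + 1))
    rw [← XZ_two_mul_add_one _ _ hm] at e
    have e1 := congrArg Prod.fst e
    have e2 := congrArg Prod.snd e
    simp only at e1 e2
    have hs : (2 * m + 1) • Point.some x y h =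
        (m + 1) • Point.some x y h + m • Point.some x y h := by
      rw [← add_nsmul]; congr 1; omega
    have hd : (m + 1) • Point.some x y h - m • Point.some x y h = Point.some x y h := by
      rw [add_nsmul, one_nsmul]; abel
    rw [e1, e2, hs]
    exact rep_dadd h3 h6 h ih ih' hd

/-- A point `(x, y)` is killed by the odd number `n = 2m + 1 ≥ 3` iff `divPoly W n` vanishes
at `x`. -/
theorem nsmul_eq_zero_iff (h2 : (2 : K) ≠ 0) (h3 : W.a₃ = 0) (h6 : W.a₆ = 0) {m : ℕ}
    (hm : 1 ≤ m) {x y : K} (h : W.toAffine.Nonsingular x y) :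
    (2 * m + 1) • Point.some x y h = 0 ↔ (divPoly W (2 * m + 1)).eval x = 0 := by
  have hrep := rep_nsmul h2 h3 h6 h (2 * m + 1) (by omega)
  rw [hrep.2.1, XZ_odd_snd _ _ hm, eval_pow, divPoly]
  exact pow_eq_zero_iff two_ne_zero

theorem natDegree_divPoly_le (W : WeierstrassCurve K) {m : ℕ} (hm : 1 ≤ m) :
    (divPoly W (2 * m + 1)).natDegree ≤ 2 * m ^ 2 + 2 * m :=
  (isLC_F W.b₂ W.a₄ hm).1

theorem coeff_divPoly (W : WeierstrassCurve K) {m : ℕ} (hm : 1 ≤ m) :
    (divPoly W (2 * m + 1)).coeff (2 * m ^ 2 + 2 * m) = ((2 * m + 1 : ℕ) : K) :=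
  (isLC_F W.b₂ W.a₄ hm).2

theorem divPoly_ne_zero (W : WeierstrassCurve K) {m : ℕ} (hm : 1 ≤ m)
    (hn : ((2 * m + 1 : ℕ) : K) ≠ 0) : divPoly W (2 * m + 1) ≠ 0 := by
  intro h0
  have := coeff_divPoly W hm
  rw [h0, coeff_zero] at this
  exact hn this.symm

theorem natDegree_divPoly (W : WeierstrassCurve K) {m : ℕ} (hm : 1 ≤ m)
    (hn : ((2 * m + 1 : ℕ) : K) ≠ 0) :
    (divPoly W (2 * m + 1)).natDegree = 2 * m ^ 2 + 2 * m := by
  refine le_antisymm (natDegree_divPoly_le W hm) ?_
  apply le_natDegree_of_ne_zero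
  rw [coeff_divPoly W hm]
  exact hn

/-- The points killed by `n = 2m + 1` are contained in a finite set with at most `n²`
elements. -/
theorem exists_finset_torsion (h2 : (2 : K) ≠ 0) (h3 : W.a₃ = 0) (h6 : W.a₆ = 0) {m : ℕ}
    (hm : 1 ≤ m) (hn : ((2 * m + 1 : ℕ) : K) ≠ 0) :
    ∃ s : Finset W.toAffine.Point, s.card ≤ (2 * m + 1) ^ 2 ∧
      ∀ P : W.toAffine.Point, (2 * m + 1) • P = 0 → P ∈ s := by
  classical
  let pt : K → W.toAffine.Point := fun x =>
    if h : ∃ y : K, W.toAffine.Nonsingular x y then Point.some x h.choose h.choose_spec else 0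
  have hpt : ∀ {x y : K} (hns : W.toAffine.Nonsingular x y),
      Point.some x y hns = pt x ∨ Point.some x y hns = -pt x := by
    intro x y hns
    have h : ∃ y : K, W.toAffine.Nonsingular x y := ⟨y, hns⟩
    simp only [pt, dif_pos h]
    exact (Point.X_eq_iff).mp rfl
  let R : Finset K := (divPoly W (2 * m + 1)).roots.toFinset
  have hR : R.card ≤ 2 * m ^ 2 + 2 * m :=
    (Multiset.toFinset_card_le _).trans ((Polynomial.card_roots' _).trans
      (natDegree_divPoly_le W hm))
  refine ⟨insert 0 (R.image pt ∪ R.image (fun x => -pt x)), ?_, ?_⟩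
  · calc (insert 0 (R.image pt ∪ R.image (fun x => -pt x))).card
        ≤ (R.image pt ∪ R.image (fun x => -pt x)).card + 1 := Finset.card_insert_le _ _
      _ ≤ ((R.image pt).card + (R.image (fun x => -pt x)).card) + 1 :=
          Nat.add_le_add_right (Finset.card_union_le _ _) 1
      _ ≤ (R.card + R.card) + 1 :=
          Nat.add_le_add_right (Nat.add_le_add Finset.card_image_le Finset.card_image_le) 1
      _ ≤ (2 * m + 1) ^ 2 := by
          have : (2 * m + 1) ^ 2 = 2 * (2 * m ^ 2 + 2 * m) + 1 := by ring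
          omega
  · intro P hP
    by_cases hP0 : P = 0
    · rw [hP0]; exact Finset.mem_insert_self _ _
    · obtain ⟨x, y, hns, rfl⟩ := exists_some_of_ne_zero hP0
      have hx : x ∈ R := by
        rw [Multiset.mem_toFinset, Polynomial.mem_roots (divPoly_ne_zero W hm hn),
          Polynomial.IsRoot.def]
        exact (nsmul_eq_zero_iff h2 h3 h6 hm hns).mp hP
      apply Finset.mem_insert_of_mem
      rcases hpt hns with h | h
      · exact Finset.mem_union_left _ (Finset.mem_image.mpr ⟨x, hx, h.symm⟩)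
      · exact Finset.mem_union_right _ (Finset.mem_image.mpr ⟨x, hx, h.symm⟩)

/-- The set of points killed by `n = 2m + 1` is finite. -/
theorem finite_torsion (h2 : (2 : K) ≠ 0) (h3 : W.a₃ = 0) (h6 : W.a₆ = 0) {m : ℕ}
    (hm : 1 ≤ m) (hn : ((2 * m + 1 : ℕ) : K) ≠ 0) :
    {P : W.toAffine.Point | (2 * m + 1) • P = 0}.Finite := by
  obtain ⟨s, -, hs⟩ := exists_finset_torsion h2 h3 h6 hm hn
  exact s.finite_toSet.subset fun P hP => hs P hP

/-- There are at most `n²` points killed by `n = 2m + 1`. -/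
theorem ncard_torsion_le (h2 : (2 : K) ≠ 0) (h3 : W.a₃ = 0) (h6 : W.a₆ = 0) {m : ℕ}
    (hm : 1 ≤ m) (hn : ((2 * m + 1 : ℕ) : K) ≠ 0) :
    {P : W.toAffine.Point | (2 * m + 1) • P = 0}.ncard ≤ (2 * m + 1) ^ 2 := by
  obtain ⟨s, hcard, hs⟩ := exists_finset_torsion h2 h3 h6 hm hn
  calc {P : W.toAffine.Point | (2 * m + 1) • P = 0}.ncard
      ≤ (s : Set W.toAffine.Point).ncard :=
        Set.ncard_le_ncard (fun P hP => hs P hP) s.finite_toSet
    _ = s.card := Set.ncard_coe_finset s
    _ ≤ (2 * m + 1) ^ 2 := hcard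

/-- Over an algebraically closed field there is a nonzero point killed by `n = 2m + 1`. -/
theorem exists_torsion [IsAlgClosed K] (h2 : (2 : K) ≠ 0) (h3 : W.a₃ = 0) (h6 : W.a₆ = 0)
    (hΔ : W.Δ ≠ 0) {m : ℕ} (hm : 1 ≤ m) (hn : ((2 * m + 1 : ℕ) : K) ≠ 0) :
    ∃ P : W.toAffine.Point, P ≠ 0 ∧ (2 * m + 1) • P = 0 := by
  have hdeg : (divPoly W (2 * m + 1)).degree ≠ 0 := by
    rw [Polynomial.degree_eq_natDegree (divPoly_ne_zero W hm hn), natDegree_divPoly W hm hn]
    have : 0 < 2 * m ^ 2 + 2 * m := by positivity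
    exact_mod_cast this.ne'
  obtain ⟨x, hx⟩ := IsAlgClosed.exists_root (divPoly W (2 * m + 1)) hdeg
  rw [Polynomial.IsRoot.def] at hx
  obtain ⟨y, hy⟩ : ∃ y : K, W.toAffine.Equation x y := by
    let q : Polynomial K := Polynomial.X ^ 2 + Polynomial.C (W.a₁ * x + W.a₃) * Polynomial.X -
      Polynomial.C (x ^ 3 + W.a₂ * x ^ 2 + W.a₄ * x + W.a₆)
    have hq : q.degree = 2 := by
      simp only [q]
      compute_degree!
    obtain ⟨y, hy⟩ := IsAlgClosed.exists_root q (by rw [hq]; norm_num)
    refine ⟨y, ?_⟩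
    rw [equation_iff]
    simp only [q, Polynomial.IsRoot.def, Polynomial.eval_sub, Polynomial.eval_add,
      Polynomial.eval_pow, Polynomial.eval_X, Polynomial.eval_mul, Polynomial.eval_C] at hy
    linear_combination hy
  have hns : W.toAffine.Nonsingular x y := (equation_iff_nonsingular_of_Δ_ne_zero hΔ).mp hy
  exact ⟨Point.some x y hns, Point.some_ne_zero hns, (nsmul_eq_zero_iff h2 h3 h6 hm hns).mpr hx⟩

/-! ### Valuations of the roots -/

section Val

variable (A : ValuationSubring K)

/-- If `f` has integral coefficients and `r` is a non-integral root of `f`, then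
`f = (X - r) g` where `r g` has integral coefficients. -/
theorem exists_factor {f : K[X]} (hf : ∀ i, A.valuation (f.coeff i) ≤ 1) {r : K}
    (hr : f.eval r = 0) (hv : 1 < A.valuation r) :
    ∃ g : K[X], f = (X - C r) * g ∧ ∀ i, A.valuation (r * g.coeff i) ≤ 1 := by
  obtain ⟨g, hg⟩ := (Polynomial.dvd_iff_isRoot).mpr hr
  refine ⟨g, hg, ?_⟩
  have hr0 : r ≠ 0 := by
    rintro rfl
    rw [map_zero] at hv
    exact absurd hv (by simp)
  have hrinv : A.valuation r⁻¹ ≤ 1 := by
    rw [map_inv₀]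
    exact inv_le_one_of_one_le₀ hv.le
  have hc0 : f.coeff 0 = - (r * g.coeff 0) := by
    rw [hg]; simp [coeff_zero_eq_eval_zero]
  have hcs : ∀ i, f.coeff (i + 1) = g.coeff i - r * g.coeff (i + 1) := by
    intro i
    rw [hg, sub_mul, coeff_sub, coeff_X_mul, coeff_C_mul]
  intro i
  induction i with
  | zero =>
    have : r * g.coeff 0 = - f.coeff 0 := by rw [hc0]; ring
    rw [this, Valuation.map_neg]
    exact hf 0
  | succ i ih =>
    have : r * g.coeff (i + 1) = r⁻¹ * (r * g.coeff i) - f.coeff (i + 1) := by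
      rw [hcs i]; field_simp; ring
    rw [this]
    refine (Valuation.map_sub_le (v := A.valuation) ?_ (hf (i + 1)))
    rw [map_mul]
    exact mul_le_one' hrinv ih

/-- Root lemma: for a polynomial with integral coefficients, of degree at most `d`, the product
of the valuations of finitely many distinct non-integral roots times the valuation of the
coefficient of degree `d` is at most one. -/
theorem val_coeff_mul_prod_le_one (S : Finset K) : ∀ (f : K[X]) (d : ℕ),
    (∀ i, A.valuation (f.coeff i) ≤ 1) → f.natDegree ≤ d →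
    (∀ r ∈ S, f.eval r = 0 ∧ 1 < A.valuation r) →
    A.valuation (f.coeff d) * ∏ r ∈ S, A.valuation r ≤ 1 := by
  classical
  induction S using Finset.induction_on with
  | empty =>
    intro f d hf _ _
    simpa using hf d
  | insert r S hrS ih =>
    intro f d hf hd hS
    obtain ⟨hr, hv⟩ := hS r (Finset.mem_insert_self _ _)
    obtain ⟨g, hg, hgi⟩ := exists_factor A hf hr hv
    have hr0 : r ≠ 0 := by
      rintro rfl
      rw [map_zero] at hv
      exact absurd hv (by simp)
    rw [Finset.prod_insert hrS]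
    rcases Nat.eq_zero_or_pos d with rfl | hdpos
    · -- `f` is constant with a root, hence zero
      have hf0 : f = 0 := by
        have hc : f = C (f.coeff 0) := eq_C_of_natDegree_le_zero hd
        have : f.coeff 0 = 0 := by
          have h' := hr
          rw [hc, eval_C] at h'
          exact h'
        rw [hc, this, map_zero]
      rw [hf0]
      simp
    · obtain ⟨e, rfl⟩ : ∃ e, d = e + 1 := ⟨d - 1, by omega⟩
      by_cases hg0 : g = 0
      · rw [hg, hg0, mul_zero]; simp
      have hXr : (X - C r : K[X]).natDegree = 1 := natDegree_X_sub_C r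
      have hgd : g.natDegree ≤ e := by
        have := natDegree_mul (X_sub_C_ne_zero r) hg0
        rw [← hg, hXr] at this
        omega
      have hlead : f.coeff (e + 1) = g.coeff e := by
        rw [hg, sub_mul, coeff_sub, coeff_X_mul, coeff_C_mul,
          coeff_eq_zero_of_natDegree_lt (lt_of_le_of_lt hgd (Nat.lt_succ_self e)), mul_zero,
          sub_zero]
      have key := ih (C r * g) e (fun i => by rw [coeff_C_mul]; exact hgi i)
        ((natDegree_C_mul_le r g).trans hgd) (fun r' hr' => by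
          obtain ⟨hr'0, hv'⟩ := hS r' (Finset.mem_insert_of_mem hr')
          refine ⟨?_, hv'⟩
          have hne : r' ≠ r := fun h => hrS (h ▸ hr')
          rw [hg, eval_mul, eval_sub, eval_X, eval_C] at hr'0
          rcases mul_eq_zero.mp hr'0 with h | h
          · exact absurd (sub_eq_zero.mp h) hne
          · rw [eval_mul, eval_C, h, mul_zero])
      rw [coeff_C_mul, map_mul] at key
      rw [hlead]
      rw [mul_left_comm, ← mul_assoc]
      exact key

/-- The coefficients of the division polynomial are integral if `b₂` and `a₄` are. -/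
theorem val_coeff_divPoly_le_one (W : WeierstrassCurve K) (hb : A.valuation W.b₂ ≤ 1)
    (ha : A.valuation W.a₄ ≤ 1) (n i : ℕ) : A.valuation ((divPoly W n).coeff i) ≤ 1 := by
  have hb' : W.b₂ ∈ A := (A.valuation_le_one_iff _).mp hb
  have ha' : W.a₄ ∈ A := (A.valuation_le_one_iff _).mp ha
  have h := map_F A.subtype (⟨W.b₂, hb'⟩ : A) (⟨W.a₄, ha'⟩ : A) n
  have h' : divPoly W n = (F (⟨W.b₂, hb'⟩ : A) (⟨W.a₄, ha'⟩ : A) n).map A.subtype := by
    rw [h]; rfl
  rw [h', coeff_map]
  exact (A.valuation_le_one_iff _).mpr (Subtype.property _)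

/-- Root lemma for torsion points. -/
theorem val_mul_prod_le_one (h2 : (2 : K) ≠ 0) (h3 : W.a₃ = 0) (h6 : W.a₆ = 0)
    (hb : A.valuation W.b₂ ≤ 1) (ha : A.valuation W.a₄ ≤ 1) {m : ℕ} (hm : 1 ≤ m)
    (S : Finset K)
    (hS : ∀ r ∈ S, 1 < A.valuation r ∧
      ∃ (y : K) (h : W.toAffine.Nonsingular r y), (2 * m + 1) • Point.some r y h = 0) :
    A.valuation ((2 * m + 1 : ℕ) : K) * ∏ r ∈ S, A.valuation r ≤ 1 := by
  have key := val_coeff_mul_prod_le_one A S (divPoly W (2 * m + 1)) (2 * m ^ 2 + 2 * m)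
    (val_coeff_divPoly_le_one A W hb ha _) (natDegree_divPoly_le W hm) (fun r hr => by
      obtain ⟨hv, y, h, hP⟩ := hS r hr
      exact ⟨(nsmul_eq_zero_iff h2 h3 h6 hm h).mp hP, hv⟩)
  rwa [coeff_divPoly W hm] at key

/-- If `n = 2m + 1` is a unit for the valuation, the points killed by `n` have integral
`x`-coordinate. -/
theorem val_x_le_one (h2 : (2 : K) ≠ 0) (h3 : W.a₃ = 0) (h6 : W.a₆ = 0)
    (hb : A.valuation W.b₂ ≤ 1) (ha : A.valuation W.a₄ ≤ 1) {m : ℕ} (hm : 1 ≤ m)
    (hn : A.valuation ((2 * m + 1 : ℕ) : K) = 1) {x y : K} (h : W.toAffine.Nonsingular x y)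
    (hP : (2 * m + 1) • Point.some x y h = 0) : A.valuation x ≤ 1 := by
  by_contra hc
  rw [not_le] at hc
  have := val_mul_prod_le_one A h2 h3 h6 hb ha hm {x} (fun r hr => by
    rw [Finset.mem_singleton] at hr
    subst hr
    exact ⟨hc, y, h, hP⟩)
  rw [hn, one_mul, Finset.prod_singleton] at this
  exact absurd this (not_le.mpr hc)

end Val

end Fermat.Agent.S13.LadderTorsion
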