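import Mathlib
import Fermat.Prelude.Def_FLTPrelim_Ramification
import Fermat.Agent.S05.Defs
import Fermat.Agent.S05.Val
import Fermat.Agent.S05.Good
import Fermat.Agent.S05.Kernel
import Fermat.Agent.S05.Kummer
import Fermat.Agent.S05.Core
import Fermat.Agent.S13.LadderTorsion

/-!
# S13, module (B): inertia at `p`

For the model `y² = x³ + a₂ x² + a₄ x` over `ℚ`, adapted at the odd prime `p` (good reduction,
or multiplicative reduction with `a₄` a unit times a `p`-th power), and a Galois-stable line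
`⟨P⟩` in the `p`-torsion: for every valuation subring `A` over `p`, either inertia fixes `P`, or
inertia acts trivially on the quotient of the `p`-torsion by `⟨P⟩`; and the alternative does not
depend on `A`.

The only input from the theory of division polynomials is the root lemma of the ladder
(`LadderTorsion.val_mul_prod_le_one`): `v(p) * ∏ v(x_R) ≤ 1` over any finite set of non-integral
`x`-coordinates of points of order `p`.
-/

set_option autoImplicit false
set_option linter.unusedSectionVars false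

namespace Fermat.Agent.S13.AtP

open WeierstrassCurve WeierstrassCurve.Affine Fermat.Agent.S05

/-! ### `x`-coordinates of multiples -/

section Multiples

variable {K : Type*} [Field K] [DecidableEq K] (A : ValuationSubring K) (W : WeierstrassCurve K)

/-- The `x`-coordinate of a point (`0` at the origin). -/
def xc : W.toAffine.Point → K
  | .zero => 0
  | .some x _ _ => x

@[simp] theorem xc_zero : xc W (0 : W.toAffine.Point) = 0 := rfl

@[simp] theorem xc_some {x y : K} (h : W.toAffine.Nonsingular x y) :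
    xc W (.some x y h) = x := rfl

theorem xc_neg (P : W.toAffine.Point) : xc W (-P) = xc W P := by
  cases P with
  | zero => rfl
  | some x y h => rfl

variable {W} in
theorem eq_or_eq_neg_of_xc_eq {P Q : W.toAffine.Point} (hP : P ≠ 0) (hQ : Q ≠ 0)
    (h : xc W P = xc W Q) : P = Q ∨ P = -Q := by
  cases P with
  | zero => exact absurd rfl hP
  | some x y hxy =>
    cases Q with
    | zero => exact absurd rfl hQ
    | some x' y' hxy' =>
      exact Affine.Point.X_eq_iff.mp h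

variable {A W} in
theorem inE1_iff_xc {P : W.toAffine.Point} (hP : P ≠ 0) :
    InE1 A W P ↔ 1 < A.valuation (xc W P) := by
  cases P with
  | zero => exact absurd rfl hP
  | some x y hxy => exact Iff.rfl

variable {A W} in
/-- On `E₁`: `v(x) * v(t)² = 1`. -/
theorem val_xc_mul_val_tCoord (hW : IsModel A W) {P : W.toAffine.Point} (hP : InE1 A W P)
    (hP0 : P ≠ 0) : A.valuation (xc W P) * A.valuation (tCoord W P) ^ 2 = 1 := by
  cases P with
  | zero => exact absurd rfl hP0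
  | some x y hxy => exact (Kernel.chart hW hxy.1 hP).val_x

variable {A W} in
/-- Multiplication by a unit on `E₁` preserves the valuation of the `x`-coordinate. -/
theorem val_xc_nsmul (hW : IsModel A W) {P : W.toAffine.Point} (hP : InE1 A W P) (hP0 : P ≠ 0)
    {k : ℕ} (hk : A.valuation (k : K) = 1) :
    InE1 A W (k • P) ∧ k • P ≠ 0 ∧ A.valuation (xc W (k • P)) = A.valuation (xc W P) := by
  obtain ⟨h1, h2⟩ := Kernel.nsmul_estimate A W hW hP k
  have ht0 : tCoord W P ≠ 0 := fun h0 => hP0 ((Kernel.tCoord_eq_zero_iff hW hP).mp h0)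
  have hρ0 : A.valuation (tCoord W P) ≠ 0 := (Valuation.ne_zero_iff _).mpr ht0
  have hρ1 : A.valuation (tCoord W P) < 1 := Kernel.val_tCoord_lt hW hP
  have hρ3 : A.valuation (tCoord W P) ^ 3 < A.valuation (tCoord W P) := by
    calc A.valuation (tCoord W P) ^ 3
        = A.valuation (tCoord W P) * A.valuation (tCoord W P) ^ 2 := by rw [pow_succ']
      _ < A.valuation (tCoord W P) * 1 := by
          refine (mul_lt_mul_iff_of_pos_left (zero_lt_iff.mpr hρ0)).mpr ?_
          exact (pow_lt_one_iff (by norm_num)).mpr hρ1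
      _ = A.valuation (tCoord W P) := mul_one _
  have hkt : A.valuation ((k : K) * tCoord W P) = A.valuation (tCoord W P) := by
    rw [map_mul, hk, one_mul]
  have hval : A.valuation (tCoord W (k • P)) = A.valuation (tCoord W P) := by
    have e : tCoord W (k • P) = (k : K) * tCoord W P + (tCoord W (k • P) - k * tCoord W P) := by
      ring
    rw [e, ← hkt]
    apply Valuation.map_add_eq_of_lt_left
    rw [hkt]
    exact lt_of_le_of_lt h2 hρ3
  have hk0 : k • P ≠ 0 := by
    intro h0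
    rw [h0, tCoord_zero, map_zero] at hval
    exact hρ0 hval.symm
  refine ⟨h1, hk0, ?_⟩
  have e1 := val_xc_mul_val_tCoord hW h1 hk0
  have e2 := val_xc_mul_val_tCoord hW hP hP0
  rw [hval] at e1
  have hne : A.valuation (tCoord W P) ^ 2 ≠ 0 := pow_ne_zero _ hρ0
  exact mul_right_cancel₀ hne (e1.trans e2.symm)

variable {A W} in
/-- `E₁` is stable under multiplication by natural numbers. -/
theorem inE1_nsmul (hW : IsModel A W) {P : W.toAffine.Point} (hP : InE1 A W P) (k : ℕ) :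
    InE1 A W (k • P) :=
  (Kernel.nsmul_estimate A W hW hP k).1

variable {W} in
/-- For a point of prime order `p` and `k` prime to `p`, `P` is a multiple of `k • P`. -/
theorem exists_nsmul_nsmul_eq {p : ℕ} (hp : p.Prime) {P : W.toAffine.Point} (hP : p • P = 0)
    {k : ℕ} (hk : ¬ p ∣ k) : ∃ k' : ℕ, k' • (k • P) = P := by
  have hcop : Nat.Coprime k p := (Nat.Coprime.symm ((Nat.Prime.coprime_iff_not_dvd hp).mpr hk))
  obtain ⟨m, -, hm⟩ := Nat.exists_mul_mod_eq_one_of_coprime hcop hp.one_lt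
  refine ⟨m, ?_⟩
  rw [← mul_nsmul', mul_comm m k]
  have : k * m = (k * m / p) * p + 1 := by
    have := Nat.div_add_mod (k * m) p
    rw [hm, mul_comm] at this
    exact this.symm
  rw [this, add_nsmul, mul_nsmul', hP, smul_zero, zero_add, one_nsmul]

variable {A W} in
theorem not_inE1_nsmul (hW : IsModel A W) {p : ℕ} (hp : p.Prime) {P : W.toAffine.Point}
    (hP : p • P = 0) (hP1 : ¬ InE1 A W P) {k : ℕ} (hk : ¬ p ∣ k) : ¬ InE1 A W (k • P) := by
  intro h
  obtain ⟨k', hk'⟩ := exists_nsmul_nsmul_eq hp hP hk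
  exact hP1 (hk' ▸ inE1_nsmul hW h k')

variable {W} in
/-- Reduce a multiple modulo `p`. -/
theorem nsmul_mod {p : ℕ} {P : W.toAffine.Point} (hP : p • P = 0) (k : ℕ) :
    (k % p) • P = k • P := by
  conv_rhs => rw [← Nat.div_add_mod k p]
  rw [add_nsmul, mul_comm, mul_nsmul', hP, smul_zero, zero_add]

/-- The set of `x`-coordinates of the nonzero multiples of `P`. -/
noncomputable def xSet (p : ℕ) (P : W.toAffine.Point) : Finset K :=
  (Finset.Ico 1 p).image (fun k => xc W (k • P))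

variable {W} in
theorem mem_xSet {p : ℕ} {P : W.toAffine.Point} {x : K} :
    x ∈ xSet W p P ↔ ∃ k, 1 ≤ k ∧ k < p ∧ xc W (k • P) = x := by
  unfold xSet
  rw [Finset.mem_image]
  constructor
  · rintro ⟨k, hk, rfl⟩
    rw [Finset.mem_Ico] at hk
    exact ⟨k, hk.1, hk.2, rfl⟩
  · rintro ⟨k, h1, h2, rfl⟩
    exact ⟨k, Finset.mem_Ico.mpr ⟨h1, h2⟩, rfl⟩

variable {W} in
theorem xc_nsmul_mem_xSet {p : ℕ} (hp : p.Prime) {P : W.toAffine.Point} (hP : p • P = 0)
    {k : ℕ} (hk : ¬ p ∣ k) : xc W (k • P) ∈ xSet W p P := by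
  rw [mem_xSet]
  refine ⟨k % p, ?_, Nat.mod_lt _ hp.pos, by rw [nsmul_mod hP]⟩
  rcases Nat.eq_zero_or_pos (k % p) with h | h
  · exact absurd (Nat.dvd_of_mod_eq_zero h) hk
  · exact h

end Multiples

/-! ### The `p`-torsion in the kernel of reduction -/

section Dichotomy

variable {K : Type*} [Field K] [DecidableEq K] {A : ValuationSubring K} {W : WeierstrassCurve K}

theorem some_of_ne_zero {P : W.toAffine.Point} (hP : P ≠ 0) :
    ∃ (x y : K) (h : W.toAffine.Nonsingular x y), P = Point.some x y h := by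
  cases P with
  | zero => exact absurd rfl hP
  | some x y h => exact ⟨x, y, h, rfl⟩

/-- If `P ∈ E₁` has order `p`, all elements of `xSet` have the valuation of `x(P)`. -/
theorem val_of_mem_xSet (hW : IsModel A W) {p : ℕ}
    (hunit : ∀ k, 1 ≤ k → k < p → A.valuation (k : K) = 1)
    {P : W.toAffine.Point} (hP0 : P ≠ 0) (hP1 : InE1 A W P) {x : K} (hx : x ∈ xSet W p P) :
    A.valuation x = A.valuation (xc W P) := by
  obtain ⟨k, hk1, hk2, rfl⟩ := mem_xSet.mp hx
  exact (val_xc_nsmul hW hP1 hP0 (hunit k hk1 hk2)).2.2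

/-- **The `p`-torsion of `E₁` is `⟨P⟩`**, if the product of the `x`-coordinates of the nonzero
multiples of `P ∈ E₁` is large. The hypothesis `hroot` is the root lemma of the ladder. -/
theorem torsion_inE1_subset (hW : IsModel A W) {p : ℕ}
    (hunit : ∀ k, 1 ≤ k → k < p → A.valuation (k : K) = 1)
    {P : W.toAffine.Point} (hP0 : P ≠ 0) (hP : p • P = 0) (hP1 : InE1 A W P)
    (hroot : ∀ S : Finset K, (∀ r ∈ S, 1 < A.valuation r ∧
      ∃ (y : K) (h : W.toAffine.Nonsingular r y), p • Point.some r y h = 0) →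
      A.valuation (p : K) * ∏ r ∈ S, A.valuation r ≤ 1)
    (hX : 1 ≤ A.valuation (p : K) * ∏ x ∈ xSet W p P, A.valuation x)
    {R : W.toAffine.Point} (hR : p • R = 0) (hR1 : InE1 A W R) : ∃ k : ℕ, R = k • P := by
  by_cases hR0 : R = 0
  · exact ⟨0, by rw [hR0, zero_smul]⟩
  by_cases hmem : xc W R ∈ xSet W p P
  · obtain ⟨k, hk1, hk2, hk⟩ := mem_xSet.mp hmem
    have hk0 : k • P ≠ 0 := (val_xc_nsmul hW hP1 hP0 (hunit k hk1 hk2)).2.1
    rcases eq_or_eq_neg_of_xc_eq hk0 hR0 hk with h | h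
    · exact ⟨k, h.symm⟩
    · refine ⟨p - k, ?_⟩
      have e : (p - k) • P + k • P = 0 := by
        rw [← add_nsmul, Nat.sub_add_cancel hk2.le, hP]
      have e' : (p - k) • P = -(k • P) := eq_neg_of_add_eq_zero_left e
      rw [e', h, neg_neg]
  · exfalso
    have hS : ∀ r ∈ insert (xc W R) (xSet W p P), 1 < A.valuation r ∧
        ∃ (y : K) (h : W.toAffine.Nonsingular r y), p • Point.some r y h = 0 := by
      intro r hr
      rcases Finset.mem_insert.mp hr with rfl | hr
      · obtain ⟨x, y, h, rfl⟩ := some_of_ne_zero hR0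
        exact ⟨hR1, y, h, hR⟩
      · have hv := val_of_mem_xSet hW hunit hP0 hP1 hr
        obtain ⟨k, hk1, hk2, rfl⟩ := mem_xSet.mp hr
        obtain ⟨-, hk0, -⟩ := val_xc_nsmul hW hP1 hP0 (hunit k hk1 hk2)
        refine ⟨?_, ?_⟩
        · rw [hv]
          exact (inE1_iff_xc hP0).mp hP1
        · obtain ⟨x, y, h, e⟩ := some_of_ne_zero hk0
          have hpk : p • (k • P) = 0 := by
            rw [smul_comm, hP, smul_zero]
          rw [e] at hpk ⊢
          exact ⟨y, h, hpk⟩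
    have h1 := hroot _ hS
    rw [Finset.prod_insert hmem] at h1
    have hR1' : 1 < A.valuation (xc W R) := (inE1_iff_xc hR0).mp hR1
    have h2 : 1 < A.valuation (p : K) * (A.valuation (xc W R) * ∏ x ∈ xSet W p P, A.valuation x) := by
      calc (1 : A.ValueGroup) < A.valuation (xc W R) := hR1'
        _ = A.valuation (xc W R) * 1 := (mul_one _).symm
        _ ≤ A.valuation (xc W R) * (A.valuation (p : K) * ∏ x ∈ xSet W p P, A.valuation x) :=
            mul_le_mul' le_rfl hX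
        _ = A.valuation (p : K) * (A.valuation (xc W R) * ∏ x ∈ xSet W p P, A.valuation x) := by
            rw [← mul_assoc, ← mul_assoc, mul_comm (A.valuation (xc W R))]
    exact absurd h1 (not_le.mpr h2)

/-- If `P ∉ E₁` has order `p`, no nonzero multiple of `P` is in `E₁`. -/
theorem nsmul_eq_zero_of_inE1 (hW : IsModel A W) {p : ℕ} (hp : p.Prime)
    {P : W.toAffine.Point} (hP : p • P = 0) (hP1 : ¬ InE1 A W P) {k : ℕ}
    (h : InE1 A W (k • P)) : k • P = 0 := by
  by_cases hk : p ∣ k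
  · obtain ⟨j, rfl⟩ := hk
    rw [mul_nsmul, hP, smul_zero]
  · exact absurd h (not_inE1_nsmul hW hp hP hP1 hk)

/-- If `P ∉ E₁` has order `p`, all elements of `xSet` are integral. -/
theorem val_le_of_mem_xSet (hW : IsModel A W) {p : ℕ} (hp : p.Prime)
    {P : W.toAffine.Point} (hP : p • P = 0) (hP1 : ¬ InE1 A W P) {x : K}
    (hx : x ∈ xSet W p P) : A.valuation x ≤ 1 := by
  obtain ⟨k, hk1, hk2, rfl⟩ := mem_xSet.mp hx
  have hk : ¬ p ∣ k := fun h => absurd (Nat.le_of_dvd hk1 h) (not_le.mpr hk2)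
  have h1 := not_inE1_nsmul hW hp hP hP1 hk
  by_cases h0 : k • P = 0
  · rw [h0, xc_zero, map_zero]
    exact zero_le_one
  · rw [inE1_iff_xc h0] at h1
    exact not_lt.mp h1

end Dichotomy

/-! ### Valuations of rational numbers -/

section Rat

variable {L : Type*} [Field L] [Algebra ℚ L] (A : ValuationSubring L) {p : ℕ}

theorem algebraMap_rat_eq (r : ℚ) : algebraMap ℚ L r = (r.num : L) / (r.den : L) := by
  have : CharZero L := algebraRat.charZero L
  rw [eq_ratCast, Rat.cast_def]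

/-- A rational number is not integral at `A` over `p` iff `p` divides its denominator. -/
theorem one_lt_val_rat_iff (hp : p.Prime) (hA : A.LiesOverPrime p) (r : ℚ) :
    1 < A.valuation (algebraMap ℚ L r) ↔ p ∣ r.den := by
  have : CharZero L := algebraRat.charZero L
  rw [algebraMap_rat_eq, map_div₀]
  constructor
  · intro h
    by_contra hd
    rw [Val.valuation_natCast_eq_one A hp hA hd, div_one] at h
    exact absurd (Val.valuation_intCast_le_one A r.num) (not_le.mpr h)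
  · intro hd
    have hnum : ¬ (p : ℤ) ∣ r.num := by
      intro hn
      have h1 : p ∣ r.num.natAbs := Int.natCast_dvd.mp hn
      have hcop : Nat.Coprime r.num.natAbs r.den := r.reduced
      exact hp.one_lt.ne' (Nat.eq_one_of_dvd_coprimes hcop h1 hd)
    rw [Val.valuation_intCast_eq_one A hp hA hnum]
    have hlt : A.valuation (r.den : L) < 1 := by
      have := Val.valuation_intCast_lt_one_of_dvd (L := L) A hA (n := (r.den : ℤ))
        (by exact_mod_cast hd)
      simpa using this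
    have h0 : A.valuation (r.den : L) ≠ 0 := by
      rw [Valuation.ne_zero_iff]
      exact Nat.cast_ne_zero.mpr r.den_ne_zero
    rw [one_div]
    exact (one_lt_inv₀ (zero_lt_iff.mpr h0)).mpr hlt

/-- A rational number which is not integral at `A` over `p` has valuation at least
`v(p)⁻¹`. -/
theorem one_le_val_p_mul_val_rat (hp : p.Prime) (hA : A.LiesOverPrime p) (r : ℚ)
    (h : 1 < A.valuation (algebraMap ℚ L r)) :
    1 ≤ A.valuation (p : L) * A.valuation (algebraMap ℚ L r) := by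
  have : CharZero L := algebraRat.charZero L
  have hd : p ∣ r.den := (one_lt_val_rat_iff A hp hA r).mp h
  have hnum : ¬ (p : ℤ) ∣ r.num := by
    intro hn
    have h1 : p ∣ r.num.natAbs := Int.natCast_dvd.mp hn
    have hcop : Nat.Coprime r.num.natAbs r.den := r.reduced
    exact hp.one_lt.ne' (Nat.eq_one_of_dvd_coprimes hcop h1 hd)
  rw [algebraMap_rat_eq, map_div₀, Val.valuation_intCast_eq_one A hp hA hnum]
  obtain ⟨d, hd'⟩ := hd
  have h0 : A.valuation (r.den : L) ≠ 0 := by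
    rw [Valuation.ne_zero_iff]
    exact Nat.cast_ne_zero.mpr r.den_ne_zero
  have hle : A.valuation (r.den : L) ≤ A.valuation (p : L) := by
    rw [hd', Nat.cast_mul, map_mul]
    have : A.valuation (d : L) ≤ 1 := by
      have := Val.valuation_intCast_le_one (L := L) A (d : ℤ)
      simpa using this
    calc A.valuation (p : L) * A.valuation (d : L) ≤ A.valuation (p : L) * 1 :=
          mul_le_mul' le_rfl this
      _ = A.valuation (p : L) := mul_one _
  rw [one_div, ← div_eq_mul_inv]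
  exact (one_le_div₀ (zero_lt_iff.mpr h0)).mpr hle

end Rat

/-! ### The Galois action -/

section Galois

variable {L : Type*} [Field L] [DecidableEq L] [Algebra ℚ L]
  (W' : WeierstrassCurve ℚ) (A : ValuationSubring L)

theorem xc_smul (σ : L ≃ₐ[ℚ] L) (R : (W'⁄L).Point) :
    xc (W'⁄L) (σ • R) = σ (xc (W'⁄L) R) := by
  cases R with
  | zero =>
    show xc (W'⁄L) (σ • (0 : (W'⁄L).Point)) = σ 0
    rw [Core.smul_zero', xc_zero, map_zero]
  | some x y h =>
    rw [Core.smul_some]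
    rfl

theorem smul_eq_zero_iff' (σ : L ≃ₐ[ℚ] L) (R : (W'⁄L).Point) : σ • R = 0 ↔ R = 0 := by
  constructor
  · intro h
    calc R = σ⁻¹ • σ • R := (inv_smul_smul σ R).symm
      _ = σ⁻¹ • (0 : (W'⁄L).Point) := by rw [h]
      _ = 0 := Core.smul_zero' W' σ⁻¹
  · rintro rfl
    exact Core.smul_zero' W' σ

variable {W'} in
/-- The set of `x`-coordinates of the nonzero multiples of a point generating a Galois-stable
subgroup of prime order is Galois-stable. -/
theorem image_xSet {p : ℕ} (hp : p.Prime) {P : (W'⁄L).Point} (hP0 : P ≠ 0) (hP : p • P = 0)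
    (σ : L ≃ₐ[ℚ] L) {m : ℕ} (hm : σ • P = m • P) :
    (xSet (W'⁄L) p P).image σ = xSet (W'⁄L) p P := by
  have hpm : ¬ p ∣ m := by
    rintro ⟨j, rfl⟩
    rw [mul_nsmul, hP, smul_zero] at hm
    exact hP0 ((smul_eq_zero_iff' W' σ P).mp hm)
  apply Finset.eq_of_subset_of_card_le
  · intro x hx
    obtain ⟨x₀, hx₀, rfl⟩ := Finset.mem_image.mp hx
    obtain ⟨k, hk1, hk2, rfl⟩ := mem_xSet.mp hx₀
    have hk : ¬ p ∣ k := fun h => absurd (Nat.le_of_dvd hk1 h) (not_le.mpr hk2)
    rw [← xc_smul, Core.smul_nsmul', hm, ← mul_nsmul']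
    apply xc_nsmul_mem_xSet hp hP
    intro h
    rcases (Nat.Prime.dvd_mul hp).mp h with h | h
    · exact hk h
    · exact hpm h
  · rw [Finset.card_image_of_injective _ σ.injective]

variable {W'} in
theorem map_prod_xSet {p : ℕ} (hp : p.Prime) {P : (W'⁄L).Point} (hP0 : P ≠ 0) (hP : p • P = 0)
    (σ : L ≃ₐ[ℚ] L) {m : ℕ} (hm : σ • P = m • P) :
    σ (∏ x ∈ xSet (W'⁄L) p P, x) = ∏ x ∈ xSet (W'⁄L) p P, x := by
  rw [map_prod]
  conv_rhs => rw [← image_xSet hp hP0 hP σ hm]
  rw [Finset.prod_image]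
  intro a _ b _ hab
  exact σ.injective hab

/-- Elements fixed by the Galois group are rational. -/
theorem exists_rat_of_fixed [Algebra.IsAlgebraic ℚ L] [IsAlgClosed L] (x : L)
    (h : ∀ σ : L ≃ₐ[ℚ] L, σ x = x) : ∃ r : ℚ, algebraMap ℚ L r = x := by
  have hcl : IsAlgClosure ℚ L := ⟨inferInstance, inferInstance⟩
  have hG : IsGalois ℚ L := IsAlgClosure.isGalois ℚ L
  exact (InfiniteGalois.mem_range_algebraMap_iff_fixed (k := ℚ) (K := L) x).mpr h

variable {W' A} in
/-- Step 0, good reduction: inertia moves every point by an element of `E₁`. -/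
theorem inE1_smul_sub_good [Algebra.IsAlgebraic ℚ L] (hW : IsGoodModel A (W'⁄L))
    {σ : L ≃ₐ[ℚ] L} (hσ : σ ∈ A.inertiaSubgroupIn ℚ) (Q : (W'⁄L).Point) :
    InE1 A (W'⁄L) (σ • Q - Q) :=
  Core.inE1_smul_sub hW.toIsModel hσ (Good.isGood_of_goodModel A _ hW Q)

variable {W' A} in
/-- Step 0, multiplicative reduction with `v(a₄)` an `n`-th power of the valuation of a rational
number: inertia moves every `n`-torsion point by an element of `E₁`. (The residue characteristic
is allowed to divide `n`.) -/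
theorem inE1_smul_sub_mult [Algebra.IsAlgebraic ℚ L] [IsAlgClosed L]
    (hW : IsMultModel A (W'⁄L)) {σ : L ≃ₐ[ℚ] L} (hσ : σ ∈ A.inertiaSubgroupIn ℚ) {n : ℕ}
    (hn0 : n ≠ 0) (b : ℚ) (hb : A.valuation (W'⁄L).a₄ = A.valuation (algebraMap ℚ L b) ^ n)
    {Q : (W'⁄L).Point} (hQ : n • Q = 0) : InE1 A (W'⁄L) (σ • Q - Q) := by
  have hM : IsModel A (W'⁄L) := hW.toIsModel
  by_cases hg : IsGood A (W'⁄L) Q
  · exact Core.inE1_smul_sub hM hσ hg
  · obtain ⟨m, hm⟩ := Kummer.exists_zpow_of_nsmul_eq_zero hW hQ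
    have hell1 : ell A (W'⁄L) Q ≠ 1 := fun h => hg ((Good.isGood_iff_ell_eq_one A _ hW Q).2 h)
    have hell_le : ell A (W'⁄L) Q ≤ 1 := Kummer.ell_le_one hW Q
    have hell_ge : A.valuation (W'⁄L).a₄ ≤ ell A (W'⁄L) Q := Kummer.beta_le_ell hW Q
    have hz : ell A (W'⁄L) Q = A.valuation (algebraMap ℚ L (b ^ (2 * m))) := by
      have h1 : ell A (W'⁄L) Q ^ n = A.valuation (algebraMap ℚ L (b ^ (2 * m))) ^ n := by
        rw [hm, hb, map_zpow₀, map_zpow₀, ← zpow_natCast, ← zpow_natCast, ← zpow_mul, ← zpow_mul,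
          mul_comm]
      exact (pow_left_inj hn0).mp h1
    obtain ⟨T, hσT, hT⟩ := Core.exists_fixed hW hσ (b ^ (2 * m)) hz
      (lt_of_le_of_ne hell_le hell1) hell_ge
    rcases Kummer.isGood_add_or_sub hW hT.symm with h | h
    · have := Core.inE1_smul_sub hM hσ h
      rw [Core.smul_add', hσT] at this
      have e : σ • Q + T - (Q + T) = σ • Q - Q := by abel
      rwa [e] at this
    · have := Core.inE1_smul_sub hM hσ h
      rw [Core.smul_sub', hσT] at this
      have e : σ • Q - T - (Q - T) = σ • Q - Q := by abel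
      rwa [e] at this

variable {W' A} in
/-- Case (a): if `P ∉ E₁` generates a Galois-stable line and inertia moves `P` by an element of
`E₁`, then inertia fixes `P`. -/
theorem smul_eq_of_not_inE1 (hW : IsModel A (W'⁄L)) {p : ℕ} (hp : p.Prime)
    {P : (W'⁄L).Point} (hP : p • P = 0) (hP1 : ¬ InE1 A (W'⁄L) P) {σ : L ≃ₐ[ℚ] L} {m : ℕ}
    (hm : σ • P = m • P) (h : InE1 A (W'⁄L) (σ • P - P)) : σ • P = P := by
  have e1 : (p - 1) • P = -P := by
    have e : (p - 1) • P + P = 0 := by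
      rw [← succ_nsmul, Nat.sub_add_cancel hp.one_le, hP]
    exact eq_neg_of_add_eq_zero_left e
  have e2 : σ • P - P = (m + (p - 1)) • P := by
    rw [add_nsmul, e1, hm, sub_eq_add_neg]
  rw [e2] at h
  have h0 := nsmul_eq_zero_of_inE1 hW hp hP hP1 h
  rw [← e2] at h0
  exact sub_eq_zero.mp h0

variable {W' A} in
/-- Case (b): if `P ∈ E₁` and the `p`-torsion of `E₁` is `⟨P⟩`, then inertia acts trivially
modulo `⟨P⟩`. -/
theorem smul_sub_mem_of_inE1 (hW : IsModel A (W'⁄L)) {p : ℕ}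
    (hunit : ∀ k, 1 ≤ k → k < p → A.valuation (k : L) = 1)
    {P : (W'⁄L).Point} (hP0 : P ≠ 0) (hP : p • P = 0) (hP1 : InE1 A (W'⁄L) P)
    (hroot : ∀ S : Finset L, (∀ r ∈ S, 1 < A.valuation r ∧
      ∃ (y : L) (h : (W'⁄L).Nonsingular r y), p • Point.some r y h = 0) →
      A.valuation (p : L) * ∏ r ∈ S, A.valuation r ≤ 1)
    (hX : 1 ≤ A.valuation (p : L) * ∏ x ∈ xSet (W'⁄L) p P, A.valuation x)
    {σ : L ≃ₐ[ℚ] L} {Q : (W'⁄L).Point} (hQ : p • Q = 0)
    (h : InE1 A (W'⁄L) (σ • Q - Q)) : ∃ k : ℕ, σ • Q - Q = k • P := by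
  have hT : p • (σ • Q - Q) = 0 := by
    rw [smul_sub, ← Core.smul_nsmul', hQ, Core.smul_zero', sub_zero]
  exact torsion_inE1_subset hW hunit hP0 hP hP1 hroot hX hT h

/-- The facts about the model at a valuation subring over `p`. -/
theorem model_facts [Algebra.IsAlgebraic ℚ L] {p : ℕ} (hp : p.Prime) (hp2 : p ≠ 2)
    (a₂ a₄ : ℤ) (hW' : W' = ⟨0, (a₂ : ℚ), 0, (a₄ : ℚ), 0⟩)
    (h : (¬ (p : ℤ) ∣ a₄ ∧ ¬ (p : ℤ) ∣ a₂ ^ 2 - 4 * a₄) ∨
      (¬ (p : ℤ) ∣ a₂ ∧ ∃ u b₀ : ℤ, a₄ = u * b₀ ^ p ∧ ¬ (p : ℤ) ∣ u ∧ (p : ℤ) ∣ b₀ ∧ b₀ ≠ 0))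
    (hA : A.LiesOverPrime p) :
    IsGoodModel A (W'⁄L) ∨ (IsMultModel A (W'⁄L) ∧
      ∃ b : ℚ, A.valuation (W'⁄L).a₄ = A.valuation (algebraMap ℚ L b) ^ p) := by
  have e₂ : (W'⁄L).a₂ = (a₂ : L) := by
    rw [Core.baseChange_a₂]; simp [hW']
  have e₄ : (W'⁄L).a₄ = (a₄ : L) := by
    rw [Core.baseChange_a₄]; simp [hW']
  have hM : IsModel A (W'⁄L) :=
    { a₁ := by show algebraMap ℚ L W'.a₁ = 0; simp [hW']
      a₃ := by show algebraMap ℚ L W'.a₃ = 0; simp [hW']
      a₆ := by show algebraMap ℚ L W'.a₆ = 0; simp [hW']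
      a₂_le := by rw [e₂]; exact Val.valuation_intCast_le_one A a₂
      a₄_le := by rw [e₄]; exact Val.valuation_intCast_le_one A a₄
      two := Val.valuation_two_eq_one A hp hp2 hA }
  rcases h with ⟨h4, hd⟩ | ⟨h2, u, b₀, hab, hu, hb, hb0⟩
  · left
    exact
      { hM with
        a₄_unit := by rw [e₄]; exact Val.valuation_intCast_eq_one A hp hA h4
        disc_unit := by
          rw [e₂, e₄]
          have := Val.valuation_intCast_eq_one (L := L) A hp hA hd
          push_cast at this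
          exact this }
  · right
    refine ⟨?_, (b₀ : ℚ), ?_⟩
    · exact
        { hM with
          a₂_unit := by rw [e₂]; exact Val.valuation_intCast_eq_one A hp hA h2
          a₄_lt := by
            rw [e₄]
            apply Val.valuation_intCast_lt_one_of_dvd A hA
            rw [hab]
            exact Dvd.dvd.mul_left (dvd_pow hb hp.ne_zero) u
          a₄_ne := by
            rw [e₄]
            have hu0 : u ≠ 0 := by
              rintro rfl
              exact hu (dvd_zero _)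
            have h40 : a₄ ≠ 0 := by
              rw [hab]
              exact mul_ne_zero hu0 (pow_ne_zero _ hb0)
            have hc : CharZero L := algebraRat.charZero L
            exact Int.cast_ne_zero.2 h40 }
    · rw [e₄, hab]
      push_cast
      rw [map_mul, map_pow, Val.valuation_intCast_eq_one A hp hA hu, one_mul]
      simp

variable {W' A} in
/-- Step 0 for an adapted model. -/
theorem inE1_smul_sub_torsion [Algebra.IsAlgebraic ℚ L] [IsAlgClosed L] {p : ℕ} (hp : p.Prime)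
    (hW : IsGoodModel A (W'⁄L) ∨ (IsMultModel A (W'⁄L) ∧
      ∃ b : ℚ, A.valuation (W'⁄L).a₄ = A.valuation (algebraMap ℚ L b) ^ p))
    {σ : L ≃ₐ[ℚ] L} (hσ : σ ∈ A.inertiaSubgroupIn ℚ) {Q : (W'⁄L).Point} (hQ : p • Q = 0) :
    InE1 A (W'⁄L) (σ • Q - Q) := by
  rcases hW with hG | ⟨hMu, b, hb⟩
  · exact inE1_smul_sub_good hG hσ Q
  · exact inE1_smul_sub_mult hMu hσ hp.ne_zero b hb hQ

theorem isModel_of_facts {p : ℕ}
    (hW : IsGoodModel A (W'⁄L) ∨ (IsMultModel A (W'⁄L) ∧
      ∃ b : ℚ, A.valuation (W'⁄L).a₄ = A.valuation (algebraMap ℚ L b) ^ p)) :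
    IsModel A (W'⁄L) := by
  rcases hW with hG | ⟨hMu, -⟩
  · exact hG.toIsModel
  · exact hMu.toIsModel

/-- **Inertia at `p`** on the `p`-torsion of an adapted model, in the presence of a
Galois-stable line `⟨P⟩`: either all inertia groups over `p` fix `P`, or all of them act
trivially modulo `⟨P⟩`. -/
theorem atP_aux [Algebra.IsAlgebraic ℚ L] [IsAlgClosed L] {p : ℕ} (hp : p.Prime) (hp2 : p ≠ 2)
    (a₂ a₄ : ℤ) (hW' : W' = ⟨0, (a₂ : ℚ), 0, (a₄ : ℚ), 0⟩)
    (h : (¬ (p : ℤ) ∣ a₄ ∧ ¬ (p : ℤ) ∣ a₂ ^ 2 - 4 * a₄) ∨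
      (¬ (p : ℤ) ∣ a₂ ∧ ∃ u b₀ : ℤ, a₄ = u * b₀ ^ p ∧ ¬ (p : ℤ) ∣ u ∧ (p : ℤ) ∣ b₀ ∧ b₀ ≠ 0))
    {P : (W'⁄L).Point} (hP0 : P ≠ 0) (hP : p • P = 0)
    (hstab : ∀ σ : L ≃ₐ[ℚ] L, ∃ m : ℕ, σ • P = m • P) :
    (∀ A : ValuationSubring L, A.LiesOverPrime p → ∀ σ ∈ A.inertiaSubgroupIn ℚ, σ • P = P) ∨
    (∀ A : ValuationSubring L, A.LiesOverPrime p → ∀ σ ∈ A.inertiaSubgroupIn ℚ,
      ∀ Q : (W'⁄L).Point, p • Q = 0 → ∃ k : ℕ, σ • Q - Q = k • P) := by
  have hc : CharZero L := algebraRat.charZero L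
  -- the rational number `∏ x(kP)`
  obtain ⟨r, hr⟩ := exists_rat_of_fixed (∏ x ∈ xSet (W'⁄L) p P, x) (fun σ => by
    obtain ⟨m, hm⟩ := hstab σ
    exact map_prod_xSet hp hP0 hP σ hm)
  have hval : ∀ A : ValuationSubring L, A.valuation (algebraMap ℚ L r) =
      ∏ x ∈ xSet (W'⁄L) p P, A.valuation x := by
    intro A
    rw [hr, map_prod]
  have hne : (xSet (W'⁄L) p P).Nonempty := by
    refine ⟨xc (W'⁄L) (1 • P), mem_xSet.mpr ⟨1, le_rfl, hp.one_lt, rfl⟩⟩
  -- `p = 2 * m + 1`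
  obtain ⟨m, hm1, hpm⟩ : ∃ m, 1 ≤ m ∧ p = 2 * m + 1 := by
    rcases hp.eq_two_or_odd with h2 | h2
    · exact absurd h2 hp2
    · refine ⟨p / 2, ?_, ?_⟩
      · have := hp.two_le
        omega
      · omega
  by_cases hden : p ∣ r.den
  · right
    intro A hA σ hσ Q hQ
    have hfacts := model_facts W' A hp hp2 a₂ a₄ hW' h hA
    have hM : IsModel A (W'⁄L) := isModel_of_facts W' A hfacts
    have hunit : ∀ k, 1 ≤ k → k < p → A.valuation (k : L) = 1 := by
      intro k hk1 hk2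
      apply Val.valuation_natCast_eq_one A hp hA
      intro hdvd
      exact absurd (Nat.le_of_dvd hk1 hdvd) (not_le.mpr hk2)
    have hv : 1 < A.valuation (algebraMap ℚ L r) := (one_lt_val_rat_iff A hp hA r).mpr hden
    have hP1 : InE1 A (W'⁄L) P := by
      by_contra hP1
      have : A.valuation (algebraMap ℚ L r) ≤ 1 := by
        rw [hval]
        exact Finset.prod_le_one' (fun x hx => val_le_of_mem_xSet hM hp hP hP1 hx)
      exact absurd hv (not_lt.mpr this)
    have hX : 1 ≤ A.valuation (p : L) * ∏ x ∈ xSet (W'⁄L) p P, A.valuation x := by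
      rw [← hval]
      exact one_le_val_p_mul_val_rat A hp hA r hv
    have h2 : (2 : L) ≠ 0 := two_ne_zero
    have hb : A.valuation (W'⁄L).b₂ ≤ 1 := by
      have e : (W'⁄L).b₂ = (W'⁄L).a₁ ^ 2 + 4 * (W'⁄L).a₂ := rfl
      rw [e, hM.a₁]
      have h4 : A.valuation (4 : L) ≤ 1 := by
        have := Val.valuation_intCast_le_one (L := L) A 4
        simpa using this
      have : A.valuation (4 * (W'⁄L).a₂) ≤ 1 := by
        rw [map_mul]
        exact mul_le_one' h4 hM.a₂_le
      simpa using this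
    have hroot : ∀ S : Finset L, (∀ r ∈ S, 1 < A.valuation r ∧
        ∃ (y : L) (h : (W'⁄L).Nonsingular r y), p • Point.some r y h = 0) →
        A.valuation (p : L) * ∏ r ∈ S, A.valuation r ≤ 1 := by
      intro S hS
      have := LadderTorsion.val_mul_prod_le_one (W := (W'⁄L)) A h2 hM.a₃ hM.a₆ hb hM.a₄_le hm1 S
        (by
          intro r hr
          obtain ⟨h1, y, hy, h0⟩ := hS r hr
          refine ⟨h1, y, hy, ?_⟩
          rw [← hpm]
          exact h0)
      rw [← hpm] at this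
      exact this
    exact smul_sub_mem_of_inE1 hM hunit hP0 hP hP1 hroot hX hQ
      (inE1_smul_sub_torsion hp hfacts hσ hQ)
  · left
    intro A hA σ hσ
    have hfacts := model_facts W' A hp hp2 a₂ a₄ hW' h hA
    have hM : IsModel A (W'⁄L) := isModel_of_facts W' A hfacts
    have hunit : ∀ k, 1 ≤ k → k < p → A.valuation (k : L) = 1 := by
      intro k hk1 hk2
      apply Val.valuation_natCast_eq_one A hp hA
      intro hdvd
      exact absurd (Nat.le_of_dvd hk1 hdvd) (not_le.mpr hk2)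
    have hv : ¬ 1 < A.valuation (algebraMap ℚ L r) := fun hv =>
      hden ((one_lt_val_rat_iff A hp hA r).mp hv)
    have hP1 : ¬ InE1 A (W'⁄L) P := by
      intro hP1
      apply hv
      rw [hval, Finset.prod_congr rfl (fun x hx => val_of_mem_xSet hM hunit hP0 hP1 hx),
        Finset.prod_const]
      exact one_lt_pow₀ ((inE1_iff_xc hP0).mp hP1) (Finset.card_ne_zero.mpr hne)
    obtain ⟨m', hm'⟩ := hstab σ
    exact smul_eq_of_not_inE1 hM hp hP hP1 hm' (inE1_smul_sub_torsion hp hfacts hσ hP)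

/-- **Inertia at `p`**, for the explicit model `y² = x³ + a₂ x² + a₄ x`. -/
theorem atP [Algebra.IsAlgebraic ℚ L] [IsAlgClosed L] {p : ℕ} (hp : p.Prime) (hp2 : p ≠ 2)
    (a₂ a₄ : ℤ)
    (h : (¬ (p : ℤ) ∣ a₄ ∧ ¬ (p : ℤ) ∣ a₂ ^ 2 - 4 * a₄) ∨
      (¬ (p : ℤ) ∣ a₂ ∧ ∃ u b₀ : ℤ, a₄ = u * b₀ ^ p ∧ ¬ (p : ℤ) ∣ u ∧ (p : ℤ) ∣ b₀ ∧ b₀ ≠ 0))
    {P : ((⟨0, (a₂ : ℚ), 0, (a₄ : ℚ), 0⟩ : WeierstrassCurve ℚ)⁄L).Point} (hP0 : P ≠ 0)
    (hP : p • P = 0) (hstab : ∀ σ : L ≃ₐ[ℚ] L, ∃ m : ℕ, σ • P = m • P) :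
    (∀ A : ValuationSubring L, A.LiesOverPrime p → ∀ σ ∈ A.inertiaSubgroupIn ℚ, σ • P = P) ∨
    (∀ A : ValuationSubring L, A.LiesOverPrime p → ∀ σ ∈ A.inertiaSubgroupIn ℚ,
      ∀ Q : ((⟨0, (a₂ : ℚ), 0, (a₄ : ℚ), 0⟩ : WeierstrassCurve ℚ)⁄L).Point, p • Q = 0 →
        ∃ k : ℕ, σ • Q - Q = k • P) :=
  atP_aux _ hp hp2 a₂ a₄ rfl h hP0 hP hstab

end Galois

end Fermat.Agent.S13.AtP
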