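import Mathlib
import Fermat.Prelude.Def_FLTPrelim_GaloisRep
import Fermat.Prelude.Def_FLTPrelim_CofixedLine
import Fermat.Prelude.Def_FLTPrelim_Ramification
import Fermat.Agent.S51.GalLine

/-!
# S13: Galois bookkeeping for a stable line in `E[p]`

Everything is stated for a Weierstrass curve `W'` over `ℚ` and an arbitrary field `L` with an
algebra structure over `ℚ` (so that it applies to `AlgebraicClosure ℚ` with any instance).

* `isOpen_stabilizer`: the stabilizer of a point of `E(L)` is open in `Gal(L/ℚ)`;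
* `fixLine N`, `cofix N`: the subgroups of `Gal(L/ℚ)` acting trivially on a stable submodule `N`
  of `V = E[p]`, resp. on `V / N`; they are normal and open;
* `mem_of_unipotent`: an element with `(σ - 1)² = 0` on `V` lies in both (when `N` is a line in a
  plane);
* `cofixed_of_cofix_eq_top`, `exists_rational_of_fixLine_eq_top`: the two end games;
* `main`: the assembly of the local inputs into `HasGaloisStableCofixedLine`.
-/

set_option autoImplicit false

namespace Fermat.Agent.S13.Chars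

open WeierstrassCurve WeierstrassCurve.Affine WeierstrassCurve.Affine.Point

variable {L : Type*} [Field L] [DecidableEq L] [Algebra ℚ L]
variable {W' : WeierstrassCurve ℚ} {p : ℕ}

/-! ### Stabilizers of points are open -/

theorem smul_some_eq (σ : L ≃ₐ[ℚ] L) {x y : L} (h : (W'⁄L).Nonsingular x y)
    (hx : σ x = x) (hy : σ y = y) :
    σ • (Point.some x y h : (W'⁄L).Point) = Point.some x y h := by
  obtain ⟨h', e⟩ := Fermat.Agent.S51.GalLine.galois_smul_some (S := ℚ) (W' := W') σ h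
  rw [e]
  simp only [Point.some.injEq]
  exact ⟨hx, hy⟩

theorem isOpen_stabilizer [Algebra.IsAlgebraic ℚ L] (Q : (W'⁄L).Point) :
    IsOpen ((MulAction.stabilizer (L ≃ₐ[ℚ] L) Q : Subgroup (L ≃ₐ[ℚ] L)) :
      Set (L ≃ₐ[ℚ] L)) := by
  rcases Q with _ | ⟨x, y, h⟩
  · have : (MulAction.stabilizer (L ≃ₐ[ℚ] L) (Point.zero : (W'⁄L).Point)) = ⊤ := by
      ext σ
      simp only [MulAction.mem_stabilizer_iff, Subgroup.mem_top, iff_true]
      exact smul_zero (A := (W'⁄L).Point) σ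
    rw [this]
    exact isOpen_univ
  · have hfd : FiniteDimensional ℚ (IntermediateField.adjoin ℚ ({x, y} : Set L)) := by
      apply IntermediateField.finiteDimensional_adjoin
      intro z _
      exact (Algebra.IsAlgebraic.isAlgebraic z).isIntegral
    have hopen := IntermediateField.fixingSubgroup_isOpen
      (IntermediateField.adjoin ℚ ({x, y} : Set L))
    refine Subgroup.isOpen_mono ?_ hopen
    intro σ hσ
    rw [MulAction.mem_stabilizer_iff]
    have hx : σ x = x := by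
      have := (IntermediateField.mem_fixingSubgroup_iff _ σ).mp hσ x
        (IntermediateField.subset_adjoin ℚ _ (by simp))
      exact this
    have hy : σ y = y := by
      have := (IntermediateField.mem_fixingSubgroup_iff _ σ).mp hσ y
        (IntermediateField.subset_adjoin ℚ _ (by simp))
      exact this
    exact smul_some_eq σ h hx hy


/-! ### Subgroups attached to a stable submodule -/


/-- A subgroup of `Gal(L/ℚ)` containing all elements acting trivially on `E[p]` is open. -/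
theorem isOpen_of_fixAll_le [Algebra.IsAlgebraic ℚ L] [Finite (Submodule.torsionBy ℤ (W'⁄L).Point p)] (H : Subgroup (L ≃ₐ[ℚ] L))
    (hH : ∀ σ : L ≃ₐ[ℚ] L, (∀ x : (Submodule.torsionBy ℤ (W'⁄L).Point p), σ • x = x) → σ ∈ H) :
    IsOpen (H : Set (L ≃ₐ[ℚ] L)) := by
  have hopen : IsOpen ((⨅ x : (Submodule.torsionBy ℤ (W'⁄L).Point p), MulAction.stabilizer (L ≃ₐ[ℚ] L) (x : (W'⁄L).Point) :
      Subgroup (L ≃ₐ[ℚ] L)) : Set (L ≃ₐ[ℚ] L)) := by
    rw [Subgroup.coe_iInf]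
    exact isOpen_iInter_of_finite fun x => isOpen_stabilizer _
  refine Subgroup.isOpen_mono ?_ hopen
  intro σ hσ
  apply hH
  intro x
  have := (Subgroup.mem_iInf.mp hσ) x
  rw [MulAction.mem_stabilizer_iff] at this
  exact Subtype.ext this


/-! ### The action on `E[p]`, with the instances of the frozen statements -/

section Action

variable (σ τ : L ≃ₐ[ℚ] L) (x y : (Submodule.torsionBy ℤ (W'⁄L).Point p))

theorem g_mul_smul : (σ * τ) • x = σ • τ • x := mul_smul σ τ x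
theorem g_one_smul : (1 : L ≃ₐ[ℚ] L) • x = x := one_smul (L ≃ₐ[ℚ] L) x
theorem g_smul_add : σ • (x + y) = σ • x + σ • y := smul_add σ x y
theorem g_smul_sub : σ • (x - y) = σ • x - σ • y := smul_sub σ x y
theorem g_smul_neg : σ • (-x) = -(σ • x) := smul_neg σ x
theorem g_smul_zero : σ • (0 : (Submodule.torsionBy ℤ (W'⁄L).Point p)) = 0 :=
  smul_zero (A := (Submodule.torsionBy ℤ (W'⁄L).Point p)) σ
theorem g_inv_smul_smul : σ⁻¹ • σ • x = x := inv_smul_smul σ x
theorem g_smul_inv_smul : σ • σ⁻¹ • x = x := smul_inv_smul σ x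

end Action

/-- The Galois action commutes with the `ZMod p`-module structure. -/
theorem smul_zmod_comm [NeZero p] (σ : L ≃ₐ[ℚ] L) (c : ZMod p) (x : (Submodule.torsionBy ℤ (W'⁄L).Point p)) :
    σ • (c • x) = c • (σ • x) := by
  have h1 : ∀ z : (Submodule.torsionBy ℤ (W'⁄L).Point p), c • z = c.val • z := fun z => by
    conv_lhs => rw [← ZMod.natCast_zmod_val c]
    exact Nat.cast_smul_eq_nsmul (ZMod p) c.val z
  rw [h1, h1]
  exact map_nsmul (DistribSMul.toAddMonoidHom (Submodule.torsionBy ℤ (W'⁄L).Point p) σ) c.val x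

/-- The elements of `Gal(L/ℚ)` fixing `N` pointwise. -/
def fixLine (N : Submodule (ZMod p) (Submodule.torsionBy ℤ (W'⁄L).Point p)) : Subgroup (L ≃ₐ[ℚ] L) where
  carrier := {σ | ∀ x ∈ N, σ • x = x}
  mul_mem' := fun {σ τ} ha hb x hx => by rw [g_mul_smul, hb x hx, ha x hx]
  one_mem' := fun x _ => g_one_smul x
  inv_mem' := fun {σ} ha x hx => by
    have h := ha x hx
    calc σ⁻¹ • x = σ⁻¹ • (σ • x) := by rw [h]
      _ = x := g_inv_smul_smul σ x

theorem mem_fixLine {N : Submodule (ZMod p) (Submodule.torsionBy ℤ (W'⁄L).Point p)} {σ : L ≃ₐ[ℚ] L} :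
    σ ∈ fixLine N ↔ ∀ x ∈ N, σ • x = x := Iff.rfl

/-- The elements of `Gal(L/ℚ)` acting trivially on `E[p] / N`. -/
def cofix (N : Submodule (ZMod p) (Submodule.torsionBy ℤ (W'⁄L).Point p)) (hN : IsGaloisStable ℚ N) : Subgroup (L ≃ₐ[ℚ] L) where
  carrier := {σ | ∀ x : (Submodule.torsionBy ℤ (W'⁄L).Point p), σ • x - x ∈ N}
  mul_mem' := fun {σ τ} ha hb x => by
    have h : (σ * τ) • x - x = σ • (τ • x - x) + (σ • x - x) := by
      rw [g_mul_smul, g_smul_sub]; abel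
    rw [h]
    exact N.add_mem (hN σ _ (hb x)) (ha x)
  one_mem' := fun x => by
    rw [g_one_smul, sub_self]
    exact N.zero_mem
  inv_mem' := fun {σ} ha x => by
    have h : σ⁻¹ • x - x = -(σ⁻¹ • (σ • x - x)) := by
      rw [g_smul_sub, g_inv_smul_smul]; abel
    rw [h]
    exact N.neg_mem (hN σ⁻¹ _ (ha x))

theorem mem_cofix {N : Submodule (ZMod p) (Submodule.torsionBy ℤ (W'⁄L).Point p)} {hN : IsGaloisStable ℚ N} {σ : L ≃ₐ[ℚ] L} :
    σ ∈ cofix N hN ↔ ∀ x : (Submodule.torsionBy ℤ (W'⁄L).Point p), σ • x - x ∈ N := Iff.rfl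

theorem fixLine_normal (N : Submodule (ZMod p) (Submodule.torsionBy ℤ (W'⁄L).Point p)) (hN : IsGaloisStable ℚ N) :
    (fixLine N).Normal := by
  constructor
  intro τ hτ σ x hx
  have h1 : σ⁻¹ • x ∈ N := hN σ⁻¹ x hx
  rw [g_mul_smul, g_mul_smul, hτ _ h1, g_smul_inv_smul]

theorem cofix_normal (N : Submodule (ZMod p) (Submodule.torsionBy ℤ (W'⁄L).Point p)) (hN : IsGaloisStable ℚ N) :
    (cofix N hN).Normal := by
  constructor
  intro τ hτ σ x
  have h : (σ * τ * σ⁻¹) • x - x = σ • (τ • (σ⁻¹ • x) - σ⁻¹ • x) := by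
    rw [g_mul_smul, g_mul_smul, g_smul_sub, g_smul_inv_smul]
  rw [h]
  exact hN σ _ (hτ _)

theorem isOpen_fixLine [Algebra.IsAlgebraic ℚ L] [Finite (Submodule.torsionBy ℤ (W'⁄L).Point p)] (N : Submodule (ZMod p) (Submodule.torsionBy ℤ (W'⁄L).Point p)) :
    IsOpen ((fixLine N : Subgroup (L ≃ₐ[ℚ] L)) : Set (L ≃ₐ[ℚ] L)) :=
  isOpen_of_fixAll_le _ fun _ h x _ => h x

theorem isOpen_cofix [Algebra.IsAlgebraic ℚ L] [Finite (Submodule.torsionBy ℤ (W'⁄L).Point p)] (N : Submodule (ZMod p) (Submodule.torsionBy ℤ (W'⁄L).Point p))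
    (hN : IsGaloisStable ℚ N) :
    IsOpen ((cofix N hN : Subgroup (L ≃ₐ[ℚ] L)) : Set (L ≃ₐ[ℚ] L)) :=
  isOpen_of_fixAll_le _ fun σ h x => by
    rw [h x, sub_self]
    exact N.zero_mem

/-! ### Unipotent elements -/

/-- If `(σ - 1)² = 0` on the plane `E[p]` and `σ` preserves the line `N`, then `σ` acts trivially
on `N` and on `E[p] / N`. -/
theorem mem_of_unipotent [Fact p.Prime] [Finite (Submodule.torsionBy ℤ (W'⁄L).Point p)] (hcard : Nat.card (Submodule.torsionBy ℤ (W'⁄L).Point p) < p ^ 3)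
    (N : Submodule (ZMod p) (Submodule.torsionBy ℤ (W'⁄L).Point p)) (hN0 : N ≠ ⊥) (hN1 : N ≠ ⊤) (σ : L ≃ₐ[ℚ] L)
    (hσN : ∀ x ∈ N, σ • x ∈ N)
    (hu : ∀ x : (Submodule.torsionBy ℤ (W'⁄L).Point p), σ • (σ • x - x) = σ • x - x) :
    (∀ x ∈ N, σ • x = x) ∧ ∀ x : (Submodule.torsionBy ℤ (W'⁄L).Point p), σ • x - x ∈ N := by
  have hp : p.Prime := Fact.out
  have : NeZero p := ⟨hp.ne_zero⟩
  obtain ⟨P₀, hP₀N, hP₀, hgen⟩ := Fermat.Agent.S51.GalLine.exists_generator hcard N hN0 hN1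
  -- `σ` fixes the generator
  have hfixP : σ • P₀ = P₀ := by
    obtain ⟨c, hc⟩ := hgen (σ • P₀) (hσN P₀ hP₀N)
    have h1 := hu P₀
    rw [← hc] at h1
    have h2 : c • P₀ - P₀ = (c - 1) • P₀ := by rw [sub_smul, one_smul]
    rw [h2, smul_zmod_comm, ← hc, smul_smul] at h1
    have h3 : ((c - 1) * c - (c - 1)) • P₀ = 0 := by rw [sub_smul, h1, sub_self]
    rcases smul_eq_zero.mp h3 with h4 | h4
    · have h5 : (c - 1) ^ 2 = 0 := by rw [← h4]; ring
      have h6 : c = 1 := by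
        have := pow_eq_zero_iff (two_ne_zero) |>.mp h5
        exact sub_eq_zero.mp this
      rw [← hc, h6, one_smul]
    · exact absurd h4 hP₀
  have hfixN : ∀ x ∈ N, σ • x = x := by
    intro x hx
    obtain ⟨d, hd⟩ := hgen x hx
    rw [← hd, smul_zmod_comm, hfixP]
  refine ⟨hfixN, ?_⟩
  -- the fixed space of `σ`
  let F : Submodule (ZMod p) (Submodule.torsionBy ℤ (W'⁄L).Point p) :=
    { carrier := {x | σ • x = x}
      add_mem' := fun {a b} ha hb => by
        show σ • (a + b) = a + b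
        rw [g_smul_add, ha, hb]
      zero_mem' := g_smul_zero σ
      smul_mem' := fun c x hx => by
        show σ • (c • x) = c • x
        rw [smul_zmod_comm, hx] }
  have hNF : N ≤ F := fun x hx => hfixN x hx
  have hF0 : F ≠ ⊥ := fun h => hN0 (le_bot_iff.mp (h ▸ hNF))
  intro x
  by_cases hF1 : F = ⊤
  · have hx : x ∈ F := hF1 ▸ Submodule.mem_top
    have hx' : σ • x = x := hx
    rw [hx', sub_self]
    exact N.zero_mem
  · obtain ⟨Q₀, hQ₀F, hQ₀, hgenF⟩ :=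
      Fermat.Agent.S51.GalLine.exists_generator hcard F hF0 hF1
    have hFN : F ≤ N := by
      obtain ⟨e, he⟩ := hgenF P₀ (hNF hP₀N)
      have he0 : e ≠ 0 := by
        rintro rfl
        rw [zero_smul] at he
        exact hP₀ he.symm
      have hQN : Q₀ ∈ N := by
        have : Q₀ = e⁻¹ • P₀ := by rw [← he, smul_smul, inv_mul_cancel₀ he0, one_smul]
        rw [this]
        exact N.smul_mem _ hP₀N
      intro y hy
      obtain ⟨d, hd⟩ := hgenF y hy
      rw [← hd]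
      exact N.smul_mem _ hQN
    exact hFN (hu x)


/-! ### The two end games -/

/-- If `Gal(L/ℚ)` acts trivially on `E[p] / N`, then `N` is a cofixed line. -/
theorem cofixed_of_cofix_eq_top (N : Submodule (ZMod p) (Submodule.torsionBy ℤ (W'⁄L).Point p))
    (hN : IsGaloisStable ℚ N) (hN0 : N ≠ ⊥) (hN1 : N ≠ ⊤) (h : cofix N hN = ⊤) :
    HasGaloisStableCofixedLine (K := L) ℚ W' p :=
  ⟨N, hN, hN0, hN1, fun σ x => (mem_cofix.mp (h ▸ Subgroup.mem_top σ)) x⟩

/-- A point of `E(L)` fixed by `Gal(L/ℚ)` comes from a rational point. -/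
theorem exists_rational_of_fixed [IsGalois ℚ L] (P₀ : (W'⁄L).Point)
    (hfix : ∀ σ : L ≃ₐ[ℚ] L, σ • P₀ = P₀) :
    ∃ R : (W'⁄ℚ).Point, Point.map (W' := W') (Algebra.ofId ℚ L) R = P₀ := by
  rcases P₀ with _ | ⟨x, y, hxy⟩
  · exact ⟨0, rfl⟩
  · have hxy' : ∀ σ : L ≃ₐ[ℚ] L, σ x = x ∧ σ y = y := by
      intro σ
      obtain ⟨h', e⟩ := Fermat.Agent.S51.GalLine.galois_smul_some (S := ℚ) (W' := W') σ hxy
      have h2 := hfix σ
      rw [e] at h2
      simpa only [Point.some.injEq] using h2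
    obtain ⟨a, ha⟩ := (InfiniteGalois.mem_range_algebraMap_iff_fixed (k := ℚ) (K := L) x).mpr
      (fun σ => (hxy' σ).1)
    obtain ⟨b, hb⟩ := (InfiniteGalois.mem_range_algebraMap_iff_fixed (k := ℚ) (K := L) y).mpr
      (fun σ => (hxy' σ).2)
    subst ha hb
    have hab : (W'⁄ℚ).Nonsingular a b :=
      (WeierstrassCurve.Affine.baseChange_nonsingular (W := W') (A := ℚ) (B := L)
        (f := Algebra.ofId ℚ L) (Algebra.ofId ℚ L).injective a b).mp hxy
    exact ⟨Point.some a b hab, rfl⟩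

/-- If `Gal(L/ℚ)` fixes the nonzero submodule `N` of `E[p]` pointwise, then `E` has a rational
point of order `p`. -/
theorem exists_rational_of_fixLine_eq_top [IsGalois ℚ L]
    (N : Submodule (ZMod p) (Submodule.torsionBy ℤ (W'⁄L).Point p)) (hN0 : N ≠ ⊥) (h : fixLine N = ⊤) :
    ∃ R : (W'⁄ℚ).Point, R ≠ 0 ∧ p • R = 0 := by
  obtain ⟨x₀, hx₀N, hx₀⟩ := (Submodule.ne_bot_iff N).mp hN0
  have hfix : ∀ σ : L ≃ₐ[ℚ] L, σ • x₀ = x₀ := fun σ =>
    (mem_fixLine.mp (h ▸ Subgroup.mem_top σ)) x₀ hx₀N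
  have hfixP : ∀ σ : L ≃ₐ[ℚ] L, σ • (x₀ : (W'⁄L).Point) = x₀ := fun σ =>
    congrArg Subtype.val (hfix σ)
  obtain ⟨R, hR⟩ := exists_rational_of_fixed (x₀ : (W'⁄L).Point) hfixP
  refine ⟨R, ?_, ?_⟩
  · rintro rfl
    apply hx₀
    apply Subtype.ext
    rw [← hR]
    rfl
  · apply Point.map_injective (W' := W') (Algebra.ofId ℚ L)
    rw [map_nsmul, hR, _root_.map_zero]
    exact (Fermat.Agent.S51.GalLine.mem_torsionBy_iff_nsmul p _).mp x₀.2


/-! ### Assembly -/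

/-- An element acting trivially on `E[p]` is unipotent. -/
theorem unipotent_of_trivial (σ : L ≃ₐ[ℚ] L) (h : ∀ x : (Submodule.torsionBy ℤ (W'⁄L).Point p), σ • x = x) (x : (Submodule.torsionBy ℤ (W'⁄L).Point p)) :
    σ • (σ • x - x) = σ • x - x := h _

/-- The unipotence condition on points gives the one on `E[p]`. -/
theorem unipotent_of_points (σ : L ≃ₐ[ℚ] L)
    (h : ∀ P : (W'⁄L).Point, p • P = 0 → σ • (σ • P - P) = σ • P - P) (x : (Submodule.torsionBy ℤ (W'⁄L).Point p)) :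
    σ • (σ • x - x) = σ • x - x :=
  Subtype.ext (h (x : (W'⁄L).Point) ((Fermat.Agent.S51.GalLine.mem_torsionBy_iff_nsmul p _).mp x.2))

/-- A reducible nontrivial `E[p]` has a stable submodule which is neither `⊥` nor `⊤`. -/
theorem exists_stable_of_not_irreducible (hnt : Nontrivial (Submodule.torsionBy ℤ (W'⁄L).Point p))
    (hred : ¬ GaloisRepIsIrreducible (K := L) ℚ W' p) :
    ∃ N : Submodule (ZMod p) (Submodule.torsionBy ℤ (W'⁄L).Point p), IsGaloisStable ℚ N ∧ N ≠ ⊥ ∧ N ≠ ⊤ := by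
  by_contra hcon
  apply hred
  refine ⟨hnt, fun N hN => ?_⟩
  by_contra h
  rw [not_or] at h
  exact hcon ⟨N, hN, h.1, h.2⟩

/-- **Assembly for a given stable line.** `hMink` is Hermite–Minkowski, `hloc` the unipotence of
inertia at the primes `ℓ ≠ p`, `hp'` the dichotomy at `p`, and `hrat` the absence of rational
points of order `p`. -/
theorem main_of_line [IsGalois ℚ L] [Fact p.Prime] [Finite (Submodule.torsionBy ℤ (W'⁄L).Point p)]
    (hcard : Nat.card (Submodule.torsionBy ℤ (W'⁄L).Point p) < p ^ 3)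
    (N : Submodule (ZMod p) (Submodule.torsionBy ℤ (W'⁄L).Point p)) (hN : IsGaloisStable ℚ N) (hN0 : N ≠ ⊥) (hN1 : N ≠ ⊤)
    (hMink : ∀ H : Subgroup (L ≃ₐ[ℚ] L), H.Normal → IsOpen (H : Set (L ≃ₐ[ℚ] L)) →
      (∀ ℓ : ℕ, ℓ.Prime → ∀ A : ValuationSubring L, A.LiesOverPrime ℓ →
        A.inertiaSubgroupIn ℚ ≤ H) → H = ⊤)
    (hloc : ∀ ℓ : ℕ, ℓ.Prime → ℓ ≠ p → ∀ A : ValuationSubring L, A.LiesOverPrime ℓ →
      ∀ σ ∈ A.inertiaSubgroupIn ℚ, ∀ x : (Submodule.torsionBy ℤ (W'⁄L).Point p), σ • (σ • x - x) = σ • x - x)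
    (hp' : (∀ A : ValuationSubring L, A.LiesOverPrime p → ∀ σ ∈ A.inertiaSubgroupIn ℚ,
        ∀ x ∈ N, σ • x = x) ∨
      (∀ A : ValuationSubring L, A.LiesOverPrime p → ∀ σ ∈ A.inertiaSubgroupIn ℚ,
        ∀ x : (Submodule.torsionBy ℤ (W'⁄L).Point p), σ • x - x ∈ N))
    (hrat : ∀ R : (W'⁄ℚ).Point, p • R = 0 → R = 0) :
    HasGaloisStableCofixedLine (K := L) ℚ W' p := by
  have huni : ∀ ℓ : ℕ, ℓ.Prime → ℓ ≠ p → ∀ A : ValuationSubring L, A.LiesOverPrime ℓ →
      ∀ σ ∈ A.inertiaSubgroupIn ℚ, (∀ x ∈ N, σ • x = x) ∧ ∀ x : (Submodule.torsionBy ℤ (W'⁄L).Point p), σ • x - x ∈ N :=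
    fun ℓ hℓ hℓp A hA σ hσ =>
      mem_of_unipotent hcard N hN0 hN1 σ (hN σ) (hloc ℓ hℓ hℓp A hA σ hσ)
  rcases hp' with h1 | h2
  · exfalso
    have htop : fixLine N = ⊤ := by
      apply hMink _ (fixLine_normal N hN) (isOpen_fixLine N)
      intro ℓ hℓ A hA σ hσ
      by_cases hℓp : ℓ = p
      · subst hℓp
        exact h1 A hA σ hσ
      · exact (huni ℓ hℓ hℓp A hA σ hσ).1
    obtain ⟨R, hR0, hR⟩ := exists_rational_of_fixLine_eq_top N hN0 htop
    exact hR0 (hrat R hR)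
  · have htop : cofix N hN = ⊤ := by
      apply hMink _ (cofix_normal N hN) (isOpen_cofix N hN)
      intro ℓ hℓ A hA σ hσ
      by_cases hℓp : ℓ = p
      · subst hℓp
        exact h2 A hA σ hσ
      · exact (huni ℓ hℓ hℓp A hA σ hσ).2
    exact cofixed_of_cofix_eq_top N hN hN0 hN1 htop

/-- **Assembly.** -/
theorem main [IsGalois ℚ L] [Fact p.Prime] [Finite (Submodule.torsionBy ℤ (W'⁄L).Point p)]
    (hnt : Nontrivial (Submodule.torsionBy ℤ (W'⁄L).Point p)) (hcard : Nat.card (Submodule.torsionBy ℤ (W'⁄L).Point p) < p ^ 3)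
    (hred : ¬ GaloisRepIsIrreducible (K := L) ℚ W' p)
    (hMink : ∀ H : Subgroup (L ≃ₐ[ℚ] L), H.Normal → IsOpen (H : Set (L ≃ₐ[ℚ] L)) →
      (∀ ℓ : ℕ, ℓ.Prime → ∀ A : ValuationSubring L, A.LiesOverPrime ℓ →
        A.inertiaSubgroupIn ℚ ≤ H) → H = ⊤)
    (hloc : ∀ ℓ : ℕ, ℓ.Prime → ℓ ≠ p → ∀ A : ValuationSubring L, A.LiesOverPrime ℓ →
      ∀ σ ∈ A.inertiaSubgroupIn ℚ, ∀ x : (Submodule.torsionBy ℤ (W'⁄L).Point p), σ • (σ • x - x) = σ • x - x)
    (hp' : ∀ N : Submodule (ZMod p) (Submodule.torsionBy ℤ (W'⁄L).Point p), IsGaloisStable ℚ N → N ≠ ⊥ → N ≠ ⊤ →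
      (∀ A : ValuationSubring L, A.LiesOverPrime p → ∀ σ ∈ A.inertiaSubgroupIn ℚ,
        ∀ x ∈ N, σ • x = x) ∨
      (∀ A : ValuationSubring L, A.LiesOverPrime p → ∀ σ ∈ A.inertiaSubgroupIn ℚ,
        ∀ x : (Submodule.torsionBy ℤ (W'⁄L).Point p), σ • x - x ∈ N))
    (hrat : ∀ R : (W'⁄ℚ).Point, p • R = 0 → R = 0) :
    HasGaloisStableCofixedLine (K := L) ℚ W' p := by
  obtain ⟨N, hN, hN0, hN1⟩ := exists_stable_of_not_irreducible hnt hred
  exact main_of_line hcard N hN hN0 hN1 hMink hloc (hp' N hN hN0 hN1) hrat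

end Fermat.Agent.S13.Chars
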