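import Mathlib
import Fermat.Prelude.Def_FLTPrelim_FreyPackage
import Fermat.Prelude.Def_FLTPrelim_GaloisRep
import Fermat.Prelude.Def_FLTPrelim_Ramification
import Fermat.Agent.S05.Val
import Fermat.Agent.S13.LadderTorsion

/-!
# S13: arithmetic of the coefficients of the Frey curve, and its `p`-torsion

* the coefficients `a₂`, `a₄` of the Frey curve are integers, `a₄ ≠ 0` is even and its
  `2`-adic valuation `p v₂(b) - 4` is not divisible by `p`;
* the discriminant of the Frey curve is nonzero;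
* `E[p]` is finite with at most `p²` elements, and nontrivial over an algebraically closed field;
* `p`-torsion points have integral `x`-coordinate at every prime `q ≠ p` (including `q = 2`).
-/

set_option autoImplicit false
set_option linter.unusedSectionVars false

namespace Fermat.Agent.S13.FreyTwo

open WeierstrassCurve WeierstrassCurve.Affine

variable (P : FreyPackage)

/-! ### Integrality of the coefficients -/

theorem two_dvd_b : (2 : ℤ) ∣ P.b := (ZMod.intCast_zmod_eq_zero_iff_dvd P.b 2).1 P.hb2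

theorem thirtytwo_dvd_b_pow : (32 : ℤ) ∣ P.b ^ P.p := by
  have h5 : (2 : ℤ) ^ 5 ∣ P.b ^ 5 := pow_dvd_pow_of_dvd (two_dvd_b P) 5
  have h : P.b ^ 5 ∣ P.b ^ P.p := pow_dvd_pow _ P.hp5
  have e : (32 : ℤ) = 2 ^ 5 := by norm_num
  rw [e]
  exact h5.trans h

theorem four_dvd : (4 : ℤ) ∣ P.b ^ P.p - 1 - P.a ^ P.p := by
  have hb : ((P.b ^ P.p : ℤ) : ZMod 4) = 0 := by
    rw [ZMod.intCast_zmod_eq_zero_iff_dvd]
    exact Dvd.dvd.trans (by norm_num) (thirtytwo_dvd_b_pow P)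
  apply (ZMod.intCast_zmod_eq_zero_iff_dvd _ 4).mp
  rw [Int.cast_sub, Int.cast_sub, hb, Int.cast_one, Int.cast_pow, P.ha4]
  obtain ⟨k, hk⟩ := P.hp_odd
  rw [hk, pow_succ, pow_mul]
  have : (3 : ZMod 4) ^ 2 = 1 := by decide
  rw [this, one_pow]
  decide

theorem thirtytwo_dvd : (32 : ℤ) ∣ -(P.a ^ P.p) * P.b ^ P.p :=
  Dvd.dvd.mul_left (thirtytwo_dvd_b_pow P) _

theorem sixteen_dvd : (16 : ℤ) ∣ -(P.a ^ P.p) * P.b ^ P.p :=
  Dvd.dvd.trans (by norm_num) (thirtytwo_dvd P)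

/-- `a₂` of the Frey curve is the integer `a₂` of `freyCurveInt`. -/
theorem a₂_eq : P.freyCurve.a₂ = ((P.freyCurveInt.a₂ : ℤ) : ℚ) := by
  show ((P.b : ℚ) ^ P.p - 1 - (P.a : ℚ) ^ P.p) / 4 =
    (((P.b ^ P.p - 1 - P.a ^ P.p) / 4 : ℤ) : ℚ)
  rw [Int.cast_div (four_dvd P) (by norm_num)]
  push_cast
  rfl

/-- `a₄` of the Frey curve is the integer `a₄` of `freyCurveInt`. -/
theorem a₄_eq : P.freyCurve.a₄ = ((P.freyCurveInt.a₄ : ℤ) : ℚ) := by
  show -((P.a : ℚ) ^ P.p) * (P.b : ℚ) ^ P.p / 16 =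
    (((-(P.a ^ P.p) * P.b ^ P.p) / 16 : ℤ) : ℚ)
  rw [Int.cast_div (sixteen_dvd P) (by norm_num)]
  push_cast
  rfl

theorem sixteen_mul_a₄ : 16 * P.freyCurveInt.a₄ = -(P.a ^ P.p) * P.b ^ P.p :=
  Int.mul_ediv_cancel' (sixteen_dvd P)

theorem four_mul_a₂ : 4 * P.freyCurveInt.a₂ = P.b ^ P.p - 1 - P.a ^ P.p :=
  Int.mul_ediv_cancel' (four_dvd P)

theorem a₄_ne_zero : P.freyCurveInt.a₄ ≠ 0 := by
  intro h
  have := sixteen_mul_a₄ P
  rw [h, mul_zero] at this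
  have h1 : P.a ^ P.p ≠ 0 := pow_ne_zero _ P.ha0
  have h2 : P.b ^ P.p ≠ 0 := pow_ne_zero _ P.hb0
  exact mul_ne_zero (neg_ne_zero.mpr h1) h2 this.symm

theorem two_dvd_a₄ : (2 : ℤ) ∣ P.freyCurveInt.a₄ := by
  obtain ⟨k, hk⟩ := thirtytwo_dvd P
  refine ⟨k, ?_⟩
  have := sixteen_mul_a₄ P
  rw [hk] at this
  linarith

theorem not_two_dvd_a : ¬ (2 : ℤ) ∣ P.a := by
  intro h
  have h2 : ((P.a : ℤ) : ZMod 4) = 3 := P.ha4
  obtain ⟨k, hk⟩ := h
  rw [hk] at h2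
  have h3 : ((3 : ℤ) : ZMod 4) = 3 := by norm_cast
  rw [← h3, ZMod.intCast_eq_intCast_iff] at h2
  have := h2.eq
  omega

/-- `v₂(a₄) + 4 = p v₂(b)`. -/
theorem padicValInt_a₄ : padicValInt 2 P.freyCurveInt.a₄ + 4 = P.p * padicValInt 2 P.b := by
  have h16 : padicValInt 2 (16 : ℤ) = 4 := by
    have : (16 : ℤ) = ((2 ^ 4 : ℕ) : ℤ) := by norm_num
    rw [this, padicValInt.of_nat, padicValNat.prime_pow]
  have ha : padicValInt 2 (-(P.a ^ P.p)) = 0 := by
    rw [padicValInt, Int.natAbs_neg, Int.natAbs_pow]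
    apply padicValNat.eq_zero_of_not_dvd
    intro h
    have h' : 2 ∣ P.a.natAbs := Nat.Prime.dvd_of_dvd_pow Nat.prime_two h
    exact not_two_dvd_a P (Int.natCast_dvd.mpr h')
  have hb : padicValInt 2 (P.b ^ P.p) = P.p * padicValInt 2 P.b := by
    rw [padicValInt, Int.natAbs_pow, padicValNat.pow]
    rfl
  have h1 : padicValInt 2 (16 * P.freyCurveInt.a₄) = 4 + padicValInt 2 P.freyCurveInt.a₄ := by
    rw [padicValInt.mul (by norm_num) (a₄_ne_zero P), h16]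
  have h2 : padicValInt 2 (-(P.a ^ P.p) * P.b ^ P.p) = P.p * padicValInt 2 P.b := by
    rw [padicValInt.mul (neg_ne_zero.mpr (pow_ne_zero _ P.ha0)) (pow_ne_zero _ P.hb0), ha, hb,
      zero_add]
  rw [sixteen_mul_a₄ P, h2] at h1
  omega

/-- The `2`-adic valuation of `a₄` is not divisible by `p`. -/
theorem not_dvd_padicValInt_a₄ : ¬ P.p ∣ padicValInt 2 P.freyCurveInt.a₄ := by
  intro h
  have h1 := padicValInt_a₄ P
  have h2 : P.p ∣ padicValInt 2 P.freyCurveInt.a₄ + 4 := by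
    rw [h1]; exact dvd_mul_right _ _
  have h3 : P.p ∣ 4 := (Nat.dvd_add_right h).mp h2
  have := Nat.le_of_dvd (by norm_num) h3
  have := P.hp5
  omega

/-- `b₂² - 64 a₄ = c^(2p)`. -/
theorem b₂_sq_sub : (1 + 4 * P.freyCurveInt.a₂) ^ 2 - 64 * P.freyCurveInt.a₄ =
    (P.c ^ P.p) ^ 2 := by
  have h1 := four_mul_a₂ P
  have h2 := sixteen_mul_a₄ P
  have h3 := P.hFLT
  have e1 : 1 + 4 * P.freyCurveInt.a₂ = P.b ^ P.p - P.a ^ P.p := by linarith
  have e2 : 64 * P.freyCurveInt.a₄ = 4 * (-(P.a ^ P.p) * P.b ^ P.p) := by linarith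
  rw [e1, e2, ← h3]
  ring

theorem Δ_eq : P.freyCurve.Δ =
    (((P.freyCurveInt.a₄ : ℤ) : ℚ)) ^ 2 * ((P.c : ℚ) ^ P.p) ^ 2 := by
  have h := b₂_sq_sub P
  have h' : (1 + 4 * ((P.freyCurveInt.a₂ : ℤ) : ℚ)) ^ 2 - 64 * ((P.freyCurveInt.a₄ : ℤ) : ℚ) =
      ((P.c : ℚ) ^ P.p) ^ 2 := by exact_mod_cast h
  have e1 : P.freyCurve.a₁ = 1 := rfl
  have e3 : P.freyCurve.a₃ = 0 := rfl
  have e6 : P.freyCurve.a₆ = 0 := rfl
  rw [WeierstrassCurve.Δ, WeierstrassCurve.b₂, WeierstrassCurve.b₄, WeierstrassCurve.b₆,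
    WeierstrassCurve.b₈, e1, e3, e6, a₂_eq, a₄_eq]
  linear_combination (((P.freyCurveInt.a₄ : ℤ) : ℚ)) ^ 2 * h'

theorem Δ_ne_zero : P.freyCurve.Δ ≠ 0 := by
  rw [Δ_eq]
  have h1 : ((P.freyCurveInt.a₄ : ℤ) : ℚ) ≠ 0 := by exact_mod_cast a₄_ne_zero P
  have h2 : (P.c : ℚ) ≠ 0 := by exact_mod_cast P.hc0
  positivity

/-! ### Base change -/

section BaseChange

variable {K : Type*} [Field K] [DecidableEq K] [Algebra ℚ K]

theorem bc_a₁ : (P.freyCurve⁄K).a₁ = 1 := by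
  show algebraMap ℚ K P.freyCurve.a₁ = 1
  have e1 : P.freyCurve.a₁ = 1 := rfl
  rw [e1, map_one]

theorem bc_a₃ : (P.freyCurve⁄K).a₃ = 0 := by
  show algebraMap ℚ K P.freyCurve.a₃ = 0
  have e1 : P.freyCurve.a₃ = 0 := rfl
  rw [e1, map_zero]

theorem bc_a₆ : (P.freyCurve⁄K).a₆ = 0 := by
  show algebraMap ℚ K P.freyCurve.a₆ = 0
  have e1 : P.freyCurve.a₆ = 0 := rfl
  rw [e1, map_zero]

theorem bc_a₂ : (P.freyCurve⁄K).a₂ = ((P.freyCurveInt.a₂ : ℤ) : K) := by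
  show algebraMap ℚ K P.freyCurve.a₂ = _
  rw [a₂_eq, map_intCast]

theorem bc_a₄ : (P.freyCurve⁄K).a₄ = ((P.freyCurveInt.a₄ : ℤ) : K) := by
  show algebraMap ℚ K P.freyCurve.a₄ = _
  rw [a₄_eq, map_intCast]

theorem bc_b₂ : (P.freyCurve⁄K).b₂ = ((1 + 4 * P.freyCurveInt.a₂ : ℤ) : K) := by
  rw [WeierstrassCurve.b₂, bc_a₁, bc_a₂]
  push_cast
  ring

theorem bc_Δ_ne_zero : (P.freyCurve⁄K).Δ ≠ 0 := by
  have h : (P.freyCurve⁄K).Δ = algebraMap ℚ K P.freyCurve.Δ := by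
    show (P.freyCurve.map (algebraMap ℚ K)).Δ = _
    rw [WeierstrassCurve.map_Δ]
  rw [h]
  exact (map_ne_zero (algebraMap ℚ K)).mpr (Δ_ne_zero P)

theorem bc_a₄_ne_zero : (P.freyCurve⁄K).a₄ ≠ 0 := by
  rw [bc_a₄]
  have : CharZero K := charZero_of_injective_algebraMap (algebraMap ℚ K).injective
  exact_mod_cast a₄_ne_zero P

theorem two_ne_zero_K : (2 : K) ≠ 0 := by
  have : CharZero K := charZero_of_injective_algebraMap (algebraMap ℚ K).injective
  exact two_ne_zero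

theorem p_ne_zero_K : ((P.p : ℕ) : K) ≠ 0 := by
  have : CharZero K := charZero_of_injective_algebraMap (algebraMap ℚ K).injective
  exact_mod_cast P.hp0

/-- `p = 2 m + 1` with `m = p / 2 ≥ 1`. -/
theorem p_eq : 2 * (P.p / 2) + 1 = P.p := by
  obtain ⟨k, hk⟩ := P.hp_odd
  omega

theorem one_le_half : 1 ≤ P.p / 2 := by
  have := P.hp5
  omega

/-! ### Valuations of the coefficients -/

variable (A : ValuationSubring K)

theorem val_a₂_le_one : A.valuation (P.freyCurve⁄K).a₂ ≤ 1 := by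
  rw [bc_a₂]; exact Fermat.Agent.S05.Val.valuation_intCast_le_one A _

theorem val_a₄_le_one : A.valuation (P.freyCurve⁄K).a₄ ≤ 1 := by
  rw [bc_a₄]; exact Fermat.Agent.S05.Val.valuation_intCast_le_one A _

theorem val_b₂_le_one : A.valuation (P.freyCurve⁄K).b₂ ≤ 1 := by
  rw [bc_b₂]; exact Fermat.Agent.S05.Val.valuation_intCast_le_one A _

theorem val_a₄_lt_one (hA : A.LiesOverPrime 2) : A.valuation (P.freyCurve⁄K).a₄ < 1 := by
  rw [bc_a₄]
  exact Fermat.Agent.S05.Val.valuation_intCast_lt_one_of_dvd A hA (by exact_mod_cast two_dvd_a₄ P)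

theorem val_two_lt_one (hA : A.LiesOverPrime 2) : A.valuation (2 : K) < 1 := by
  have := Fermat.Agent.S05.Val.valuation_natCast_lt_one A hA
  simpa using this

/-! ### The `p`-torsion of the Frey curve -/

theorem mem_torsionBy_iff (Q : (P.freyCurve⁄K).Point) :
    Q ∈ Submodule.torsionBy ℤ (P.freyCurve⁄K).Point P.p ↔ P.p • Q = 0 := by
  rw [Submodule.mem_torsionBy_iff, natCast_zsmul]

theorem nsmul_eq_zero_iff {x y : K} (h : (P.freyCurve⁄K).Nonsingular x y) :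
    P.p • Point.some x y h = 0 ↔
      (LadderTorsion.divPoly (P.freyCurve⁄K) P.p).eval x = 0 := by
  have := LadderTorsion.nsmul_eq_zero_iff (W := P.freyCurve⁄K) (two_ne_zero_K) (bc_a₃ P) (bc_a₆ P)
    (one_le_half P) h
  rwa [p_eq P] at this

theorem finite_torsion : Finite (Submodule.torsionBy ℤ (P.freyCurve⁄K).Point P.p) := by
  have h := LadderTorsion.finite_torsion (W := P.freyCurve⁄K) (two_ne_zero_K) (bc_a₃ P)
    (bc_a₆ P) (one_le_half P) (by rw [p_eq P]; exact p_ne_zero_K P)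
  rw [p_eq P] at h
  have e : (Submodule.torsionBy ℤ (P.freyCurve⁄K).Point P.p : Set (P.freyCurve⁄K).Point) =
      {Q | P.p • Q = 0} := by
    ext Q
    exact mem_torsionBy_iff P Q
  have h' : (Submodule.torsionBy ℤ (P.freyCurve⁄K).Point P.p :
      Set (P.freyCurve⁄K).Point).Finite := by rw [e]; exact h
  exact h'.to_subtype

theorem card_torsion_le :
    Nat.card (Submodule.torsionBy ℤ (P.freyCurve⁄K).Point P.p) ≤ P.p ^ 2 := by
  have h := LadderTorsion.ncard_torsion_le (W := P.freyCurve⁄K) (two_ne_zero_K) (bc_a₃ P)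
    (bc_a₆ P) (one_le_half P) (by rw [p_eq P]; exact p_ne_zero_K P)
  rw [p_eq P] at h
  have e : (Submodule.torsionBy ℤ (P.freyCurve⁄K).Point P.p : Set (P.freyCurve⁄K).Point) =
      {Q | P.p • Q = 0} := by
    ext Q
    exact mem_torsionBy_iff P Q
  have hcard : Nat.card (Submodule.torsionBy ℤ (P.freyCurve⁄K).Point P.p) =
      (Submodule.torsionBy ℤ (P.freyCurve⁄K).Point P.p : Set (P.freyCurve⁄K).Point).ncard :=
    Nat.card_coe_set_eq _
  rw [hcard, e]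
  exact h

theorem card_torsion_lt :
    Nat.card (Submodule.torsionBy ℤ (P.freyCurve⁄K).Point P.p) < P.p ^ 3 := by
  refine lt_of_le_of_lt (card_torsion_le P) ?_
  exact Nat.pow_lt_pow_right (by have := P.hp5; omega) (by norm_num)

theorem nontrivial_torsion [IsAlgClosed K] :
    Nontrivial (Submodule.torsionBy ℤ (P.freyCurve⁄K).Point P.p) := by
  obtain ⟨Q, hQ0, hQ⟩ := LadderTorsion.exists_torsion (W := P.freyCurve⁄K) (two_ne_zero_K)
    (bc_a₃ P) (bc_a₆ P) (bc_Δ_ne_zero P) (one_le_half P) (by rw [p_eq P]; exact p_ne_zero_K P)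
  rw [p_eq P] at hQ
  refine ⟨⟨⟨Q, (mem_torsionBy_iff P Q).mpr hQ⟩, 0, ?_⟩⟩
  intro h
  exact hQ0 (congrArg Subtype.val h)

/-- At every prime `q ≠ p` (including `q = 2`), the points killed by `p` have integral
`x`-coordinate: the kernel of reduction has no `p`-torsion. -/
theorem val_x_le_one {q : ℕ} (hq : q.Prime) (hqp : q ≠ P.p) (hA : A.LiesOverPrime q)
    {x y : K} (h : (P.freyCurve⁄K).Nonsingular x y) (hP : P.p • Point.some x y h = 0) :
    A.valuation x ≤ 1 := by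
  have hn : A.valuation ((2 * (P.p / 2) + 1 : ℕ) : K) = 1 := by
    rw [p_eq P]
    apply Fermat.Agent.S05.Val.valuation_natCast_eq_one A hq hA
    intro hd
    exact hqp ((Nat.prime_dvd_prime_iff_eq hq P.pp).mp hd)
  have hP' : (2 * (P.p / 2) + 1) • Point.some x y h = 0 := by rw [p_eq P]; exact hP
  exact LadderTorsion.val_x_le_one A (two_ne_zero_K) (bc_a₃ P) (bc_a₆ P) (val_b₂_le_one P A)
    (val_a₄_le_one P A) (one_le_half P) hn h hP'

/-- The root lemma at `p` for the Frey curve itself. -/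
theorem val_mul_prod_le_one (S : Finset K)
    (hS : ∀ r ∈ S, 1 < A.valuation r ∧
      ∃ (y : K) (h : (P.freyCurve⁄K).Nonsingular r y), P.p • Point.some r y h = 0) :
    A.valuation ((P.p : ℕ) : K) * ∏ r ∈ S, A.valuation r ≤ 1 := by
  have := LadderTorsion.val_mul_prod_le_one (W := P.freyCurve⁄K) A (two_ne_zero_K) (bc_a₃ P)
    (bc_a₆ P) (val_b₂_le_one P A) (val_a₄_le_one P A) (one_le_half P) S (fun r hr => by
      obtain ⟨hv, y, h, hP⟩ := hS r hr
      exact ⟨hv, y, h, by rw [p_eq P]; exact hP⟩)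
  rwa [p_eq P] at this

end BaseChange

end Fermat.Agent.S13.FreyTwo
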