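import Mathlib
import Fermat.Prelude.Def_FLTPrelim_FreyPackage
import Fermat.Prelude.Def_FLTPrelim_GaloisRep
import Fermat.Prelude.Def_FLTPrelim_Ramification
import Fermat.Agent.S05.Frey
import Fermat.Agent.S13.AtP
import Fermat.Agent.S13.FreyTwo
import Fermat.Agent.S13.Chars
import Fermat.Agent.S51.GalLine

/-!
# S13: inertia at `p` on the `p`-torsion of the Frey curve

Transport of `AtP.atP_aux` (stated for the model `y² = x³ + a₂ x² + a₄ x`) to the Frey curve, in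
the vocabulary of the frozen statement: for a Galois-stable line `N` of `E[p]`, either all inertia
groups over `p` fix `N` pointwise, or all of them act trivially on `E[p] / N`.
-/

set_option autoImplicit false

namespace Fermat.Agent.S13.AtPFrey

open WeierstrassCurve WeierstrassCurve.Affine WeierstrassCurve.Affine.Point
open Fermat.Agent.S51 Fermat.Agent.S05

variable {L : Type*} [Field L] [DecidableEq L] [Algebra ℚ L]

theorem frey_atP [Algebra.IsAlgebraic ℚ L] [IsAlgClosed L] (P : FreyPackage)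
    (N : Submodule (ZMod P.p) (Submodule.torsionBy ℤ (P.freyCurve⁄L).Point P.p))
    (hN : IsGaloisStable ℚ N) (hN0 : N ≠ ⊥) (hN1 : N ≠ ⊤) :
    (∀ A : ValuationSubring L, A.LiesOverPrime P.p → ∀ σ ∈ A.inertiaSubgroupIn ℚ,
      ∀ x ∈ N, σ • x = x) ∨
    (∀ A : ValuationSubring L, A.LiesOverPrime P.p → ∀ σ ∈ A.inertiaSubgroupIn ℚ,
      ∀ x : Submodule.torsionBy ℤ (P.freyCurve⁄L).Point P.p, σ • x - x ∈ N) := by
  have hpF : Fact P.p.Prime := ⟨P.pp⟩
  have hne : NeZero P.p := ⟨P.pp.ne_zero⟩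
  have hfin : Finite (Submodule.torsionBy ℤ (P.freyCurve⁄L).Point P.p) :=
    FreyTwo.finite_torsion P
  obtain ⟨P₀, hP₀N, hP₀, hgen⟩ :=
    GalLine.exists_generator (FreyTwo.card_torsion_lt P) N hN0 hN1
  obtain ⟨C, a₂, a₄, hC, h⟩ := Frey.exists_model_int P P.pp
  have hp2 : P.p ≠ 2 := by have := P.hp5; omega
  -- the point on the model
  have hP₀p : P.p • (P₀ : (P.freyCurve⁄L).Point) = 0 :=
    (GalLine.mem_torsionBy_iff_nsmul P.p _).mp P₀.2
  have hP₀ne : (P₀ : (P.freyCurve⁄L).Point) ≠ 0 := fun h0 => hP₀ (Subtype.ext h0)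
  have hT : ∀ (σ : L ≃ₐ[ℚ] L) (Q : (Affine.baseChange (C • P.freyCurve) L).Point),
      Frey.transport (K := L) P.freyCurve C (σ • Q) =
        σ • Frey.transport (K := L) P.freyCurve C Q :=
    fun σ Q => Frey.transport_smul P.freyCurve C σ Q
  have hTs : ∀ (σ : L ≃ₐ[ℚ] L) (Q : (P.freyCurve⁄L).Point),
      σ • (Frey.transport (K := L) P.freyCurve C).symm Q =
        (Frey.transport (K := L) P.freyCurve C).symm (σ • Q) := by
    intro σ Q
    apply (Frey.transport (K := L) P.freyCurve C).injective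
    rw [hT, AddEquiv.apply_symm_apply, AddEquiv.apply_symm_apply]
  have hP'0 : (Frey.transport (K := L) P.freyCurve C).symm (P₀ : (P.freyCurve⁄L).Point) ≠ 0 := by
    intro h0
    apply hP₀ne
    have := congrArg (Frey.transport (K := L) P.freyCurve C) h0
    rwa [AddEquiv.apply_symm_apply, _root_.map_zero] at this
  have hP' : P.p • (Frey.transport (K := L) P.freyCurve C).symm
      (P₀ : (P.freyCurve⁄L).Point) = 0 := by
    rw [← map_nsmul, hP₀p, _root_.map_zero]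
  have hstab₀ : ∀ σ : L ≃ₐ[ℚ] L, ∃ m : ℕ,
      σ • (P₀ : (P.freyCurve⁄L).Point) = m • (P₀ : (P.freyCurve⁄L).Point) := by
    intro σ
    obtain ⟨c, hc⟩ := hgen (σ • P₀) (hN σ P₀ hP₀N)
    refine ⟨c.val, ?_⟩
    rw [← GalLine.coe_galois_smul, ← hc, GalLine.zmod_smul_coe]
  have hstab : ∀ σ : L ≃ₐ[ℚ] L, ∃ m : ℕ,
      σ • (Frey.transport (K := L) P.freyCurve C).symm (P₀ : (P.freyCurve⁄L).Point) =
        m • (Frey.transport (K := L) P.freyCurve C).symm (P₀ : (P.freyCurve⁄L).Point) := by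
    intro σ
    obtain ⟨m, hm⟩ := hstab₀ σ
    exact ⟨m, by rw [hTs, hm, map_nsmul]⟩
  rcases AtP.atP_aux (C • P.freyCurve) P.pp hp2 a₂ a₄ hC h hP'0 hP' hstab with h1 | h2
  · left
    intro A hA σ hσ x hx
    have e1 := h1 A hA σ hσ
    rw [hTs] at e1
    have e2 : σ • (P₀ : (P.freyCurve⁄L).Point) = P₀ :=
      (Frey.transport (K := L) P.freyCurve C).symm.injective e1
    have e3 : σ • P₀ = P₀ := Subtype.ext e2
    obtain ⟨c, hc⟩ := hgen x hx
    rw [← hc, Chars.smul_zmod_comm, e3]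
  · right
    intro A hA σ hσ x
    have hx : P.p • (Frey.transport (K := L) P.freyCurve C).symm
        (x : (P.freyCurve⁄L).Point) = 0 := by
      rw [← map_nsmul, (GalLine.mem_torsionBy_iff_nsmul P.p _).mp x.2, _root_.map_zero]
    obtain ⟨k, hk⟩ := h2 A hA σ hσ _ hx
    rw [hTs, ← map_sub, ← map_nsmul] at hk
    have e2 : σ • (x : (P.freyCurve⁄L).Point) - x = k • (P₀ : (P.freyCurve⁄L).Point) :=
      (Frey.transport (K := L) P.freyCurve C).symm.injective hk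
    have e3 : σ • x - x = k • P₀ := Subtype.ext e2
    rw [e3]
    exact nsmul_mem hP₀N k

/-! ### Variants (helper7): the same statement for any curve with an adapted model -/

set_option linter.unusedSectionVars false

/-- The dichotomy at `p` for a curve over `ℚ` which becomes an adapted model
`y² = x³ + a₂ x² + a₄ x` after a rational change of variables. -/
theorem hp'_of_model [Algebra.IsAlgebraic ℚ L] [IsAlgClosed L] (W' : WeierstrassCurve ℚ)
    {p : ℕ} [Fact p.Prime] (hp2 : p ≠ 2) (C : WeierstrassCurve.VariableChange ℚ) (a₂ a₄ : ℤ)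
    (hC : C • W' = ⟨0, (a₂ : ℚ), 0, (a₄ : ℚ), 0⟩)
    (h : (¬ (p : ℤ) ∣ a₄ ∧ ¬ (p : ℤ) ∣ a₂ ^ 2 - 4 * a₄) ∨
      (¬ (p : ℤ) ∣ a₂ ∧ ∃ u b₀ : ℤ, a₄ = u * b₀ ^ p ∧ ¬ (p : ℤ) ∣ u ∧ (p : ℤ) ∣ b₀ ∧ b₀ ≠ 0))
    [Finite (Submodule.torsionBy ℤ (W'⁄L).Point p)]
    (hcard : Nat.card (Submodule.torsionBy ℤ (W'⁄L).Point p) < p ^ 3)
    (N : Submodule (ZMod p) (Submodule.torsionBy ℤ (W'⁄L).Point p))
    (hN : IsGaloisStable ℚ N) (hN0 : N ≠ ⊥) (hN1 : N ≠ ⊤) :
    (∀ A : ValuationSubring L, A.LiesOverPrime p → ∀ σ ∈ A.inertiaSubgroupIn ℚ,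
        ∀ x ∈ N, σ • x = x) ∨
      (∀ A : ValuationSubring L, A.LiesOverPrime p → ∀ σ ∈ A.inertiaSubgroupIn ℚ,
        ∀ x : (Submodule.torsionBy ℤ (W'⁄L).Point p), σ • x - x ∈ N) := by
  have hp : p.Prime := Fact.out
  have : NeZero p := ⟨hp.ne_zero⟩
  obtain ⟨x₀, hx₀N, hx₀0, hgen⟩ := GalLine.exists_generator hcard N hN0 hN1
  have hP₀ : p • (x₀ : (W'⁄L).Point) = 0 :=
    (GalLine.mem_torsionBy_iff_nsmul p (x₀ : (W'⁄L).Point)).mp x₀.2
  have hP₀0 : (x₀ : (W'⁄L).Point) ≠ 0 := fun h0 => hx₀0 (Subtype.ext h0)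
  -- the transport to the model
  let e := Frey.transport' (K := L) hC
  have he : ∀ (σ : L ≃ₐ[ℚ] L) (R : (W'⁄L).Point), e.symm (σ • R) = σ • e.symm R := by
    intro σ R
    apply e.injective
    rw [Frey.transport'_smul, e.apply_symm_apply, e.apply_symm_apply]
  have hP₁ : p • e.symm (x₀ : (W'⁄L).Point) = 0 := by
    rw [← map_nsmul, hP₀, _root_.map_zero]
  have hP₁0 : e.symm (x₀ : (W'⁄L).Point) ≠ 0 := by
    intro h0
    apply hP₀0
    have := congrArg e h0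
    rwa [e.apply_symm_apply, _root_.map_zero] at this
  have hσ₀ : ∀ σ : L ≃ₐ[ℚ] L, ∃ m : ℕ, σ • (x₀ : (W'⁄L).Point) = m • (x₀ : (W'⁄L).Point) := by
    intro σ
    obtain ⟨c, hc⟩ := hgen (σ • x₀) (hN σ x₀ hx₀N)
    refine ⟨c.val, ?_⟩
    have := congrArg Subtype.val hc
    rw [GalLine.zmod_smul_coe, GalLine.coe_galois_smul] at this
    exact this.symm
  have hstab : ∀ σ : L ≃ₐ[ℚ] L, ∃ m : ℕ,
      σ • e.symm (x₀ : (W'⁄L).Point) = m • e.symm (x₀ : (W'⁄L).Point) := by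
    intro σ
    obtain ⟨m, hm⟩ := hσ₀ σ
    exact ⟨m, by rw [← he, hm, map_nsmul]⟩
  rcases AtP.atP hp hp2 a₂ a₄ h hP₁0 hP₁ hstab with h1 | h2
  · left
    intro A hA σ hσ x hx
    have hσP₁ := h1 A hA σ hσ
    have hσP₀ : σ • (x₀ : (W'⁄L).Point) = x₀ := by
      have := congrArg e hσP₁
      rwa [Frey.transport'_smul, e.apply_symm_apply] at this
    have hσx₀ : σ • x₀ = x₀ := Subtype.ext (by rw [GalLine.coe_galois_smul]; exact hσP₀)
    obtain ⟨c, rfl⟩ := hgen x hx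
    rw [Chars.smul_zmod_comm, hσx₀]
  · right
    intro A hA σ hσ x
    have hQ₀ : p • (x : (W'⁄L).Point) = 0 :=
      (GalLine.mem_torsionBy_iff_nsmul p (x : (W'⁄L).Point)).mp x.2
    obtain ⟨k, hk⟩ := h2 A hA σ hσ (e.symm (x : (W'⁄L).Point))
      (by rw [← map_nsmul, hQ₀, _root_.map_zero])
    have hk' : σ • (x : (W'⁄L).Point) - x = k • (x₀ : (W'⁄L).Point) := by
      have := congrArg e hk
      rwa [map_sub, Frey.transport'_smul, e.apply_symm_apply, map_nsmul,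
        e.apply_symm_apply] at this
    have hx : σ • x - x = k • x₀ := by
      apply Subtype.ext
      rw [Submodule.coe_sub, GalLine.coe_galois_smul, hk']
      exact (AddSubmonoidClass.coe_nsmul x₀ k).symm
    rw [hx]
    exact nsmul_mem hx₀N k

/-- **The dichotomy at `p` for the Frey curve**, in the shape of `Chars.main`. -/
theorem hp' [Algebra.IsAlgebraic ℚ L] [IsAlgClosed L] (P : FreyPackage)
    (N : Submodule (ZMod P.p) (Submodule.torsionBy ℤ (P.freyCurve⁄L).Point P.p))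
    (hN : IsGaloisStable ℚ N) (hN0 : N ≠ ⊥) (hN1 : N ≠ ⊤) :
    (∀ A : ValuationSubring L, A.LiesOverPrime P.p → ∀ σ ∈ A.inertiaSubgroupIn ℚ,
        ∀ x ∈ N, σ • x = x) ∨
      (∀ A : ValuationSubring L, A.LiesOverPrime P.p → ∀ σ ∈ A.inertiaSubgroupIn ℚ,
        ∀ x : (Submodule.torsionBy ℤ (P.freyCurve⁄L).Point P.p), σ • x - x ∈ N) := by
  have : Fact P.p.Prime := ⟨P.pp⟩
  have := FreyTwo.finite_torsion (K := L) P
  obtain ⟨C, a₂, a₄, hC, h⟩ := Frey.exists_model_int P P.pp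
  have hp2 : P.p ≠ 2 := by
    have := P.hp5
    omega
  exact hp'_of_model P.freyCurve hp2 C a₂ a₄ hC h (FreyTwo.card_torsion_lt P) N hN hN0 hN1

end Fermat.Agent.S13.AtPFrey
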