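import Mathlib
import Fermat.Agent.S05.Defs
import Fermat.Agent.S05.Val
import Fermat.Agent.S05.Core

/-!
# S13, module C1: inertia at `2` is unipotent on the odd torsion of a nodal model

The model is `y² + x y = x³ + a₂ x² + a₄ x` over a field `K` with a valuation subring `A` of
residue characteristic `2`, `a₂ ∈ A`, `a₄ ∈ 𝔪_A`, `a₄ ≠ 0` (multiplicative reduction, node at the
origin; the two branches at the node are the roots of `s² + s = a₂`).

Main result `unipotent`: if the kernel of reduction contains no nonzero `n`-torsion point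
(`n` odd), then `(σ - 1)² = 0` on the `n`-torsion points for every `σ` in the inertia group.
-/

set_option autoImplicit false
set_option linter.unusedSectionVars false
set_option linter.unusedVariables false

namespace Fermat.Agent.S13.AtTwo

open WeierstrassCurve WeierstrassCurve.Affine Fermat.Agent.S05

variable {K : Type*} [Field K] [DecidableEq K] (A : ValuationSubring K) (W : WeierstrassCurve K)

/-- `W` is `y² + x y = x³ + a₂ x² + a₄ x` with `a₂ ∈ A`, `a₄ ∈ 𝔪`, `a₄ ≠ 0`, and `2 ∈ 𝔪`. -/
structure IsNode2 : Prop where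
  a₁ : W.a₁ = 1
  a₃ : W.a₃ = 0
  a₆ : W.a₆ = 0
  a₂_le : A.valuation W.a₂ ≤ 1
  a₄_lt : A.valuation W.a₄ < 1
  a₄_ne : W.a₄ ≠ 0
  two : A.valuation (2 : K) < 1

variable {A W}

/-! ### Valuation helpers -/

theorem v_mul_le {a b : K} (ha : A.valuation a ≤ 1) (hb : A.valuation b ≤ 1) :
    A.valuation (a * b) ≤ 1 := by
  rw [map_mul]
  exact mul_le_one' ha hb

theorem v_pow_le {a : K} (ha : A.valuation a ≤ 1) (n : ℕ) : A.valuation (a ^ n) ≤ 1 := by
  rw [map_pow]
  exact pow_le_one' ha n

theorem v_mul_lt {a b : K} (ha : A.valuation a < 1) (hb : A.valuation b ≤ 1) :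
    A.valuation (a * b) < 1 := by
  rw [map_mul]
  exact mul_lt_one_of_lt_of_le ha hb

theorem v_add_unit {u m : K} (hu : A.valuation u = 1) (hm : A.valuation m < 1) :
    A.valuation (u + m) = 1 := by
  rw [Valuation.map_add_eq_of_lt_left _ (by rwa [hu]), hu]

theorem ne_zero_of_v_lt {x y : K} (h : A.valuation y < A.valuation x) : x ≠ 0 := by
  rintro rfl
  rw [map_zero] at h
  exact not_lt_zero h

/-! ### The model -/

theorem eqn (hW : IsNode2 A W) {x y : K} (h : W.toAffine.Nonsingular x y) :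
    y ^ 2 + x * y = x ^ 3 + W.a₂ * x ^ 2 + W.a₄ * x := by
  have := (W.toAffine.equation_iff x y).mp h.1
  rw [hW.a₁, hW.a₃, hW.a₆] at this
  linear_combination this

theorem negY_eq (hW : IsNode2 A W) (x y : K) : W.toAffine.negY x y = -y - x := by
  simp [Affine.negY, hW.a₁, hW.a₃]

/-- integral `x` gives integral `y` -/
theorem val_y_le (hW : IsNode2 A W) {x y : K} (h : W.toAffine.Nonsingular x y)
    (hx : A.valuation x ≤ 1) : A.valuation y ≤ 1 := by
  have e := eqn hW h
  by_contra hc
  rw [not_le] at hc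
  have h1 : A.valuation (x ^ 3 + W.a₂ * x ^ 2 + W.a₄ * x) ≤ 1 := by
    have ha₂ := hW.a₂_le
    have ha₄ := hW.a₄_lt.le
    apply_rules [Valuation.map_add_le, v_mul_le, v_pow_le]
  have h2 : A.valuation (x * y) < A.valuation (y ^ 2) := by
    rw [map_mul, map_pow, sq]
    calc A.valuation x * A.valuation y ≤ 1 * A.valuation y := mul_le_mul_left hx _
      _ = A.valuation y := one_mul _
      _ = A.valuation y * 1 := (mul_one _).symm
      _ < A.valuation y * A.valuation y :=
        (mul_lt_mul_iff_of_pos_left (lt_trans zero_lt_one hc)).mpr hc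
  have h3 : A.valuation (y ^ 2 + x * y) = A.valuation (y ^ 2) :=
    Valuation.map_add_eq_of_lt_left _ h2
  rw [e] at h3
  rw [h3, map_pow] at h1
  exact absurd h1 (not_le.mpr (one_lt_pow₀ hc (by norm_num)))

/-- the slope of a point of the node is integral -/
theorem val_s_le (hW : IsNode2 A W) {x y : K} (h : W.toAffine.Nonsingular x y)
    (h4 : A.valuation W.a₄ < A.valuation x) (hx : A.valuation x < 1) :
    A.valuation (y / x) ≤ 1 := by
  have e := eqn hW h
  have hx0 : x ≠ 0 := ne_zero_of_v_lt h4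
  have e' : (y / x) ^ 2 + y / x = x + W.a₂ + W.a₄ / x := by
    field_simp
    linear_combination e
  by_contra hc
  rw [not_le] at hc
  have h1 : A.valuation (x + W.a₂ + W.a₄ / x) ≤ 1 := by
    refine Valuation.map_add_le _ (Valuation.map_add_le _ hx.le hW.a₂_le) ?_
    rw [map_div₀]
    exact (div_le_one₀ (zero_lt_iff.mpr ((Valuation.ne_zero_iff _).mpr hx0))).mpr h4.le
  have h2 : A.valuation (y / x) < A.valuation ((y / x) ^ 2) := by
    rw [map_pow, sq]
    calc A.valuation (y / x) = A.valuation (y / x) * 1 := (mul_one _).symm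
      _ < A.valuation (y / x) * A.valuation (y / x) :=
        (mul_lt_mul_iff_of_pos_left (lt_trans zero_lt_one hc)).mpr hc
  have h3 : A.valuation ((y / x) ^ 2 + y / x) = A.valuation ((y / x) ^ 2) :=
    Valuation.map_add_eq_of_lt_left _ h2
  rw [e'] at h3
  rw [h3, map_pow] at h1
  exact absurd h1 (not_le.mpr (one_lt_pow₀ hc (by norm_num)))

/-! ### The chord through two points -/

/-- `x(P₁ - P₂) (x₁ - x₂)²` -/
theorem addX_sub_mul (hW : IsNode2 A W) {x₁ x₂ y₁ y₂ : K} (hx : x₁ ≠ x₂) :
    W.toAffine.addX x₁ x₂ (W.toAffine.slope x₁ x₂ y₁ (W.toAffine.negY x₂ y₂)) * (x₁ - x₂) ^ 2 =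
      (y₁ + y₂ + x₂) ^ 2 + (y₁ + y₂ + x₂) * (x₁ - x₂) - (W.a₂ + x₁ + x₂) * (x₁ - x₂) ^ 2 := by
  have hD : x₁ - x₂ ≠ 0 := sub_ne_zero.mpr hx
  rw [Affine.slope_of_X_ne hx, negY_eq hW]
  simp only [Affine.addX, hW.a₁]
  field_simp
  ring

/-- Vieta: `x(P₁ - P₂) x₁ x₂ (x₁ - x₂)² = (y₁ x₂ + y₂ x₁ + x₁ x₂)²` -/
theorem addX_sub_vieta (hW : IsNode2 A W) {x₁ x₂ y₁ y₂ : K}
    (h₁ : W.toAffine.Nonsingular x₁ y₁) (h₂ : W.toAffine.Nonsingular x₂ y₂) (hx : x₁ ≠ x₂) :
    W.toAffine.addX x₁ x₂ (W.toAffine.slope x₁ x₂ y₁ (W.toAffine.negY x₂ y₂)) *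
      (x₁ * x₂) * (x₁ - x₂) ^ 2 = (y₁ * x₂ + y₂ * x₁ + x₁ * x₂) ^ 2 := by
  have e₁ := eqn hW h₁
  have e₂ := eqn hW h₂
  have hz := addX_sub_mul hW (y₁ := y₁) (y₂ := y₂) hx
  have : W.toAffine.addX x₁ x₂ (W.toAffine.slope x₁ x₂ y₁ (W.toAffine.negY x₂ y₂)) *
      (x₁ * x₂) * (x₁ - x₂) ^ 2 =
      (W.toAffine.addX x₁ x₂ (W.toAffine.slope x₁ x₂ y₁ (W.toAffine.negY x₂ y₂)) *
        (x₁ - x₂) ^ 2) * (x₁ * x₂) := by ring
  rw [this, hz]
  linear_combination (x₁ - x₂) * x₂ * e₁ - (x₁ - x₂) * x₁ * e₂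

/-- **Chord lemma at `2`.** Two points with unit `x`-coordinate which are congruent modulo the
maximal ideal differ by an element of the kernel of reduction. -/
theorem inE1_sub_of_unit (hW : IsNode2 A W) {x₁ x₂ y₁ y₂ : K}
    (h₁ : W.toAffine.Nonsingular x₁ y₁) (h₂ : W.toAffine.Nonsingular x₂ y₂)
    (hx₂ : A.valuation x₂ = 1) (hxx : A.valuation (x₁ - x₂) < 1)
    (hyy : A.valuation (y₁ - y₂) < 1) :
    InE1 A W (Point.some x₁ y₁ h₁ - Point.some x₂ y₂ h₂) := by
  have hy₂ : A.valuation y₂ ≤ 1 := val_y_le hW h₂ hx₂.le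
  -- the numerator of the slope is a unit
  have hnum : A.valuation (y₁ + y₂ + x₂) = 1 := by
    have : y₁ + y₂ + x₂ = x₂ + ((y₁ - y₂) + 2 * y₂) := by ring
    rw [this]
    exact v_add_unit hx₂ (Valuation.map_add_lt _ hyy (v_mul_lt hW.two hy₂))
  by_cases hx : x₁ = x₂
  · subst hx
    rcases Affine.Y_eq_of_X_eq h₁.1 h₂.1 rfl with hy | hy
    · subst hy
      rw [sub_self]
      trivial
    · exfalso
      rw [negY_eq hW] at hy
      have : y₁ - y₂ = -(x₁ + 2 * y₂) := by rw [hy]; ring
      rw [this, Valuation.map_neg, v_add_unit hx₂ (v_mul_lt hW.two hy₂)] at hyy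
      exact lt_irrefl _ hyy
  · have hD : x₁ - x₂ ≠ 0 := sub_ne_zero.mpr hx
    have hD0 : A.valuation (x₁ - x₂) ≠ 0 := (Valuation.ne_zero_iff _).mpr hD
    have hDpos : 0 < A.valuation (x₁ - x₂) := zero_lt_iff.mpr hD0
    rw [sub_eq_add_neg, Point.neg_some, Point.add_of_X_ne hx]
    show 1 < A.valuation _
    rw [Affine.slope_of_X_ne hx, negY_eq hW]
    simp only [Affine.addX, hW.a₁]
    have hl : 1 < A.valuation ((y₁ - (-y₂ - x₂)) / (x₁ - x₂)) := by
      have : y₁ - (-y₂ - x₂) = y₁ + y₂ + x₂ := by ring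
      rw [this, map_div₀, hnum, one_div]
      exact (one_lt_inv₀ hDpos).mpr hxx
    set l := (y₁ - (-y₂ - x₂)) / (x₁ - x₂) with hldef
    have hx₁ : A.valuation x₁ ≤ 1 := by
      have : x₁ = (x₁ - x₂) + x₂ := by ring
      rw [this]
      exact Valuation.map_add_le _ hxx.le hx₂.le
    have hl2 : A.valuation l < A.valuation (l ^ 2) := by
      rw [map_pow, sq]
      calc A.valuation l = A.valuation l * 1 := (mul_one _).symm
        _ < A.valuation l * A.valuation l :=
          (mul_lt_mul_iff_of_pos_left (lt_trans zero_lt_one hl)).mpr hl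
    have hrest : A.valuation (1 * l - W.a₂ - x₁ - x₂) < A.valuation (l ^ 2) := by
      refine lt_of_le_of_lt ?_ hl2
      rw [one_mul]
      refine Valuation.map_sub_le _ (Valuation.map_sub_le _ (Valuation.map_sub_le _ le_rfl ?_)
        ?_) ?_
      · exact hW.a₂_le.trans hl.le
      · exact hx₁.trans hl.le
      · exact hx₂.le.trans hl.le
    have : l ^ 2 + 1 * l - W.a₂ - x₁ - x₂ = l ^ 2 + (1 * l - W.a₂ - x₁ - x₂) := by ring
    rw [this, Valuation.map_add_eq_of_lt_left _ hrest]
    exact lt_trans hl hl2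

/-- **Same branch at the node.** Two points of the node with the same `v(x)` and congruent
slopes `y / x`: the difference has integral... the `x`-coordinate of the difference has
valuation `≥ 1`. -/
theorem one_le_addX_sub (hW : IsNode2 A W) {x₁ x₂ y₁ y₂ : K}
    (h₁ : W.toAffine.Nonsingular x₁ y₁) (h₂ : W.toAffine.Nonsingular x₂ y₂) (hx : x₁ ≠ x₂)
    (h4 : A.valuation W.a₄ < A.valuation x₁) (hx₁ : A.valuation x₁ < 1)
    (hv : A.valuation x₂ = A.valuation x₁)
    (hs : A.valuation (y₁ / x₁ - y₂ / x₂) < 1) :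
    1 ≤ A.valuation
      (W.toAffine.addX x₁ x₂ (W.toAffine.slope x₁ x₂ y₁ (W.toAffine.negY x₂ y₂))) := by
  have n₁ : x₁ ≠ 0 := ne_zero_of_v_lt h4
  have n₂ : x₂ ≠ 0 := ne_zero_of_v_lt (hv ▸ h4)
  have hν0 : A.valuation x₁ ≠ 0 := (Valuation.ne_zero_iff _).mpr n₁
  have hνpos : 0 < A.valuation x₁ := zero_lt_iff.mpr hν0
  have hD : x₁ - x₂ ≠ 0 := sub_ne_zero.mpr hx
  have hD0 : A.valuation (x₁ - x₂) ≠ 0 := (Valuation.ne_zero_iff _).mpr hD
  have hDpos : 0 < A.valuation (x₁ - x₂) := zero_lt_iff.mpr hD0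
  have hDle : A.valuation (x₁ - x₂) ≤ A.valuation x₁ :=
    Valuation.map_sub_le _ le_rfl hv.le
  have hs₂ : A.valuation (y₂ / x₂) ≤ 1 := val_s_le hW h₂ (hv ▸ h4) (hv ▸ hx₁)
  have hu : A.valuation (y₁ / x₁ + y₂ / x₂ + 1) = 1 := by
    have : y₁ / x₁ + y₂ / x₂ + 1 = 1 + ((y₁ / x₁ - y₂ / x₂) + 2 * (y₂ / x₂)) := by ring
    rw [this]
    exact v_add_unit (map_one _) (Valuation.map_add_lt _ hs (v_mul_lt hW.two hs₂))
  have key := addX_sub_vieta hW h₁ h₂ hx
  have e : y₁ * x₂ + y₂ * x₁ + x₁ * x₂ = x₁ * x₂ * (y₁ / x₁ + y₂ / x₂ + 1) := by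
    field_simp
  rw [e] at key
  have key' := congrArg A.valuation key
  simp only [map_mul, map_pow, hu, hv, mul_one] at key'
  -- `v(z) ν² v(D)² = ν⁴`
  by_contra hc
  rw [not_le] at hc
  have h1 : A.valuation (W.toAffine.addX x₁ x₂
      (W.toAffine.slope x₁ x₂ y₁ (W.toAffine.negY x₂ y₂))) *
      (A.valuation x₁ * A.valuation x₁) * A.valuation (x₁ - x₂) ^ 2 <
      (A.valuation x₁ * A.valuation x₁) ^ 2 := by
    have h2 : A.valuation (x₁ - x₂) ^ 2 ≤ A.valuation x₁ * A.valuation x₁ := by
      rw [sq]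
      exact mul_le_mul' hDle hDle
    have hpos : 0 < A.valuation x₁ * A.valuation x₁ := mul_pos hνpos hνpos
    calc _ ≤ A.valuation (W.toAffine.addX x₁ x₂
          (W.toAffine.slope x₁ x₂ y₁ (W.toAffine.negY x₂ y₂))) *
          (A.valuation x₁ * A.valuation x₁) * (A.valuation x₁ * A.valuation x₁) :=
          mul_le_mul_right h2 _
      _ < 1 * (A.valuation x₁ * A.valuation x₁) * (A.valuation x₁ * A.valuation x₁) := by
          apply mul_lt_mul_of_pos_right _ hpos
          exact mul_lt_mul_of_pos_right hc hpos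
      _ = (A.valuation x₁ * A.valuation x₁) ^ 2 := by rw [one_mul, sq]
  exact absurd key' h1.ne

/-! ### The point `T₀ = (0, 0)` -/

theorem nonsingular_T0 (hW : IsNode2 A W) : W.toAffine.Nonsingular 0 0 := by
  rw [Affine.nonsingular_zero]
  exact ⟨hW.a₆, Or.inr hW.a₄_ne⟩

theorem T0_add_T0 (hW : IsNode2 A W) :
    Point.some 0 0 (nonsingular_T0 hW) + Point.some 0 0 (nonsingular_T0 hW) = 0 := by
  apply Point.add_self_of_Y_eq
  rw [negY_eq hW]
  ring

/-- `x(P + T₀) = a₄ / x(P)` -/
theorem addX_T0 (hW : IsNode2 A W) {x y : K} (h : W.toAffine.Nonsingular x y) (hx : x ≠ 0) :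
    W.toAffine.addX x 0 (W.toAffine.slope x 0 y 0) * x = W.a₄ := by
  have e := eqn hW h
  rw [Affine.slope_of_X_ne hx]
  simp only [Affine.addX, hW.a₁, sub_zero]
  field_simp
  linear_combination e

/-! ### Duplication in the kernel of reduction -/

theorem addX_double (hW : IsNode2 A W) {x y : K} (h : W.toAffine.Nonsingular x y)
    (hy : y ≠ W.toAffine.negY x y) :
    W.toAffine.addX x x (W.toAffine.slope x x y y) *
      (x * (4 * x ^ 2 + (1 + 4 * W.a₂) * x + 4 * W.a₄)) = (x ^ 2 - W.a₄) ^ 2 := by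
  have e := eqn hW h
  rw [Affine.slope_of_Y_ne rfl hy]
  rw [negY_eq hW] at hy ⊢
  have hu : y - (-y - x) ≠ 0 := sub_ne_zero.mpr hy
  have hz : W.toAffine.addX x x
      ((3 * x ^ 2 + 2 * W.a₂ * x + W.a₄ - W.a₁ * y) / (y - (-y - x))) * (y - (-y - x)) ^ 2 =
      (3 * x ^ 2 + 2 * W.a₂ * x + W.a₄ - y) ^ 2 +
        (3 * x ^ 2 + 2 * W.a₂ * x + W.a₄ - y) * (y - (-y - x)) -
        (W.a₂ + 2 * x) * (y - (-y - x)) ^ 2 := by
    simp only [Affine.addX, hW.a₁]
    field_simp
    ring
  have hu2 : (y - (-y - x)) ^ 2 = x * (4 * x ^ 2 + (1 + 4 * W.a₂) * x + 4 * W.a₄) := by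
    linear_combination 4 * e
  rw [← hu2, hz]
  linear_combination (-(1 + 4 * W.a₂ + 8 * x)) * e

/-- the kernel of reduction is stable under duplication -/
theorem inE1_double (hW : IsNode2 A W) {P : W.toAffine.Point} (hP : InE1 A W P) :
    InE1 A W (P + P) := by
  cases P with
  | zero => exact hP
  | some x y h =>
    have hx : 1 < A.valuation x := hP
    by_cases hy : y = W.toAffine.negY x y
    · rw [Point.add_self_of_Y_eq hy]
      trivial
    · rw [Point.add_self_of_Y_ne hy]
      show 1 < A.valuation _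
      have hz := addX_double hW h hy
      have n : x ≠ 0 := ne_zero_of_v_lt (lt_trans (by rw [map_zero]; exact zero_lt_one) hx)
      have hp : A.valuation x⁻¹ < 1 := by
        rw [map_inv₀]
        exact inv_lt_one_of_one_lt₀ hx
      have h2le : A.valuation (2 : K) ≤ 1 := hW.two.le
      have h4le : A.valuation (4 : K) ≤ 1 := by
        have : (4 : K) = 2 * 2 := by norm_num
        rw [this]
        exact v_mul_le h2le h2le
      have ha₂ := hW.a₂_le
      have ha₄ := hW.a₄_lt.le
      have hple := hp.le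
      have e : W.toAffine.addX x x (W.toAffine.slope x x y y) *
          (x⁻¹ * (4 + (1 + 4 * W.a₂) * x⁻¹ + 4 * W.a₄ * x⁻¹ ^ 2)) = (1 - W.a₄ * x⁻¹ ^ 2) ^ 2 := by
        have : (1 - W.a₄ * x⁻¹ ^ 2) ^ 2 = (x ^ 2 - W.a₄) ^ 2 * x⁻¹ ^ 4 := by
          field_simp
        rw [this, ← hz]
        field_simp
      have hU : A.valuation ((1 - W.a₄ * x⁻¹ ^ 2) ^ 2) = 1 := by
        rw [map_pow, Valuation.map_one_sub_of_lt _ (v_mul_lt hW.a₄_lt (v_pow_le hple 2)),
          one_pow]
      have hw : A.valuation (x⁻¹ * (4 + (1 + 4 * W.a₂) * x⁻¹ + 4 * W.a₄ * x⁻¹ ^ 2)) < 1 := by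
        refine v_mul_lt hp ?_
        apply_rules [Valuation.map_add_le, v_mul_le, v_pow_le, (map_one A.valuation).le]
      have e' := congrArg A.valuation e
      rw [map_mul, hU] at e'
      by_contra hc
      rw [not_lt] at hc
      have : A.valuation (W.toAffine.addX x x (W.toAffine.slope x x y y)) *
          A.valuation (x⁻¹ * (4 + (1 + 4 * W.a₂) * x⁻¹ + 4 * W.a₄ * x⁻¹ ^ 2)) < 1 := by
        rw [mul_comm]
        exact mul_lt_one_of_lt_of_le hw hc
      exact absurd e' this.ne

/-! ### Odd torsion -/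

theorem eq_zero_of_double (P : W.toAffine.Point) {n : ℕ} (hn : Odd n) (h2 : P + P = 0)
    (hP : n • P = 0) : P = 0 := by
  obtain ⟨k, rfl⟩ := hn
  have : (2 * k + 1) • P = k • (P + P) + P := by
    rw [add_nsmul, one_nsmul, two_mul, add_nsmul, nsmul_add]
  rw [this, h2, nsmul_zero, zero_add] at hP
  exact hP

/-- weakly good points: the origin and the points with `v(x) ≥ 1` -/
def WG (A : ValuationSubring K) (W : WeierstrassCurve K) : W.toAffine.Point → Prop
  | .zero => True
  | .some x _ _ => 1 ≤ A.valuation x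

theorem wg_of_inE1 {P : W.toAffine.Point} (h : InE1 A W P) : WG A W P := by
  cases P with
  | zero => trivial
  | some x y hxy => exact le_of_lt h

end Fermat.Agent.S13.AtTwo

namespace Fermat.Agent.S13.AtTwo

open WeierstrassCurve WeierstrassCurve.Affine Fermat.Agent.S05

/-! ### The action of inertia -/

section Galois

variable {L : Type*} [Field L] [DecidableEq L] [Algebra ℚ L] [Algebra.IsAlgebraic ℚ L]
  {W' : WeierstrassCurve ℚ} {A : ValuationSubring L}

theorem smul_T0 (hW : IsNode2 A (W'⁄L)) (σ : L ≃ₐ[ℚ] L) :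
    σ • (Point.some 0 0 (nonsingular_T0 hW) : (W'⁄L).Point) =
      Point.some 0 0 (nonsingular_T0 hW) := by
  rw [Core.smul_some]
  congr 1 <;> exact map_zero σ

/-- a point with unit `x`-coordinate moves by an element of the kernel of reduction -/
theorem inE1_smul_sub_of_unit (hW : IsNode2 A (W'⁄L)) {σ : L ≃ₐ[ℚ] L}
    (hσ : σ ∈ A.inertiaSubgroupIn ℚ) {x y : L} (h : (W'⁄L).Nonsingular x y)
    (hx : A.valuation x = 1) :
    InE1 A (W'⁄L) (σ • (Point.some x y h : (W'⁄L).Point) - Point.some x y h) := by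
  rw [Core.smul_some]
  exact inE1_sub_of_unit hW _ h hx (Val.valuation_sub_lt_one A hσ hx.le)
    (Val.valuation_sub_lt_one A hσ (val_y_le hW h hx.le))

/-- for every torsion point `P` of odd order the point `σ P - P` is weakly good -/
theorem wg_smul_sub (hW : IsNode2 A (W'⁄L)) {σ : L ≃ₐ[ℚ] L}
    (hσ : σ ∈ A.inertiaSubgroupIn ℚ) {n : ℕ} (hn : Odd n)
    (hE1 : ∀ R : (W'⁄L).Point, n • R = 0 → InE1 A (W'⁄L) R → R = 0)
    {P : (W'⁄L).Point} (hP : n • P = 0) : WG A (W'⁄L) (σ • P - P) := by
  cases P with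
  | zero =>
    show WG A (W'⁄L) (σ • (0 : (W'⁄L).Point) - 0)
    rw [Core.smul_zero', sub_zero]
    trivial
  | some x y h =>
    rcases lt_trichotomy (A.valuation x) 1 with hx | hx | hx
    · rcases lt_trichotomy (A.valuation (W'⁄L).a₄) (A.valuation x) with h4 | h4 | h4
      · -- type N
        have hs : A.valuation (y / x) ≤ 1 := val_s_le hW h h4 hx
        have hσs : A.valuation (σ (y / x) - y / x) < 1 := Val.valuation_sub_lt_one A hσ hs
        have hvσ : A.valuation (σ x) = A.valuation x := Val.valuation_map A hσ x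
        rw [Core.smul_some]
        by_cases hxx : σ x = x
        · rcases Point.X_eq_iff.mp hxx with he | he
          · rw [he, sub_self]
            trivial
          · exfalso
            rw [Point.neg_some, Point.some.injEq] at he
            have hy : σ y = -y - x := by
              rw [he.2, negY_eq hW]
            have n₁ : x ≠ 0 := ne_zero_of_v_lt h4
            have : σ (y / x) - y / x = -(1 + 2 * (y / x)) := by
              rw [map_div₀, hy, hxx]
              field_simp
              ring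
            rw [this, Valuation.map_neg,
              v_add_unit (map_one _) (v_mul_lt hW.two hs)] at hσs
            exact lt_irrefl _ hσs
        · rw [sub_eq_add_neg, Point.neg_some, Point.add_of_X_ne hxx]
          show 1 ≤ A.valuation _
          refine one_le_addX_sub hW (Core.nonsingular_smul W' σ h) h hxx (by rw [hvσ]; exact h4)
            (by rw [hvσ]; exact hx) hvσ.symm ?_
          rw [← map_div₀]
          exact hσs
      · -- `v(x) = v(a₄)`: translate by `T₀`
        have n₁ : x ≠ 0 := by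
          rintro rfl
          rw [map_zero] at h4
          exact (Valuation.ne_zero_iff _).mpr hW.a₄_ne h4
        have hR : Point.some x y h + Point.some 0 0 (nonsingular_T0 hW) =
            Point.some _ _ (Affine.nonsingular_add h (nonsingular_T0 hW)
              (fun hxy => n₁ hxy.left)) := Point.add_of_X_ne n₁
        have hxR : A.valuation ((W'⁄L).addX x 0 ((W'⁄L).slope x 0 y 0)) = 1 := by
          have := congrArg A.valuation (addX_T0 hW h n₁)
          rw [map_mul, h4] at this
          have hx0 : A.valuation x ≠ 0 := (Valuation.ne_zero_iff _).mpr n₁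
          have e : A.valuation ((W'⁄L).addX x 0 ((W'⁄L).slope x 0 y 0)) * A.valuation x =
              1 * A.valuation x := by rw [this, one_mul]
          exact (mul_left_inj' hx0).mp e
        have key := inE1_smul_sub_of_unit hW hσ (Affine.nonsingular_add h (nonsingular_T0 hW)
              (fun hxy => n₁ hxy.left)) hxR
        rw [← hR, Core.smul_add', smul_T0 hW σ] at key
        have e : σ • (Point.some x y h : (W'⁄L).Point) + Point.some 0 0 (nonsingular_T0 hW) -
            (Point.some x y h + Point.some 0 0 (nonsingular_T0 hW)) =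
            σ • (Point.some x y h : (W'⁄L).Point) - Point.some x y h := by abel
        rw [e] at key
        exact wg_of_inE1 key
      · -- `v(x) < v(a₄)`: impossible
        exfalso
        have h2 : (Point.some x y h : (W'⁄L).Point) + Point.some x y h = 0 := by
          by_cases n₁ : x = 0
          · subst n₁
            have e := eqn hW h
            have hy : y = 0 := by
              have : y ^ 2 = 0 := by linear_combination e
              exact pow_eq_zero_iff (two_ne_zero) |>.mp this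
            subst hy
            exact T0_add_T0 hW
          · have hR : Point.some x y h + Point.some 0 0 (nonsingular_T0 hW) =
                Point.some _ _ (Affine.nonsingular_add h (nonsingular_T0 hW)
                  (fun hxy => n₁ hxy.left)) := Point.add_of_X_ne n₁
            have hxR : 1 < A.valuation ((W'⁄L).addX x 0 ((W'⁄L).slope x 0 y 0)) := by
              have := congrArg A.valuation (addX_T0 hW h n₁)
              rw [map_mul] at this
              have hx0 : 0 < A.valuation x := zero_lt_iff.mpr ((Valuation.ne_zero_iff _).mpr n₁)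
              by_contra hc
              rw [not_lt] at hc
              have : A.valuation ((W'⁄L).addX x 0 ((W'⁄L).slope x 0 y 0)) * A.valuation x ≤
                  1 * A.valuation x := mul_le_mul_left hc _
              rw [one_mul] at this
              exact absurd (lt_of_lt_of_le h4 (by rw [← ‹_ * _ = A.valuation (W'⁄L).a₄›]; exact this))
                (lt_irrefl _)
            have hRE : InE1 A (W'⁄L) (Point.some x y h + Point.some 0 0 (nonsingular_T0 hW)) := by
              rw [hR]
              exact hxR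
            have hdd := inE1_double hW hRE
            have e : (Point.some x y h + Point.some 0 0 (nonsingular_T0 hW)) +
                (Point.some x y h + Point.some 0 0 (nonsingular_T0 hW)) =
                (Point.some x y h + Point.some x y h : (W'⁄L).Point) := by
              have := T0_add_T0 hW
              calc _ = (Point.some x y h + Point.some x y h : (W'⁄L).Point) +
                    (Point.some 0 0 (nonsingular_T0 hW) + Point.some 0 0 (nonsingular_T0 hW)) := by
                    abel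
                _ = _ := by rw [this, add_zero]
            rw [e] at hdd
            apply hE1 _ _ hdd
            rw [nsmul_add, hP, add_zero]
        exact Point.some_ne_zero h (eq_zero_of_double _ hn h2 hP)
    · -- unit `x`
      exact wg_of_inE1 (inE1_smul_sub_of_unit hW hσ h hx)
    · -- `P` in the kernel of reduction
      exfalso
      exact Point.some_ne_zero h (hE1 _ hP hx)

/-- **Inertia at `2` is unipotent.** -/
theorem unipotent (hW : IsNode2 A (W'⁄L)) {σ : L ≃ₐ[ℚ] L}
    (hσ : σ ∈ A.inertiaSubgroupIn ℚ) {n : ℕ} (hn : Odd n)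
    (hE1 : ∀ R : (W'⁄L).Point, n • R = 0 → InE1 A (W'⁄L) R → R = 0)
    {P : (W'⁄L).Point} (hP : n • P = 0) : σ • (σ • P - P) = σ • P - P := by
  have hT : n • (σ • P - P) = 0 := by
    rw [nsmul_sub, ← Core.smul_nsmul', hP, Core.smul_zero', sub_zero]
  have hwg := wg_smul_sub hW hσ hn hE1 hP
  have hTT : n • (σ • (σ • P - P) - (σ • P - P)) = 0 := by
    rw [nsmul_sub, ← Core.smul_nsmul', hT, Core.smul_zero', sub_zero]
  generalize σ • P - P = T at hT hwg hTT ⊢
  cases T with
  | zero => exact Core.smul_zero' W' σ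
  | some x y h =>
    have hx : 1 ≤ A.valuation x := hwg
    rcases hx.lt_or_eq with hx | hx
    · exfalso
      exact Point.some_ne_zero h (hE1 _ hT hx)
    · exact sub_eq_zero.mp (hE1 _ hTT (inE1_smul_sub_of_unit hW hσ h hx.symm))

end Galois

end Fermat.Agent.S13.AtTwo
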