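import Mathlib
import Fermat.Prelude.Def_FLTPrelim_FreyPackage
import Fermat.Agent.S13.AtTwo
import Fermat.Agent.S13.LadderTorsion

/-!
# S13, module C1 (Frey instance): inertia at `2` is unipotent on the `p`-torsion of the Frey curve

The Frey curve `y² + x y = x³ + a₂ x² + a₄ x`, `a₂ = (b^p - 1 - a^p)/4`, `a₄ = -a^p b^p / 16`,
has integral coefficients and `a₄ ∈ 2ℤ ∖ {0}`: it is a nodal model at every place over `2`.
With the division polynomial (`Ladder`, `p` is a `2`-adic unit) the kernel of reduction has no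
`p`-torsion, so `AtTwo.unipotent` applies.
-/

set_option autoImplicit false
set_option linter.unusedSectionVars false
set_option linter.unusedVariables false

namespace Fermat.Agent.S13.AtTwoFrey

open WeierstrassCurve WeierstrassCurve.Affine Fermat.Agent.S05

/-! ### Integrality of the coefficients -/

theorem two_dvd_b (P : FreyPackage) : (2 : ℤ) ∣ P.b :=
  (ZMod.intCast_zmod_eq_zero_iff_dvd P.b 2).1 P.hb2

theorem pow_two_dvd_b_pow (P : FreyPackage) {k : ℕ} (hk : k ≤ P.p) : (2 : ℤ) ^ k ∣ P.b ^ P.p :=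
  (pow_dvd_pow 2 hk).trans (pow_dvd_pow_of_dvd (two_dvd_b P) P.p)

theorem four_dvd (P : FreyPackage) : (4 : ℤ) ∣ P.b ^ P.p - 1 - P.a ^ P.p := by
  have h1 : (4 : ℤ) ∣ P.b ^ P.p := by
    have := pow_two_dvd_b_pow P (k := 2) (by have := P.hp5; omega)
    norm_num at this
    exact this
  have h2 : (4 : ℤ) ∣ 1 + P.a ^ P.p := by
    have e : ((1 + P.a ^ P.p : ℤ) : ZMod 4) = 0 := by
      push_cast
      rw [P.ha4]
      have h3 : (3 : ZMod 4) = -1 := by decide
      rw [h3, P.hp_odd.neg_one_pow]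
      ring
    exact (ZMod.intCast_zmod_eq_zero_iff_dvd _ 4).1 e
  have : P.b ^ P.p - 1 - P.a ^ P.p = P.b ^ P.p - (1 + P.a ^ P.p) := by ring
  rw [this]
  exact dvd_sub h1 h2

theorem a₂_int (P : FreyPackage) : ∃ k : ℤ, P.freyCurve.a₂ = (k : ℚ) := by
  obtain ⟨k, hk⟩ := four_dvd P
  refine ⟨k, ?_⟩
  show ((P.b : ℚ) ^ P.p - 1 - (P.a : ℚ) ^ P.p) / 4 = k
  have : ((P.b : ℚ) ^ P.p - 1 - (P.a : ℚ) ^ P.p) = 4 * k := by
    exact_mod_cast hk
  rw [this]
  field_simp

theorem a₄_int (P : FreyPackage) : ∃ k : ℤ, k ≠ 0 ∧ P.freyCurve.a₄ = ((2 * k : ℤ) : ℚ) := by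
  obtain ⟨c, hc⟩ := pow_two_dvd_b_pow P (k := 5) P.hp5
  have hc0 : c ≠ 0 := by
    rintro rfl
    rw [mul_zero] at hc
    exact pow_ne_zero _ P.hb0 hc
  refine ⟨-(P.a ^ P.p) * c, ?_, ?_⟩
  · exact mul_ne_zero (neg_ne_zero.mpr (pow_ne_zero _ P.ha0)) hc0
  · show -((P.a : ℚ) ^ P.p) * ((P.b : ℚ) ^ P.p) / 16 = _
    have : ((P.b : ℚ) ^ P.p) = 2 ^ 5 * c := by
      exact_mod_cast hc
    rw [this]
    push_cast
    ring

/-! ### The Frey curve over a valuation subring over `2` -/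

section

variable {L : Type*} [Field L] [DecidableEq L] [Algebra ℚ L]

theorem isNode2 (P : FreyPackage) (A : ValuationSubring L) (hA : A.LiesOverPrime 2) :
    AtTwo.IsNode2 A (P.freyCurve⁄L) := by
  have hc : CharZero L := algebraRat.charZero L
  obtain ⟨k₂, hk₂⟩ := a₂_int P
  obtain ⟨k₄, hk₄0, hk₄⟩ := a₄_int P
  have h2 : A.valuation (2 : L) < 1 := by
    have := Val.valuation_natCast_lt_one A hA
    simpa using this
  have e₂ : (P.freyCurve⁄L).a₂ = (k₂ : L) := by
    show algebraMap ℚ L P.freyCurve.a₂ = _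
    rw [hk₂]
    simp
  have e₄ : (P.freyCurve⁄L).a₄ = 2 * (k₄ : L) := by
    show algebraMap ℚ L P.freyCurve.a₄ = _
    rw [hk₄]
    simp
  refine
    { a₁ := ?_
      a₃ := ?_
      a₆ := ?_
      a₂_le := ?_
      a₄_lt := ?_
      a₄_ne := ?_
      two := h2 }
  · show algebraMap ℚ L P.freyCurve.a₁ = 1
    simp [FreyPackage.freyCurve]
  · show algebraMap ℚ L P.freyCurve.a₃ = 0
    simp [FreyPackage.freyCurve]
  · show algebraMap ℚ L P.freyCurve.a₆ = 0
    simp [FreyPackage.freyCurve]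
  · rw [e₂]
    exact Val.valuation_intCast_le_one A k₂
  · rw [e₄, map_mul]
    exact mul_lt_one_of_lt_of_le h2 (Val.valuation_intCast_le_one A k₄)
  · rw [e₄]
    exact mul_ne_zero two_ne_zero (Int.cast_ne_zero.mpr hk₄0)

/-- the kernel of reduction at `2` contains no nonzero `p`-torsion point -/
theorem eq_zero_of_inE1 (P : FreyPackage) (A : ValuationSubring L) (hA : A.LiesOverPrime 2)
    (R : (P.freyCurve⁄L).Point) (hR : P.p • R = 0) (hE : InE1 A (P.freyCurve⁄L) R) : R = 0 := by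
  have hc : CharZero L := algebraRat.charZero L
  have hW := isNode2 P A hA
  cases R with
  | zero => rfl
  | some x y h =>
    exfalso
    have hx : 1 < A.valuation x := hE
    obtain ⟨m, hm⟩ := P.hp_odd
    have hm1 : 1 ≤ m := by have := P.hp5; omega
    have hp2 : ¬ 2 ∣ P.p := by
      rw [hm]
      omega
    have hn : A.valuation (((2 * m + 1 : ℕ)) : L) = 1 := by
      rw [← hm]
      exact Val.valuation_natCast_eq_one A Nat.prime_two hA hp2
    have h4le : A.valuation (4 : L) ≤ 1 := by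
      have : (4 : L) = ((4 : ℤ) : L) := by norm_num
      rw [this]
      exact Val.valuation_intCast_le_one A 4
    have hb : A.valuation (P.freyCurve⁄L).b₂ ≤ 1 := by
      have : (P.freyCurve⁄L).b₂ = 1 + 4 * (P.freyCurve⁄L).a₂ := by
        rw [WeierstrassCurve.b₂, hW.a₁]
        ring
      rw [this]
      refine Valuation.map_add_le _ (map_one _).le ?_
      rw [map_mul]
      exact mul_le_one' h4le hW.a₂_le
    have hP' : (2 * m + 1) • (Point.some x y h : (P.freyCurve⁄L).Point) = 0 := by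
      rw [← hm]
      exact hR
    have := LadderTorsion.val_x_le_one A (two_ne_zero) hW.a₃ hW.a₆ hb hW.a₄_lt.le hm1 hn h hP'
    exact absurd this (not_le.mpr hx)

/-- **Inertia at `2` is unipotent on the `p`-torsion of the Frey curve.** -/
theorem frey_unipotent [Algebra.IsAlgebraic ℚ L] (P : FreyPackage) (A : ValuationSubring L)
    (hA : A.LiesOverPrime 2) {σ : L ≃ₐ[ℚ] L} (hσ : σ ∈ A.inertiaSubgroupIn ℚ)
    {Q : (P.freyCurve⁄L).Point} (hQ : P.p • Q = 0) : σ • (σ • Q - Q) = σ • Q - Q :=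
  AtTwo.unipotent (isNode2 P A hA) hσ P.hp_odd (eq_zero_of_inE1 P A hA) hQ

end

end Fermat.Agent.S13.AtTwoFrey
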