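import Mathlib
import Fermat.Agent.S05.KummerInd
import Fermat.Agent.S13.AtTwo
import Fermat.Agent.S13.LadderTorsion
import Fermat.Agent.S13.AtTwoFrey
import Fermat.Agent.S13.FreyTwo

/-!
# S13, module C2: no rational torsion of odd prime order `p ∤ v₂(a₄)`

The model is `y² + x y = x³ + a₂ x² + a₄ x` over a field `K` with a valuation subring `A` of
residue characteristic `2` (`IsNode2` of module C1).  A point is a *node point* if
`v(a₄) < v(x) < 1`.

* `fd_pow_of_pair_rule` : the abstract induction (a sequence satisfying the pair rule with its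
  first term is a fold of the powers of the first term);
* `pair_rule` : the pair rule for two node points whose sum and difference are node points;
* `isNodePt_of_torsion` : if the residue field has two elements, every nonzero point killed by
  an odd `n` prime to `3` which is a unit is a node point;
* `zpow_of_torsion` : for such a point, `v(x) ^ n` is an even power of `v(a₄)`.
-/

set_option autoImplicit false
set_option linter.unusedSectionVars false
set_option linter.unusedVariables false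

namespace Fermat.Agent.S13.NoRatTorsion

open WeierstrassCurve WeierstrassCurve.Affine Fermat.Agent.S05 Fermat.Agent.S13.AtTwo
open Fermat.Agent.S05.KummerInd

/-! ### The abstract induction -/

section Abstract

variable {G : Type*} [CommGroupWithZero G] {α : G}

theorem fd_pow_of_pair_rule (hα : α ≠ 0) (lam : ℕ → G) (h0 : lam 0 = 1) (hℓ : lam 1 ≠ 0)
    (H : ∀ k : ℕ,
      (Fd α (lam (k + 1) * lam 1) (lam (k + 2)) ∧ Fd α (lam (k + 1) / lam 1) (lam k)) ∨
      (Fd α (lam (k + 1) / lam 1) (lam (k + 2)) ∧ Fd α (lam (k + 1) * lam 1) (lam k)))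
    (k : ℕ) : Fd α (lam 1 ^ k) (lam k) := by
  have key : ∀ k : ℕ, Fd α (lam 1 ^ k) (lam k) ∧ Fd α (lam 1 ^ (k + 1)) (lam (k + 1)) := by
    intro k
    induction k with
    | zero =>
        constructor
        · rw [pow_zero, h0]
          exact Fd.refl _
        · rw [zero_add, pow_one]
          exact Fd.refl _
    | succ k ih =>
        obtain ⟨ih0, ih1⟩ := ih
        refine ⟨ih1, ?_⟩
        rcases Fd.step hℓ k ih1 with ⟨h1, h2⟩ | ⟨h1, h2⟩ <;> rcases H k with ⟨g1, g2⟩ | ⟨g1, g2⟩
        · exact h1.trans hα g1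
        · exact (((h1.trans hα g2).trans hα (ih0.symm hα)).trans hα h2).trans hα g1
        · exact (((h2.trans hα g2).trans hα (ih0.symm hα)).trans hα h1).trans hα g1
        · exact h2.trans hα g1
  exact (key k).1

end Abstract

variable {K : Type*} [Field K] [DecidableEq K] (A : ValuationSubring K) (W : WeierstrassCurve K)

/-- the valuation of the `x`-coordinate (and `1` at the origin) -/
noncomputable def nu : W.toAffine.Point → A.ValueGroup
  | .zero => 1
  | .some x _ _ => A.valuation x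

/-- node points: `v(a₄) < v(x) < 1` -/
def IsNodePt : W.toAffine.Point → Prop
  | .zero => False
  | .some x _ _ => A.valuation W.a₄ < A.valuation x ∧ A.valuation x < 1

@[simp] theorem nu_zero : nu A W (0 : W.toAffine.Point) = 1 := rfl

@[simp] theorem nu_some {x y : K} (h : W.toAffine.Nonsingular x y) :
    nu A W (.some x y h) = A.valuation x := rfl

@[simp] theorem isNodePt_some {x y : K} (h : W.toAffine.Nonsingular x y) :
    IsNodePt A W (.some x y h) ↔ A.valuation W.a₄ < A.valuation x ∧ A.valuation x < 1 :=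
  Iff.rfl

theorem not_isNodePt_zero : ¬ IsNodePt A W (0 : W.toAffine.Point) := fun h => h

variable {A W}

theorem nu_neg (P : W.toAffine.Point) : nu A W (-P) = nu A W P := by
  cases P with
  | zero => rfl
  | some x y h => rfl

theorem isNodePt_neg {P : W.toAffine.Point} (h : IsNodePt A W P) : IsNodePt A W (-P) := by
  cases P with
  | zero => exact h
  | some x y hxy => exact h

theorem IsNodePt.ne_zero {P : W.toAffine.Point} (h : IsNodePt A W P) : P ≠ 0 := by
  rintro rfl
  exact h

theorem IsNodePt.nu_ne_zero (hW : IsNode2 A W) {P : W.toAffine.Point} (h : IsNodePt A W P) :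
    nu A W P ≠ 0 := by
  cases P with
  | zero => exact one_ne_zero
  | some x y hxy =>
    have : (0 : A.ValueGroup) < A.valuation x := lt_of_le_of_lt zero_le h.1
    exact this.ne'

theorem beta_ne_zero (hW : IsNode2 A W) : A.valuation W.a₄ ≠ 0 :=
  (Valuation.ne_zero_iff _).mpr hW.a₄_ne

/-! ### Formulas -/

/-- Vieta for the sum: `x(P₁ + P₂) x₁ x₂ (x₁ - x₂)² = (y₁ x₂ - y₂ x₁)²` -/
theorem addX_add_vieta (hW : IsNode2 A W) {x₁ x₂ y₁ y₂ : K}
    (h₁ : W.toAffine.Nonsingular x₁ y₁) (h₂ : W.toAffine.Nonsingular x₂ y₂) (hx : x₁ ≠ x₂) :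
    W.toAffine.addX x₁ x₂ (W.toAffine.slope x₁ x₂ y₁ y₂) *
      (x₁ * x₂) * (x₁ - x₂) ^ 2 = (y₁ * x₂ - y₂ * x₁) ^ 2 := by
  have e₁ := eqn hW h₁
  have e₂ := eqn hW h₂
  have hD : x₁ - x₂ ≠ 0 := sub_ne_zero.mpr hx
  have hz : W.toAffine.addX x₁ x₂ (W.toAffine.slope x₁ x₂ y₁ y₂) * (x₁ - x₂) ^ 2 =
      (y₁ - y₂) ^ 2 + (y₁ - y₂) * (x₁ - x₂) - (W.a₂ + x₁ + x₂) * (x₁ - x₂) ^ 2 := by
    rw [Affine.slope_of_X_ne hx]
    simp only [Affine.addX, hW.a₁]
    field_simp
    ring
  have : W.toAffine.addX x₁ x₂ (W.toAffine.slope x₁ x₂ y₁ y₂) *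
      (x₁ * x₂) * (x₁ - x₂) ^ 2 =
      (W.toAffine.addX x₁ x₂ (W.toAffine.slope x₁ x₂ y₁ y₂) *
        (x₁ - x₂) ^ 2) * (x₁ * x₂) := by ring
  rw [this, hz]
  linear_combination (x₁ - x₂) * x₂ * e₁ - (x₁ - x₂) * x₁ * e₂

/-- the product of the two Vieta numerators -/
theorem num_mul_num (hW : IsNode2 A W) {x₁ x₂ y₁ y₂ : K}
    (h₁ : W.toAffine.Nonsingular x₁ y₁) (h₂ : W.toAffine.Nonsingular x₂ y₂) :
    (y₁ * x₂ - y₂ * x₁) * (y₁ * x₂ + y₂ * x₁ + x₁ * x₂) =
      x₁ * x₂ * (x₁ - x₂) * (x₁ * x₂ - W.a₄) := by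
  have e₁ := eqn hW h₁
  have e₂ := eqn hW h₂
  linear_combination x₂ ^ 2 * e₁ - x₁ ^ 2 * e₂

/-- `x(P₁ + P₂) N² = x₁ x₂ (x₁ x₂ - a₄)²` with `N = y₁ x₂ + y₂ x₁ + x₁ x₂` -/
theorem addX_add_mul_num (hW : IsNode2 A W) {x₁ x₂ y₁ y₂ : K}
    (h₁ : W.toAffine.Nonsingular x₁ y₁) (h₂ : W.toAffine.Nonsingular x₂ y₂) (hx : x₁ ≠ x₂)
    (n₁ : x₁ ≠ 0) (n₂ : x₂ ≠ 0) :
    W.toAffine.addX x₁ x₂ (W.toAffine.slope x₁ x₂ y₁ y₂) *
      (y₁ * x₂ + y₂ * x₁ + x₁ * x₂) ^ 2 = x₁ * x₂ * (x₁ * x₂ - W.a₄) ^ 2 := by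
  have hD : x₁ - x₂ ≠ 0 := sub_ne_zero.mpr hx
  have hv := addX_add_vieta hW h₁ h₂ hx
  have hn := num_mul_num hW h₁ h₂
  have hc : x₁ * x₂ * (x₁ - x₂) ^ 2 ≠ 0 := mul_ne_zero (mul_ne_zero n₁ n₂) (pow_ne_zero 2 hD)
  apply mul_right_cancel₀ hc
  have : W.toAffine.addX x₁ x₂ (W.toAffine.slope x₁ x₂ y₁ y₂) *
      (y₁ * x₂ + y₂ * x₁ + x₁ * x₂) ^ 2 * (x₁ * x₂ * (x₁ - x₂) ^ 2) =
      (W.toAffine.addX x₁ x₂ (W.toAffine.slope x₁ x₂ y₁ y₂) * (x₁ * x₂) * (x₁ - x₂) ^ 2) *
        (y₁ * x₂ + y₂ * x₁ + x₁ * x₂) ^ 2 := by ring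
  rw [this, hv, ← mul_pow, hn]
  ring

/-! ### Valuation computations on one branch -/

/-- the Vieta numerator `N = y₁ x₂ + y₂ x₁ + x₁ x₂` of two node points on the same branch -/
theorem val_num (hW : IsNode2 A W) {x₁ x₂ y₁ y₂ : K}
    (h₁ : W.toAffine.Nonsingular x₁ y₁) (h₂ : W.toAffine.Nonsingular x₂ y₂)
    (c₁ : A.valuation W.a₄ < A.valuation x₁) (d₁ : A.valuation x₁ < 1)
    (c₂ : A.valuation W.a₄ < A.valuation x₂) (d₂ : A.valuation x₂ < 1)
    (hs : A.valuation (y₁ / x₁ - y₂ / x₂) < 1) :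
    A.valuation (y₁ * x₂ + y₂ * x₁ + x₁ * x₂) = A.valuation x₁ * A.valuation x₂ := by
  have n₁ : x₁ ≠ 0 := ne_zero_of_v_lt c₁
  have n₂ : x₂ ≠ 0 := ne_zero_of_v_lt c₂
  have hs₂ : A.valuation (y₂ / x₂) ≤ 1 := val_s_le hW h₂ c₂ d₂
  have e : y₁ * x₂ + y₂ * x₁ + x₁ * x₂ =
      x₁ * x₂ * (1 + ((y₁ / x₁ - y₂ / x₂) + 2 * (y₂ / x₂))) := by
    field_simp
    ring
  rw [e, map_mul, map_mul,
    v_add_unit (map_one _) (Valuation.map_add_lt _ hs (v_mul_lt hW.two hs₂)), mul_one]

/-- the two branches: the slopes of two node points are congruent or opposite -/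
theorem branch (hW : IsNode2 A W) {x₁ x₂ y₁ y₂ : K}
    (h₁ : W.toAffine.Nonsingular x₁ y₁) (h₂ : W.toAffine.Nonsingular x₂ y₂)
    (c₁ : A.valuation W.a₄ < A.valuation x₁) (d₁ : A.valuation x₁ < 1)
    (c₂ : A.valuation W.a₄ < A.valuation x₂) (d₂ : A.valuation x₂ < 1) :
    A.valuation (y₁ / x₁ - y₂ / x₂) < 1 ∨
      A.valuation (y₁ / x₁ - W.toAffine.negY x₂ y₂ / x₂) < 1 := by
  have n₁ : x₁ ≠ 0 := ne_zero_of_v_lt c₁
  have n₂ : x₂ ≠ 0 := ne_zero_of_v_lt c₂
  have hs₁ : A.valuation (y₁ / x₁) ≤ 1 := val_s_le hW h₁ c₁ d₁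
  have hs₂ : A.valuation (y₂ / x₂) ≤ 1 := val_s_le hW h₂ c₂ d₂
  have e₁ := eqn hW h₁
  have e₂ := eqn hW h₂
  have hneg : W.toAffine.negY x₂ y₂ / x₂ = -(y₂ / x₂) - 1 := by
    rw [negY_eq hW]
    field_simp
  have e : (y₁ / x₁ - y₂ / x₂) * (y₁ / x₁ - W.toAffine.negY x₂ y₂ / x₂) =
      (x₁ - x₂) + (W.a₄ / x₁ - W.a₄ / x₂) := by
    rw [hneg]
    have f₁ : (y₁ / x₁) ^ 2 + y₁ / x₁ = x₁ + W.a₂ + W.a₄ / x₁ := by
      field_simp
      linear_combination e₁
    have f₂ : (y₂ / x₂) ^ 2 + y₂ / x₂ = x₂ + W.a₂ + W.a₄ / x₂ := by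
      field_simp
      linear_combination e₂
    linear_combination f₁ - f₂
  have q₁ : A.valuation (W.a₄ / x₁) < 1 := by
    rw [map_div₀]
    exact (div_lt_one₀ (zero_lt_iff.mpr ((Valuation.ne_zero_iff _).mpr n₁))).mpr c₁
  have q₂ : A.valuation (W.a₄ / x₂) < 1 := by
    rw [map_div₀]
    exact (div_lt_one₀ (zero_lt_iff.mpr ((Valuation.ne_zero_iff _).mpr n₂))).mpr c₂
  have hprod : A.valuation ((y₁ / x₁ - y₂ / x₂) * (y₁ / x₁ - W.toAffine.negY x₂ y₂ / x₂)) < 1 := by
    rw [e]
    exact Valuation.map_add_lt _ (Valuation.map_sub_lt _ d₁ d₂) (Valuation.map_sub_lt _ q₁ q₂)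
  by_contra hc
  rw [not_or, not_lt, not_lt] at hc
  rw [map_mul] at hprod
  exact absurd hprod (not_lt.mpr (one_le_mul_of_one_le_of_one_le hc.1 hc.2))

/-- **The pair rule on one branch.** -/
theorem pair_rule_same (hW : IsNode2 A W) {x₁ x₂ y₁ y₂ : K}
    (h₁ : W.toAffine.Nonsingular x₁ y₁) (h₂ : W.toAffine.Nonsingular x₂ y₂) (hx : x₁ ≠ x₂)
    (c₁ : A.valuation W.a₄ < A.valuation x₁) (d₁ : A.valuation x₁ < 1)
    (c₂ : A.valuation W.a₄ < A.valuation x₂) (d₂ : A.valuation x₂ < 1)
    (hs : A.valuation (y₁ / x₁ - y₂ / x₂) < 1)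
    (hp : A.valuation W.a₄ <
      A.valuation (W.toAffine.addX x₁ x₂ (W.toAffine.slope x₁ x₂ y₁ y₂)))
    (hm : A.valuation
      (W.toAffine.addX x₁ x₂ (W.toAffine.slope x₁ x₂ y₁ (W.toAffine.negY x₂ y₂))) < 1) :
    Fd (A.valuation W.a₄) (A.valuation x₁ * A.valuation x₂)
        (A.valuation (W.toAffine.addX x₁ x₂ (W.toAffine.slope x₁ x₂ y₁ y₂))) ∧
      Fd (A.valuation W.a₄) (A.valuation x₁ / A.valuation x₂)
        (A.valuation
          (W.toAffine.addX x₁ x₂ (W.toAffine.slope x₁ x₂ y₁ (W.toAffine.negY x₂ y₂)))) := by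
  have n₁ : x₁ ≠ 0 := ne_zero_of_v_lt c₁
  have n₂ : x₂ ≠ 0 := ne_zero_of_v_lt c₂
  have hν₁ : A.valuation x₁ ≠ 0 := (Valuation.ne_zero_iff _).mpr n₁
  have hν₂ : A.valuation x₂ ≠ 0 := (Valuation.ne_zero_iff _).mpr n₂
  have hβ : A.valuation W.a₄ ≠ 0 := beta_ne_zero hW
  have hD : x₁ - x₂ ≠ 0 := sub_ne_zero.mpr hx
  have hD0 : A.valuation (x₁ - x₂) ≠ 0 := (Valuation.ne_zero_iff _).mpr hD
  have hN := val_num hW h₁ h₂ c₁ d₁ c₂ d₂ hs
  set Xp := W.toAffine.addX x₁ x₂ (W.toAffine.slope x₁ x₂ y₁ y₂) with hXp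
  set Xm := W.toAffine.addX x₁ x₂ (W.toAffine.slope x₁ x₂ y₁ (W.toAffine.negY x₂ y₂)) with hXm
  -- the difference
  have em : A.valuation Xm * A.valuation (x₁ - x₂) ^ 2 = A.valuation x₁ * A.valuation x₂ := by
    have := congrArg A.valuation (addX_sub_vieta hW h₁ h₂ hx)
    rw [map_mul, map_mul, map_mul, map_pow, map_pow, hN] at this
    have h' : A.valuation Xm * A.valuation (x₁ - x₂) ^ 2 * (A.valuation x₁ * A.valuation x₂) =
        A.valuation x₁ * A.valuation x₂ * (A.valuation x₁ * A.valuation x₂) := by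
      rw [← sq, ← this, mul_right_comm]
    exact mul_right_cancel₀ (mul_ne_zero hν₁ hν₂) h'
  -- the sum
  have ep : A.valuation Xp * (A.valuation x₁ * A.valuation x₂) =
      A.valuation (x₁ * x₂ - W.a₄) ^ 2 := by
    have := congrArg A.valuation (addX_add_mul_num hW h₁ h₂ hx n₁ n₂)
    rw [map_mul, map_mul, map_mul, map_pow, map_pow, hN] at this
    have h' : A.valuation Xp * (A.valuation x₁ * A.valuation x₂) *
        (A.valuation x₁ * A.valuation x₂) =
        A.valuation (x₁ * x₂ - W.a₄) ^ 2 * (A.valuation x₁ * A.valuation x₂) := by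
      rw [mul_assoc, ← sq, this, mul_comm]
    exact mul_right_cancel₀ (mul_ne_zero hν₁ hν₂) h'
  have hne : A.valuation x₁ ≠ A.valuation x₂ := by
    intro heq
    have hle : A.valuation (x₁ - x₂) ≤ A.valuation x₁ := by
      refine (Valuation.map_sub _ _ _).trans ?_
      rw [heq, max_self]
    have h1 : A.valuation x₁ * A.valuation x₂ ≤ A.valuation Xm * A.valuation x₁ ^ 2 := by
      rw [← em]
      gcongr
    have h2 : A.valuation Xm * A.valuation x₁ ^ 2 < 1 * A.valuation x₁ ^ 2 :=
      mul_lt_mul_of_pos_right hm (pow_pos (zero_lt_iff.mpr hν₁) 2)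
    rw [one_mul, ← heq, ← sq] at *
    exact absurd (lt_of_le_of_lt h1 h2) (lt_irrefl _)
  constructor
  · -- the sum
    rcases lt_trichotomy (A.valuation W.a₄) (A.valuation x₁ * A.valuation x₂) with hlt | heq | hgt
    · have hv : A.valuation (x₁ * x₂ - W.a₄) = A.valuation x₁ * A.valuation x₂ := by
        rw [Valuation.map_sub_eq_of_lt_left _ (by rwa [map_mul]), map_mul]
      rw [hv, sq] at ep
      have := mul_right_cancel₀ (mul_ne_zero hν₁ hν₂) ep
      rw [this]
      exact Fd.refl _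
    · exfalso
      have hv : A.valuation (x₁ * x₂ - W.a₄) ≤ A.valuation W.a₄ := by
        refine (Valuation.map_sub _ _ _).trans ?_
        rw [map_mul, ← heq, max_self]
      have h1 : A.valuation Xp * A.valuation W.a₄ ≤ A.valuation W.a₄ ^ 2 := by
        calc A.valuation Xp * A.valuation W.a₄
            = A.valuation Xp * (A.valuation x₁ * A.valuation x₂) := by rw [heq]
          _ = A.valuation (x₁ * x₂ - W.a₄) ^ 2 := ep
          _ ≤ A.valuation W.a₄ ^ 2 := pow_le_pow_left₀ zero_le hv 2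
      have h2 : A.valuation W.a₄ * A.valuation W.a₄ < A.valuation Xp * A.valuation W.a₄ :=
        mul_lt_mul_of_pos_right hp (zero_lt_iff.mpr hβ)
      rw [← sq] at h2
      exact absurd (lt_of_lt_of_le h2 h1) (lt_irrefl _)
    · have hv : A.valuation (x₁ * x₂ - W.a₄) = A.valuation W.a₄ := by
        rw [Valuation.map_sub_eq_of_lt_right _ (by rwa [map_mul])]
      rw [hv] at ep
      refine ⟨1, Or.inr ?_⟩
      have hz : A.valuation W.a₄ ^ (2 * (1 : ℤ)) = A.valuation W.a₄ ^ 2 := by
        norm_num [zpow_ofNat]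
      rw [hz, ← ep]
      rw [mul_comm (A.valuation Xp), ← mul_assoc, inv_mul_cancel₀ (mul_ne_zero hν₁ hν₂), one_mul]
  · -- the difference
    rcases lt_or_gt_of_ne hne with hlt | hgt
    · have hv : A.valuation (x₁ - x₂) = A.valuation x₂ :=
        Valuation.map_sub_eq_of_lt_right _ hlt
      rw [hv, sq] at em
      have : A.valuation Xm = A.valuation x₁ / A.valuation x₂ := by
        rw [eq_div_iff hν₂]
        have h' : A.valuation Xm * A.valuation x₂ * A.valuation x₂ =
            A.valuation x₁ * A.valuation x₂ := by rw [mul_assoc, em]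
        exact mul_right_cancel₀ hν₂ h'
      rw [this]
      exact Fd.refl _
    · have hv : A.valuation (x₁ - x₂) = A.valuation x₁ :=
        Valuation.map_sub_eq_of_lt_left _ hgt
      rw [hv, sq] at em
      have : A.valuation Xm = (A.valuation x₁ / A.valuation x₂)⁻¹ := by
        rw [inv_div, eq_div_iff hν₁]
        have h' : A.valuation Xm * A.valuation x₁ * A.valuation x₁ =
            A.valuation x₂ * A.valuation x₁ := by rw [mul_assoc, em, mul_comm]
        exact mul_right_cancel₀ hν₁ h'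
      rw [this]
      exact Fd.inv _

/-- **The pair rule** for two node points whose sum and difference are node points. -/
theorem pair_rule (hW : IsNode2 A W) {Q P : W.toAffine.Point} (hQ : IsNodePt A W Q)
    (hP : IsNodePt A W P) (hne : Q ≠ P) (hne' : Q ≠ -P) (hp : IsNodePt A W (Q + P))
    (hm : IsNodePt A W (Q - P)) :
    (Fd (A.valuation W.a₄) (nu A W Q * nu A W P) (nu A W (Q + P)) ∧
        Fd (A.valuation W.a₄) (nu A W Q / nu A W P) (nu A W (Q - P))) ∨
      (Fd (A.valuation W.a₄) (nu A W Q / nu A W P) (nu A W (Q + P)) ∧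
        Fd (A.valuation W.a₄) (nu A W Q * nu A W P) (nu A W (Q - P))) := by
  cases Q with
  | zero => exact absurd hQ (not_isNodePt_zero A W)
  | some x₁ y₁ h₁ =>
    cases P with
    | zero => exact absurd hP (not_isNodePt_zero A W)
    | some x₂ y₂ h₂ =>
      have hx : x₁ ≠ x₂ := by
        intro h
        rcases Point.X_eq_iff.mp h with he | he
        · exact hne he
        · exact hne' he
      have hadd : Point.some x₁ y₁ h₁ + Point.some x₂ y₂ h₂ =
          Point.some _ _ (nonsingular_add h₁ h₂ fun hxy => hx hxy.left) := Point.add_of_X_ne hx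
      have hsub : Point.some x₁ y₁ h₁ - Point.some x₂ y₂ h₂ =
          Point.some _ _ (nonsingular_add h₁ ((nonsingular_neg ..).mpr h₂)
            fun hxy => hx hxy.left) := by
        rw [sub_eq_add_neg, Point.neg_some, Point.add_of_X_ne hx]
      rw [hadd] at hp ⊢
      rw [hsub] at hm ⊢
      simp only [nu_some, isNodePt_some] at hQ hP hp hm ⊢
      rcases branch hW h₁ h₂ hQ.1 hQ.2 hP.1 hP.2 with hs | hs
      · left
        exact pair_rule_same hW h₁ h₂ hx hQ.1 hQ.2 hP.1 hP.2 hs hp.1 hm.2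
      · right
        have key := pair_rule_same hW h₁ ((nonsingular_neg ..).mpr h₂) hx hQ.1 hQ.2 hP.1 hP.2 hs
          hm.1 (by rw [Affine.negY_negY]; exact hp.2)
        rw [Affine.negY_negY] at key
        exact ⟨key.2, key.1⟩

/-- the valuation of the denominator of the duplication formula at an integral point with
`v(a₄) < v(x)` -/
theorem val_double_den (hW : IsNode2 A W) {x : K} (c : A.valuation W.a₄ < A.valuation x)
    (d : A.valuation x ≤ 1) :
    A.valuation (x * (4 * x ^ 2 + (1 + 4 * W.a₂) * x + 4 * W.a₄)) =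
      A.valuation x * A.valuation x := by
  have hν : A.valuation x ≠ 0 := (Valuation.ne_zero_iff _).mpr (ne_zero_of_v_lt c)
  have hνpos : 0 < A.valuation x := zero_lt_iff.mpr hν
  have h4 : A.valuation (4 : K) < 1 := by
    have : (4 : K) = 2 * 2 := by norm_num
    rw [this]
    exact v_mul_lt hW.two hW.two.le
  have hu : A.valuation (1 + 4 * W.a₂) = 1 := v_add_unit (map_one _) (v_mul_lt h4 hW.a₂_le)
  have hmain : A.valuation ((1 + 4 * W.a₂) * x) = A.valuation x := by
    rw [map_mul, hu, one_mul]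
  have h1 : A.valuation (4 * x ^ 2) < A.valuation x := by
    rw [map_mul, map_pow, sq, ← mul_assoc]
    calc A.valuation 4 * A.valuation x * A.valuation x
        < 1 * A.valuation x :=
          mul_lt_mul_of_pos_right (mul_lt_one_of_lt_of_le h4 d) hνpos
      _ = A.valuation x := one_mul _
  have h2 : A.valuation (4 * W.a₄) < A.valuation x := by
    rw [map_mul]
    calc A.valuation 4 * A.valuation W.a₄ ≤ 1 * A.valuation W.a₄ := by gcongr
      _ = A.valuation W.a₄ := one_mul _
      _ < A.valuation x := c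
  have e : 4 * x ^ 2 + (1 + 4 * W.a₂) * x + 4 * W.a₄ =
      (1 + 4 * W.a₂) * x + (4 * x ^ 2 + 4 * W.a₄) := by ring
  rw [map_mul, e, Valuation.map_add_eq_of_lt_left _
    (by rw [hmain]; exact Valuation.map_add_lt _ h1 h2), hmain]

/-- **The duplication rule** for a node point whose double is a node point. -/
theorem double_rule (hW : IsNode2 A W) {P : W.toAffine.Point} (hP : IsNodePt A W P)
    (h2 : IsNodePt A W (P + P)) :
    Fd (A.valuation W.a₄) (nu A W P * nu A W P) (nu A W (P + P)) := by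
  cases P with
  | zero => exact absurd hP (not_isNodePt_zero A W)
  | some x y h =>
    by_cases hy : y = W.toAffine.negY x y
    · rw [Point.add_self_of_Y_eq hy] at h2
      exact absurd h2 (not_isNodePt_zero A W)
    · rw [Point.add_self_of_Y_ne hy] at h2 ⊢
      simp only [nu_some, isNodePt_some] at hP h2 ⊢
      have hν : A.valuation x ≠ 0 := (Valuation.ne_zero_iff _).mpr (ne_zero_of_v_lt hP.1)
      have hβ : A.valuation W.a₄ ≠ 0 := beta_ne_zero hW
      set X := W.toAffine.addX x x (W.toAffine.slope x x y y) with hX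
      have e : A.valuation X * (A.valuation x * A.valuation x) =
          A.valuation (x ^ 2 - W.a₄) ^ 2 := by
        have := congrArg A.valuation (addX_double hW h hy)
        rwa [map_mul, val_double_den hW hP.1 hP.2.le, map_pow] at this
      have hx2 : A.valuation (x ^ 2) = A.valuation x * A.valuation x := by
        rw [map_pow, sq]
      rcases lt_trichotomy (A.valuation W.a₄) (A.valuation x * A.valuation x) with hlt | heq | hgt
      · have hv : A.valuation (x ^ 2 - W.a₄) = A.valuation x * A.valuation x := by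
          rw [Valuation.map_sub_eq_of_lt_left _ (by rwa [hx2]), hx2]
        rw [hv, sq] at e
        have := mul_right_cancel₀ (mul_ne_zero hν hν) e
        rw [this]
        exact Fd.refl _
      · exfalso
        have hv : A.valuation (x ^ 2 - W.a₄) ≤ A.valuation W.a₄ := by
          refine (Valuation.map_sub _ _ _).trans ?_
          rw [hx2, ← heq, max_self]
        have h1 : A.valuation X * A.valuation W.a₄ ≤ A.valuation W.a₄ ^ 2 := by
          calc A.valuation X * A.valuation W.a₄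
              = A.valuation X * (A.valuation x * A.valuation x) := by rw [heq]
            _ = A.valuation (x ^ 2 - W.a₄) ^ 2 := e
            _ ≤ A.valuation W.a₄ ^ 2 := pow_le_pow_left₀ zero_le hv 2
        have h3 : A.valuation W.a₄ * A.valuation W.a₄ < A.valuation X * A.valuation W.a₄ :=
          mul_lt_mul_of_pos_right h2.1 (zero_lt_iff.mpr hβ)
        rw [← sq] at h3
        exact absurd (lt_of_lt_of_le h3 h1) (lt_irrefl _)
      · have hv : A.valuation (x ^ 2 - W.a₄) = A.valuation W.a₄ := by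
          rw [Valuation.map_sub_eq_of_lt_right _ (by rwa [hx2])]
        rw [hv] at e
        refine ⟨1, Or.inr ?_⟩
        have hz : A.valuation W.a₄ ^ (2 * (1 : ℤ)) = A.valuation W.a₄ ^ 2 := by
          norm_num [zpow_ofNat]
        rw [hz, ← e]
        rw [mul_comm (A.valuation X), ← mul_assoc, inv_mul_cancel₀ (mul_ne_zero hν hν), one_mul]

/-- the double of a point with unit `x`-coordinate has unit `x`-coordinate -/
theorem val_double_unit (hW : IsNode2 A W) {x y : K} (h : W.toAffine.Nonsingular x y)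
    (hx : A.valuation x = 1) (h2 : Point.some x y h + Point.some x y h ≠ 0) :
    ∃ (X Y : K) (h' : W.toAffine.Nonsingular X Y),
      Point.some x y h + Point.some x y h = Point.some X Y h' ∧ A.valuation X = 1 := by
  have hy : y ≠ W.toAffine.negY x y := fun hy => h2 (Point.add_self_of_Y_eq hy)
  refine ⟨_, _, _, Point.add_self_of_Y_ne hy, ?_⟩
  have e := congrArg A.valuation (addX_double hW h hy)
  have hc : A.valuation W.a₄ < A.valuation x := by rw [hx]; exact hW.a₄_lt
  rw [map_mul, val_double_den hW hc hx.le, hx, mul_one, mul_one, map_pow] at e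
  have hv : A.valuation (x ^ 2 - W.a₄) = 1 := by
    have hx2 : A.valuation (x ^ 2) = 1 := by rw [map_pow, hx, one_pow]
    rw [Valuation.map_sub_eq_of_lt_left _ (by rw [hx2]; exact hW.a₄_lt), hx2]
  rw [hv, one_pow] at e
  exact e

/-! ### Torsion points are node points -/

theorem eq_zero_of_three (P : W.toAffine.Point) {n : ℕ} (h3 : ¬ 3 ∣ n) (hP : n • P = 0)
    (h : P + P + P = 0) : P = 0 := by
  have h3' : 3 • P = 0 := by
    rw [show (3 : ℕ) = 2 + 1 from rfl, add_nsmul, two_nsmul, one_nsmul]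
    exact h
  have h1 := addOrderOf_dvd_of_nsmul_eq_zero hP
  have h2 := addOrderOf_dvd_of_nsmul_eq_zero h3'
  have hc : Nat.Coprime n 3 := by
    rw [Nat.coprime_comm]
    exact (Nat.Prime.coprime_iff_not_dvd Nat.prime_three).mpr h3
  have : addOrderOf P ∣ 1 := by
    have := Nat.dvd_gcd h1 h2
    rwa [Nat.Coprime.gcd_eq_one hc] at this
  exact AddMonoid.addOrderOf_eq_one_iff.mp (Nat.dvd_one.mp this)

/-- If the residue field has two elements, a point with unit `x`-coordinate is not killed by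
an odd `n` prime to `3` (when the kernel of reduction has no `n`-torsion). -/
theorem not_unit (hW : IsNode2 A W)
    (hF2 : ∀ z : K, A.valuation z ≤ 1 → A.valuation z < 1 ∨ A.valuation (z - 1) < 1)
    {n : ℕ} (hodd : Odd n) (h3 : ¬ 3 ∣ n)
    (hE1 : ∀ R : W.toAffine.Point, n • R = 0 → InE1 A W R → R = 0)
    {x y : K} (h : W.toAffine.Nonsingular x y) (hR : n • Point.some x y h = 0) :
    A.valuation x ≠ 1 := by
  intro hx
  have hR0 : Point.some x y h ≠ 0 := Point.some_ne_zero h
  have h2 : Point.some x y h + Point.some x y h ≠ 0 := fun h2 =>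
    hR0 (eq_zero_of_double _ hodd h2 hR)
  obtain ⟨X, Y, h', hXY, hX⟩ := val_double_unit hW h hx h2
  have hy : A.valuation y ≤ 1 := val_y_le hW h hx.le
  have hY : A.valuation Y ≤ 1 := val_y_le hW h' hX.le
  have hx1 : A.valuation (x - 1) < 1 := by
    rcases hF2 x hx.le with h | h
    · exact absurd hx h.ne
    · exact h
  have hX1 : A.valuation (X - 1) < 1 := by
    rcases hF2 X hX.le with h | h
    · exact absurd hX h.ne
    · exact h
  have hXx : A.valuation (X - x) < 1 := by
    have : X - x = (X - 1) - (x - 1) := by ring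
    rw [this]
    exact Valuation.map_sub_lt _ hX1 hx1
  -- same reduction
  have same : A.valuation (Y - y) < 1 → False := by
    intro hYy
    have := inE1_sub_of_unit hW h' h hx hXx hYy
    rw [← hXY, add_sub_cancel_right] at this
    exact absurd hx (ne_of_gt this)
  -- opposite reduction
  have opp : A.valuation (Y - W.toAffine.negY x y) < 1 → False := by
    intro hYy
    have := inE1_sub_of_unit hW h' ((nonsingular_neg ..).mpr h) hx hXx hYy
    have e : Point.some x (W.toAffine.negY x y) ((nonsingular_neg ..).mpr h) =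
        -Point.some x y h := (Point.neg_some h).symm
    rw [← hXY, e, sub_neg_eq_add] at this
    have hn3 : n • (Point.some x y h + Point.some x y h + Point.some x y h) = 0 := by
      rw [nsmul_add, nsmul_add, hR, add_zero, add_zero]
    exact hR0 (eq_zero_of_three _ h3 hR (hE1 _ hn3 this))
  have hneg : W.toAffine.negY x y = -y - x := negY_eq hW x y
  rcases hF2 y hy with hy0 | hy1 <;> rcases hF2 Y hY with hY0 | hY1
  · exact same (Valuation.map_sub_lt _ hY0 hy0)
  · apply opp
    have : Y - W.toAffine.negY x y = (Y - 1) + y + (x - 1) + 2 := by rw [hneg]; ring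
    rw [this]
    exact Valuation.map_add_lt _ (Valuation.map_add_lt _ (Valuation.map_add_lt _ hY1 hy0) hx1)
      hW.two
  · apply opp
    have : Y - W.toAffine.negY x y = Y + (y - 1) + (x - 1) + 2 := by rw [hneg]; ring
    rw [this]
    exact Valuation.map_add_lt _ (Valuation.map_add_lt _ (Valuation.map_add_lt _ hY0 hy1) hx1)
      hW.two
  · apply same
    have : Y - y = (Y - 1) - (y - 1) := by ring
    rw [this]
    exact Valuation.map_sub_lt _ hY1 hy1

/-- a point with `v(x) ≤ v(a₄)` is not killed by an odd `n` prime to `3` -/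
theorem not_typeH (hW : IsNode2 A W)
    (hF2 : ∀ z : K, A.valuation z ≤ 1 → A.valuation z < 1 ∨ A.valuation (z - 1) < 1)
    {n : ℕ} (hodd : Odd n) (h3 : ¬ 3 ∣ n)
    (hE1 : ∀ R : W.toAffine.Point, n • R = 0 → InE1 A W R → R = 0)
    {x y : K} (h : W.toAffine.Nonsingular x y) (hR : n • Point.some x y h = 0) :
    A.valuation W.a₄ < A.valuation x := by
  by_contra hc
  rw [not_lt] at hc
  have hR0 : Point.some x y h ≠ 0 := Point.some_ne_zero h
  have h2 : Point.some x y h + Point.some x y h ≠ 0 := fun h2 =>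
    hR0 (eq_zero_of_double _ hodd h2 hR)
  have hβ : A.valuation W.a₄ ≠ 0 := beta_ne_zero hW
  have hx0 : x ≠ 0 := by
    rintro rfl
    have e := eqn hW h
    have hy0 : y = 0 := by
      have : y ^ 2 = 0 := by linear_combination e
      exact pow_eq_zero_iff (two_ne_zero) |>.mp this
    subst hy0
    exact h2 (T0_add_T0 hW)
  have hν : A.valuation x ≠ 0 := (Valuation.ne_zero_iff _).mpr hx0
  -- translate by `T₀`
  have hT : Point.some x y h + Point.some 0 0 (nonsingular_T0 hW) =
      Point.some _ _ (nonsingular_add h (nonsingular_T0 hW) fun hxy => hx0 hxy.left) :=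
    Point.add_of_X_ne hx0
  set X' := W.toAffine.addX x 0 (W.toAffine.slope x 0 y 0) with hX'
  have hvX : 1 ≤ A.valuation X' := by
    have e := congrArg A.valuation (addX_T0 hW h hx0)
    rw [map_mul] at e
    by_contra hlt
    rw [not_le] at hlt
    have : A.valuation X' * A.valuation x < 1 * A.valuation x :=
      mul_lt_mul_of_pos_right hlt (zero_lt_iff.mpr hν)
    rw [e, one_mul] at this
    exact absurd hc (not_le.mpr this)
  have hdouble : (Point.some x y h + Point.some 0 0 (nonsingular_T0 hW)) +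
      (Point.some x y h + Point.some 0 0 (nonsingular_T0 hW)) =
      Point.some x y h + Point.some x y h := by
    rw [add_add_add_comm, T0_add_T0 hW, add_zero]
  have hn2 : n • (Point.some x y h + Point.some x y h) = 0 := by
    rw [nsmul_add, hR, add_zero]
  rcases hvX.lt_or_eq with hgt | heq
  · -- the translate is in the kernel of reduction
    have hin : InE1 A W (Point.some x y h + Point.some 0 0 (nonsingular_T0 hW)) := by
      rw [hT]
      exact hgt
    have := inE1_double hW hin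
    rw [hdouble] at this
    exact h2 (hE1 _ hn2 this)
  · -- the translate has unit `x`-coordinate
    rw [hT] at hdouble
    have hne : Point.some _ _ (nonsingular_add h (nonsingular_T0 hW) fun hxy => hx0 hxy.left) +
        Point.some _ _ (nonsingular_add h (nonsingular_T0 hW) fun hxy => hx0 hxy.left) ≠ 0 := by
      rw [hdouble]
      exact h2
    obtain ⟨X, Y, h'', hXY, hX⟩ := val_double_unit hW _ heq.symm hne
    rw [hdouble] at hXY
    rw [hXY] at hn2
    exact not_unit hW hF2 hodd h3 hE1 h'' hn2 hX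

/-- **Torsion points are node points.** -/
theorem isNodePt_of_torsion (hW : IsNode2 A W)
    (hF2 : ∀ z : K, A.valuation z ≤ 1 → A.valuation z < 1 ∨ A.valuation (z - 1) < 1)
    {n : ℕ} (hodd : Odd n) (h3 : ¬ 3 ∣ n)
    (hE1 : ∀ R : W.toAffine.Point, n • R = 0 → InE1 A W R → R = 0)
    {R : W.toAffine.Point} (hR : n • R = 0) (hR0 : R ≠ 0) : IsNodePt A W R := by
  cases R with
  | zero => exact absurd rfl hR0
  | some x y h =>
    refine ⟨not_typeH hW hF2 hodd h3 hE1 h hR, ?_⟩
    rcases lt_trichotomy (A.valuation x) 1 with hx | hx | hx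
    · exact hx
    · exact absurd hx (not_unit hW hF2 hodd h3 hE1 h hR)
    · exact absurd (hE1 _ hR hx) hR0

/-! ### The main induction -/

/-- If all the nonzero multiples of `P` are node points and `n • P = 0` with `n` odd, then
`v(x_P) ^ n` is an even power of `v(a₄)`. -/
theorem zpow_of_torsion (hW : IsNode2 A W) {P : W.toAffine.Point} {n : ℕ} (hodd : Odd n)
    (hn : n • P = 0) (hP0 : P ≠ 0)
    (hnode : ∀ k : ℕ, k • P ≠ 0 → IsNodePt A W (k • P)) :
    ∃ m : ℤ, nu A W P ^ n = A.valuation W.a₄ ^ (2 * m) := by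
  have hβ : A.valuation W.a₄ ≠ 0 := beta_ne_zero hW
  have hP : IsNodePt A W P := by
    have := hnode 1 (by rwa [one_nsmul])
    rwa [one_nsmul] at this
  have hℓ : nu A W P ≠ 0 := hP.nu_ne_zero hW
  have h2P : P + P ≠ 0 := fun h => hP0 (eq_zero_of_double _ hodd h hn)
  have h2node : IsNodePt A W (P + P) := by
    have := hnode 2 (by rwa [two_nsmul])
    rwa [two_nsmul] at this
  have hdbl := double_rule hW hP h2node
  have key := fd_pow_of_pair_rule hβ (fun k => nu A W (k • P)) (by simp) (by simpa using hℓ)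
    (by
      intro k
      simp only [one_nsmul]
      have e₂ : (k + 1) • P + P = (k + 2) • P := (succ_nsmul P (k + 1)).symm
      have e₀ : (k + 1) • P - P = k • P := by rw [succ_nsmul, add_sub_cancel_right]
      by_cases hQ0 : (k + 1) • P = 0
      · left
        have h2 : (k + 2) • P = P := by rw [← e₂, hQ0, zero_add]
        have h0 : k • P = -P := by rw [← e₀, hQ0, zero_sub]
        rw [hQ0, h2, h0, nu_neg, nu_zero, one_mul]
        refine ⟨Fd.refl _, ?_⟩
        rw [one_div]
        have := Fd.inv (α := A.valuation W.a₄) (nu A W P)⁻¹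
        rwa [inv_inv] at this
      · by_cases hQP : (k + 1) • P = P
        · left
          have h2 : (k + 2) • P = P + P := by rw [← e₂, hQP]
          have h0 : k • P = 0 := by rw [← e₀, hQP, sub_self]
          rw [hQP, h2, h0, nu_zero, div_self hℓ]
          exact ⟨hdbl, Fd.refl _⟩
        · by_cases hQP' : (k + 1) • P = -P
          · right
            have h2 : (k + 2) • P = 0 := by rw [← e₂, hQP', neg_add_cancel]
            have h0 : k • P = -(P + P) := by rw [← e₀, hQP', neg_add, sub_eq_add_neg]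
            rw [hQP', h2, h0, nu_neg, nu_neg, nu_zero, div_self hℓ]
            exact ⟨Fd.refl _, hdbl⟩
          · have hp : (k + 2) • P ≠ 0 := by
              rw [← e₂]
              intro h
              exact hQP' (eq_neg_of_add_eq_zero_left h)
            have hm : k • P ≠ 0 := by
              rw [← e₀]
              intro h
              exact hQP (sub_eq_zero.mp h)
            have := pair_rule hW (hnode _ hQ0) hP hQP hQP' (by rw [e₂]; exact hnode _ hp)
              (by rw [e₀]; exact hnode _ hm)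
            rwa [e₂, e₀] at this) n
  simp only [one_nsmul] at key
  rw [hn, nu_zero] at key
  obtain ⟨m, h1 | h1⟩ := key
  · refine ⟨-m, ?_⟩
    have h2 : nu A W P ^ n * (A.valuation W.a₄ ^ (2 * m) * A.valuation W.a₄ ^ (2 * -m)) =
        A.valuation W.a₄ ^ (2 * -m) := by
      rw [← mul_assoc, ← h1, one_mul]
    rwa [zpow_mul_zpow_neg hβ, mul_one] at h2
  · refine ⟨m, ?_⟩
    have h2 : nu A W P ^ n * ((nu A W P ^ n)⁻¹ * A.valuation W.a₄ ^ (2 * m)) =
        nu A W P ^ n := by
      rw [← h1, mul_one]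
    rw [← mul_assoc, mul_inv_cancel₀ (pow_ne_zero n hℓ), one_mul] at h2
    exact h2.symm

/-- **No torsion.** If the residue field of `A` has two elements, `n` is odd, prime to `3`
and a unit, and no `v(x)` with `v(a₄) < v(x) < 1` has its `n`-th power in `v(a₄) ^ (2ℤ)`, then
the curve `y² + x y = x³ + a₂ x² + a₄ x` has no nonzero point killed by `n`. -/
theorem torsion_eq_zero (hW : IsNode2 A W) (h2 : (2 : K) ≠ 0)
    (hF2 : ∀ z : K, A.valuation z ≤ 1 → A.valuation z < 1 ∨ A.valuation (z - 1) < 1)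
    {n : ℕ} (hodd : Odd n) (h3 : ¬ 3 ∣ n) (hn1 : n ≠ 1) (hnu : A.valuation (n : K) = 1)
    (hdiv : ∀ x : K, A.valuation W.a₄ < A.valuation x → A.valuation x < 1 →
      ∀ m : ℤ, A.valuation x ^ n ≠ A.valuation W.a₄ ^ (2 * m))
    {P : W.toAffine.Point} (hP : n • P = 0) : P = 0 := by
  by_contra hP0
  -- the kernel of reduction has no `n`-torsion
  have hE1 : ∀ R : W.toAffine.Point, n • R = 0 → InE1 A W R → R = 0 := by
    intro R hR hin
    cases R with
    | zero => rfl
    | some x y h =>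
      exfalso
      obtain ⟨m, rfl⟩ := hodd
      have hm : 1 ≤ m := by
        rcases Nat.eq_zero_or_pos m with h0 | h0
        · subst h0
          exact absurd rfl hn1
        · exact h0
      have hb : A.valuation W.b₂ ≤ 1 := by
        have : W.b₂ = 1 + 4 * W.a₂ := by
          simp only [WeierstrassCurve.b₂, hW.a₁]
          ring
        rw [this]
        have h4 : A.valuation (4 : K) ≤ 1 := by
          have : (4 : K) = 2 * 2 := by norm_num
          rw [this]
          exact v_mul_le hW.two.le hW.two.le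
        exact Valuation.map_add_le _ (map_one _).le (v_mul_le h4 hW.a₂_le)
      have := LadderTorsion.val_x_le_one A h2 hW.a₃ hW.a₆ hb hW.a₄_lt.le hm hnu h hR
      exact absurd this (not_le.mpr hin)
  have hnode : ∀ k : ℕ, k • P ≠ 0 → IsNodePt A W (k • P) := by
    intro k hk
    refine isNodePt_of_torsion hW hF2 hodd h3 hE1 ?_ hk
    rw [← mul_nsmul, mul_comm, mul_nsmul, hP, nsmul_zero]
  obtain ⟨m, hm⟩ := zpow_of_torsion hW hodd hP hP0 hnode
  have hPn := hnode 1 (by rwa [one_nsmul])
  rw [one_nsmul] at hPn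
  cases P with
  | zero => exact hP0 rfl
  | some x y h => exact hdiv x hPn.1 hPn.2 m hm

/-! ### Valuation subrings of `ℚ` over `2` -/

section Rational

variable (A : ValuationSubring ℚ) (hA : A.LiesOverPrime 2)

include hA

theorem val_two_lt : A.valuation (2 : ℚ) < 1 := by
  have := Val.valuation_natCast_lt_one A hA
  simpa using this

theorem val_two_pos : 0 < A.valuation (2 : ℚ) :=
  zero_lt_iff.mpr ((Valuation.ne_zero_iff _).mpr two_ne_zero)

theorem val_int_eq_zpow {n : ℤ} (hn : n ≠ 0) :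
    A.valuation (n : ℚ) = A.valuation (2 : ℚ) ^ (padicValInt 2 n : ℤ) := by
  obtain ⟨u, hu⟩ : ((2 : ℕ) : ℤ) ^ padicValInt 2 n ∣ n := padicValInt_dvd n
  have hodd : ¬ ((2 : ℕ) : ℤ) ∣ u := by
    rintro ⟨w, rfl⟩
    have hd : ((2 : ℕ) : ℤ) ^ (padicValInt 2 n + 1) ∣ n := by
      refine ⟨w, ?_⟩
      rw [pow_succ, mul_assoc]
      exact hu
    rcases (padicValInt_dvd_iff (p := 2) _ _).mp hd with h | h
    · exact hn h
    · omega
  have hv : A.valuation ((u : ℤ) : ℚ) = 1 :=
    Val.valuation_intCast_eq_one A Nat.prime_two hA hodd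
  have e : (n : ℚ) = (2 : ℚ) ^ padicValInt 2 n * (u : ℚ) := by
    have := congrArg (Int.cast : ℤ → ℚ) hu
    push_cast at this
    exact this
  rw [e, map_mul, map_pow, hv, mul_one, zpow_natCast]

theorem exists_zpow {x : ℚ} (hx : x ≠ 0) : ∃ j : ℤ, A.valuation x = A.valuation (2 : ℚ) ^ j := by
  have hnum : x.num ≠ 0 := Rat.num_ne_zero.mpr hx
  have hden : (x.den : ℤ) ≠ 0 := by exact_mod_cast x.den_nz
  refine ⟨(padicValInt 2 x.num : ℤ) - (padicValInt 2 (x.den : ℤ) : ℤ), ?_⟩
  have e : x = (x.num : ℚ) / ((x.den : ℤ) : ℚ) := by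
    rw [Int.cast_natCast]
    exact (Rat.num_div_den x).symm
  have h2 : A.valuation (2 : ℚ) ≠ 0 := (val_two_pos A hA).ne'
  rw [e, map_div₀, val_int_eq_zpow A hA hnum, val_int_eq_zpow A hA hden, ← zpow_sub₀ h2]
  rw [← e]

/-- the residue field has two elements -/
theorem residue_two {z : ℚ} (hz : A.valuation z ≤ 1) :
    A.valuation z < 1 ∨ A.valuation (z - 1) < 1 := by
  have e : z = (z.num : ℚ) / ((z.den : ℤ) : ℚ) := by
    rw [Int.cast_natCast]
    exact (Rat.num_div_den z).symm
  have hden0 : ((z.den : ℤ) : ℚ) ≠ 0 := by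
    rw [Int.cast_natCast]
    exact_mod_cast z.den_nz
  -- the denominator is odd
  have hdodd : ¬ ((2 : ℕ) : ℤ) ∣ (z.den : ℤ) := by
    intro hd
    have hnodd : ¬ ((2 : ℕ) : ℤ) ∣ z.num := by
      intro hn
      have h1 : (2 : ℕ) ∣ z.num.natAbs := Int.natCast_dvd.mp hn
      have h2 : (2 : ℕ) ∣ z.den := by exact_mod_cast hd
      exact Nat.not_coprime_of_dvd_of_dvd (by norm_num) h1 h2 z.reduced
    have hvn := Val.valuation_intCast_eq_one A Nat.prime_two hA hnodd
    have hvd := Val.valuation_intCast_lt_one_of_dvd A hA hd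
    rw [e, map_div₀, hvn, one_div] at hz
    have hpos : 0 < A.valuation ((z.den : ℤ) : ℚ) :=
      zero_lt_iff.mpr ((Valuation.ne_zero_iff _).mpr hden0)
    exact absurd hz (not_le.mpr ((one_lt_inv₀ hpos).mpr hvd))
  have hvd := Val.valuation_intCast_eq_one A Nat.prime_two hA hdodd
  by_cases hn : ((2 : ℕ) : ℤ) ∣ z.num
  · left
    rw [e, map_div₀, hvd, div_one]
    exact Val.valuation_intCast_lt_one_of_dvd A hA hn
  · right
    have e' : z - 1 = ((z.num - (z.den : ℤ) : ℤ) : ℚ) / ((z.den : ℤ) : ℚ) := by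
      rw [Int.cast_sub, sub_div, div_self hden0, ← e]
    have hsub : ((2 : ℕ) : ℤ) ∣ z.num - (z.den : ℤ) := by
      have h1 : z.num % 2 = 1 := by
        have : ¬ (2 : ℤ) ∣ z.num := by simpa using hn
        omega
      have h2 : (z.den : ℤ) % 2 = 1 := by
        have : ¬ (2 : ℤ) ∣ (z.den : ℤ) := by simpa using hdodd
        omega
      have : (2 : ℤ) ∣ z.num - (z.den : ℤ) := by omega
      simpa using this
    rw [e', map_div₀, hvd, div_one]
    exact Val.valuation_intCast_lt_one_of_dvd A hA hsub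

/-- the arithmetic obstruction: `p ∤ α` -/
theorem no_zpow {a₄ : ℤ} (ha₄ : a₄ ≠ 0) {p : ℕ} (hp : p.Prime) (hp2 : p ≠ 2)
    (hα : ¬ p ∣ padicValInt 2 a₄) {x : ℚ} (c : A.valuation (a₄ : ℚ) < A.valuation x)
    (d : A.valuation x < 1) (m : ℤ) :
    A.valuation x ^ p ≠ A.valuation (a₄ : ℚ) ^ (2 * m) := by
  intro h
  have h2pos := val_two_pos A hA
  have h2lt := val_two_lt A hA
  have hx0 : x ≠ 0 := ne_zero_of_v_lt c
  obtain ⟨j, hj⟩ := exists_zpow A hA hx0
  have hβ := val_int_eq_zpow A hA ha₄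
  set α : ℤ := (padicValInt 2 a₄ : ℤ) with hαdef
  rw [hj, hβ] at h c
  rw [hj] at d
  -- `0 < j < α`
  have hj0 : 0 < j := by
    by_contra hc
    rw [not_lt] at hc
    have := one_le_zpow_of_nonpos₀ h2pos h2lt.le hc
    exact absurd d (not_lt.mpr this)
  have hjα : j < α := by
    by_contra hc
    rw [not_lt] at hc
    have := zpow_le_zpow_right_of_le_one₀ h2pos h2lt.le hc
    exact absurd c (not_lt.mpr this)
  -- `j p = 2 α m`
  have hexp : j * p = α * (2 * m) := by
    have h' : A.valuation (2 : ℚ) ^ (j * (p : ℤ)) = A.valuation (2 : ℚ) ^ (α * (2 * m)) := by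
      rw [zpow_mul, zpow_natCast, h, ← zpow_mul]
    exact zpow_right_injective₀ h2pos h2lt.ne h'
  have hpp : Prime (p : ℤ) := Nat.prime_iff_prime_int.mp hp
  have hdvd : (p : ℤ) ∣ α * (2 * m) := ⟨j, by rw [← hexp]; ring⟩
  have hnα : ¬ (p : ℤ) ∣ α := by
    intro hd
    rw [hαdef] at hd
    exact hα (by exact_mod_cast hd)
  have hn2 : ¬ (p : ℤ) ∣ 2 := by
    intro hd
    have : p ∣ 2 := by exact_mod_cast hd
    exact hp2 ((Nat.prime_dvd_prime_iff_eq hp Nat.prime_two).mp this)
  rcases hpp.dvd_or_dvd hdvd with hd | hd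
  · exact hnα hd
  · rcases hpp.dvd_or_dvd hd with hd | hd
    · exact hn2 hd
    · obtain ⟨m', rfl⟩ := hd
      have hp0 : (p : ℤ) ≠ 0 := by exact_mod_cast hp.ne_zero
      have hj' : j = 2 * α * m' := by
        have : j * p = (2 * α * m') * p := by rw [hexp]; ring
        exact mul_right_cancel₀ hp0 this
      have hαpos : 0 < α := lt_trans hj0 hjα
      rw [hj'] at hj0 hjα
      have hm' : 0 < m' := by
        by_contra hc
        rw [not_lt] at hc
        have : 2 * α * m' ≤ 0 := mul_nonpos_of_nonneg_of_nonpos (by positivity) hc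
        omega
      have : 2 * α * 1 ≤ 2 * α * m' := by
        apply mul_le_mul_of_nonneg_left (by omega) (by positivity)
      omega

end Rational

/-! ### The Frey curve -/

/-- the valuation subring of `ℚ` of the `2`-adic valuation -/
noncomputable def A₂ : ValuationSubring ℚ :=
  haveI : Fact (Nat.Prime 2) := ⟨Nat.prime_two⟩
  (Rat.padicValuation 2).valuationSubring

theorem liesOver_A₂ : A₂.LiesOverPrime 2 := by
  haveI : Fact (Nat.Prime 2) := ⟨Nat.prime_two⟩
  show ((2 : ℕ) : ℚ) ∈ A₂.nonunits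
  rw [ValuationSubring.mem_nonunits_iff_or]
  right
  intro hmem
  have h1 : Rat.padicValuation 2 (((2 : ℕ) : ℚ))⁻¹ ≤ 1 := hmem
  rw [map_inv₀, Rat.padicValuation_self] at h1
  have h2 : (WithZero.exp (-1 : ℤ) : WithZero (Multiplicative ℤ)) < 1 := by
    rw [← WithZero.exp_zero]
    exact WithZero.exp_lt_exp.mpr (by norm_num)
  have h3 : (0 : WithZero (Multiplicative ℤ)) < WithZero.exp (-1 : ℤ) := WithZero.exp_pos
  exact absurd h1 (not_le.mpr ((one_lt_inv₀ h3).mpr h2))

/-- **The Frey curve has no rational point of order `p`.** -/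
theorem frey_torsion_eq_zero (P : FreyPackage) (R : (P.freyCurve).toAffine.Point)
    (hR : P.p • R = 0) : R = 0 := by
  have hW : IsNode2 A₂ (P.freyCurve⁄ℚ) := AtTwoFrey.isNode2 P A₂ liesOver_A₂
  have hp2 : P.p ≠ 2 := by have := P.hp5; omega
  have h3 : ¬ 3 ∣ P.p := by
    intro h
    have := (Nat.prime_dvd_prime_iff_eq Nat.prime_three P.pp).mp h
    have := P.hp5
    omega
  have hn1 : P.p ≠ 1 := by have := P.hp5; omega
  have hnu : A₂.valuation ((P.p : ℕ) : ℚ) = 1 := by
    apply Val.valuation_natCast_eq_one A₂ Nat.prime_two liesOver_A₂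
    intro hd
    exact hp2 ((Nat.prime_dvd_prime_iff_eq Nat.prime_two P.pp).mp hd).symm
  have ha₄ : (P.freyCurve⁄ℚ).a₄ = ((P.freyCurveInt.a₄ : ℤ) : ℚ) := FreyTwo.bc_a₄ P
  have key := torsion_eq_zero (A := A₂) (W := (P.freyCurve⁄ℚ)) hW two_ne_zero
    (fun z hz => residue_two A₂ liesOver_A₂ hz) P.hp_odd h3 hn1 hnu
    (by
      intro x c d m
      rw [ha₄] at c ⊢
      exact no_zpow A₂ liesOver_A₂ (FreyTwo.a₄_ne_zero P) P.pp hp2
        (FreyTwo.not_dvd_padicValInt_a₄ P) c d m)
    (P := R) hR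
  exact key

end Fermat.Agent.S13.NoRatTorsion
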