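import Mathlib
import Fermat.Prelude.Def_FLTPrelim_FreyPackage
import Fermat.Prelude.Def_FLTPrelim_GaloisRep
import Fermat.Prelude.Def_FLTPrelim_Ramification
import Fermat.Agent.S05.Frey
import Fermat.Agent.S05.Core

/-!
# S13: inertia at the odd primes `ℓ ≠ p`

The statement of S05, for an arbitrary algebraically closed field `L` algebraic over `ℚ` with an
arbitrary `ℚ`-algebra structure (so that it applies to `AlgebraicClosure ℚ` with the instance
`DivisionRing.toRatAlgebra` of the frozen statement S13).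
-/

set_option autoImplicit false

namespace Fermat.Agent.S13.OddPrimes

open WeierstrassCurve WeierstrassCurve.Affine WeierstrassCurve.Affine.Point

variable {L : Type*} [Field L] [DecidableEq L] [Algebra ℚ L]

/-- The mod `p` representation of the Frey curve is unramified at every odd prime `q ≠ p`
(generic form of S05). -/
theorem unramifiedAt [Algebra.IsAlgebraic ℚ L] [IsAlgClosed L] (P : FreyPackage) {q : ℕ}
    (hq : q.Prime) (hq2 : q ≠ 2) (hqp : q ≠ P.p) :
    WeierstrassCurve.Affine.Point.GaloisRepUnramifiedAt (K := L) ℚ P.freyCurve P.p q := by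
  obtain ⟨C, a₂, a₄, hC, h⟩ := Fermat.Agent.S05.Frey.exists_model_int P hq
  apply Fermat.Agent.S05.Frey.transfer P.freyCurve C P.p q
  rw [hC]
  exact Fermat.Agent.S05.Core.core P.pp hq hq2 hqp a₂ a₄ h

/-- Inertia at an odd prime `q ≠ p` acts trivially on the `p`-torsion of the Frey curve. -/
theorem smul_eq [Algebra.IsAlgebraic ℚ L] [IsAlgClosed L] (P : FreyPackage) {q : ℕ}
    (hq : q.Prime) (hq2 : q ≠ 2) (hqp : q ≠ P.p) (A : ValuationSubring L)
    (hA : A.LiesOverPrime q) (σ : L ≃ₐ[ℚ] L) (hσ : σ ∈ A.inertiaSubgroupIn ℚ)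
    (x : Submodule.torsionBy ℤ (P.freyCurve⁄L).Point P.p) : σ • x = x :=
  unramifiedAt P hq hq2 hqp A hA σ hσ x

end Fermat.Agent.S13.OddPrimes
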