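import Mathlib
import Fermat.Agent.S05.Defs
import Fermat.Agent.S05.Kummer

/-!
# S13: the Kummer line at a node, in any residue characteristic

For a curve `y² + a₁ x y = x³ + a₂ x² + a₄ x` over a valued field such that
`b₂ = a₁² + 4 a₂` is a unit and `a₄ ≠ 0` lies in the maximal ideal (a node at the origin;
no hypothesis on the residue characteristic, in particular it may be `2`), the truncated
valuation `ell` of the `x`-coordinate satisfies the same pair rule as in `S05/Kummer`: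
the classes of `ell (P + Q)` and `ell (P - Q)` are, in some order, the classes of
`ell P * ell Q` and `ell P / ell Q` modulo `w ↦ w⁻¹` and `w ↦ w * v(a₄)²`.

Everything is done on `x`-coordinates:
`(x(P + Q) + x(P - Q)) D² = x₁x₂(2x₁ + 2x₂ + b₂) + 2a₄(x₁ + x₂)` and
`x(P + Q) x(P - Q) D² = (x₁x₂ - a₄)²` with `D = x₁ - x₂`, and
`x(2P) · x(4x² + b₂x + 4a₄) = (x² - a₄)²`.

Exports: `IsNodeModel`, `node_fold_add_sub`, `node_fold_nsmul`,
`node_exists_zpow_of_nsmul_eq_zero`.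
-/

set_option autoImplicit false
set_option linter.unusedSectionVars false
set_option linter.unusedVariables false

namespace Fermat.Agent.S13.KummerNode

open WeierstrassCurve WeierstrassCurve.Affine
open Fermat.Agent.S05 Fermat.Agent.S05.Kummer

variable {K : Type*} [Field K]

/-! ### Part A: the key lemma on valuations -/

section Key

variable {Γ : Type*} [LinearOrderedCommGroupWithZero Γ] {v : Valuation K Γ}

theorem v_two_le (v : Valuation K Γ) : v (2 : K) ≤ 1 := by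
  have h : (2 : K) = 1 + 1 := by norm_num
  rw [h]
  exact v.map_add_le (map_one v).le (map_one v).le

theorem v_four_le (v : Valuation K Γ) : v (4 : K) ≤ 1 := by
  have h : (4 : K) = 2 * 2 := by norm_num
  rw [h]
  exact vmul_le (v_two_le v) (v_two_le v)

variable {c b x₁ x₂ z₁ z₂ : K}

theorem nkey_GG (hc : v c = 1) (hb0 : b ≠ 0) (hb1 : v b < 1)
    (hx : x₁ ≠ x₂)
    (hS : (z₁ + z₂) * (x₁ - x₂) ^ 2 = x₁ * x₂ * (2 * x₁ + 2 * x₂ + c) + 2 * b * (x₁ + x₂))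
    (hP : z₁ * z₂ * (x₁ - x₂) ^ 2 = (x₁ * x₂ - b) ^ 2)
    (g₁ : 1 ≤ v x₁) (g₂ : 1 ≤ v x₂) : KeyGoal v b x₁ x₂ z₁ z₂ := by
  have hD : x₁ - x₂ ≠ 0 := sub_ne_zero.mpr hx
  have hS' := eq_div_of_mul_eq (pow_ne_zero 2 hD) hS
  have hP' := eq_div_of_mul_eq (pow_ne_zero 2 hD) hP
  have n₁ : x₁ ≠ 0 := ne_zero_of_lt_v (lt_of_lt_of_le (by rw [map_zero]; exact zero_lt_one) g₁)
  have n₂ : x₂ ≠ 0 := ne_zero_of_lt_v (lt_of_lt_of_le (by rw [map_zero]; exact zero_lt_one) g₂)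
  have p₁ : v x₁⁻¹ ≤ 1 := v_inv_le g₁
  have p₂ : v x₂⁻¹ ≤ 1 := v_inv_le g₂
  have hcle := hc.le
  have h2le := v_two_le v
  have hble := hb1.le
  have hU : v (1 - b * x₁⁻¹ * x₂⁻¹) = 1 :=
    v_one_sub (v_lt_mul_left (v_lt_mul_left hb1 p₁) p₂)
  have hU0 := v_ne_zero_of_unit hU
  have h₂ : z₁ * z₂ * (x₂⁻¹ - x₁⁻¹) ^ 2 = (1 - b * x₁⁻¹ * x₂⁻¹) ^ 2 := by
    rw [hP']
    field_simp
  have h₁ : (z₁ + z₂) * (1 - b * x₁⁻¹ * x₂⁻¹) ^ 2 = z₁ * z₂ *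
      (2 * (x₁⁻¹ + x₂⁻¹) + c * x₁⁻¹ * x₂⁻¹ + 2 * b * x₁⁻¹ * x₂⁻¹ * (x₁⁻¹ + x₂⁻¹)) := by
    rw [hS', hP']
    field_simp
    ring
  have hs : v (2 * (x₁⁻¹ + x₂⁻¹) + c * x₁⁻¹ * x₂⁻¹ + 2 * b * x₁⁻¹ * x₂⁻¹ * (x₁⁻¹ + x₂⁻¹))
      ≤ 1 := by
    apply_rules [v.map_add_le, v.map_sub_le, vmul_le, vpow_le, (map_one v).le]
  have hπ : v ((x₂⁻¹ - x₁⁻¹) ^ 2) ≤ 1 := by
    apply_rules [v.map_add_le, v.map_sub_le, vmul_le, vpow_le, (map_one v).le]
  obtain ⟨r₁, r₂⟩ := both_ge hU hs hπ h₁ h₂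
  exact keyGoal_of_both (c₁ := 1) (c₂ := 1) (d := 1) (cl_of_ge hble g₁) (cl_of_ge hble g₂)
    (cl_of_ge hble r₁) (cl_of_ge hble r₂) (FoldB.of_eq (one_mul _).symm)
    (FoldB.of_eq (div_one _).symm)

theorem nkey_HH (hc : v c = 1) (hb0 : b ≠ 0) (hb1 : v b < 1)
    (hx : x₁ ≠ x₂)
    (hS : (z₁ + z₂) * (x₁ - x₂) ^ 2 = x₁ * x₂ * (2 * x₁ + 2 * x₂ + c) + 2 * b * (x₁ + x₂))
    (hP : z₁ * z₂ * (x₁ - x₂) ^ 2 = (x₁ * x₂ - b) ^ 2)
    (g₁ : v x₁ ≤ v b) (g₂ : v x₂ ≤ v b) : KeyGoal v b x₁ x₂ z₁ z₂ := by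
  have hD : x₁ - x₂ ≠ 0 := sub_ne_zero.mpr hx
  have hS' := eq_div_of_mul_eq (pow_ne_zero 2 hD) hS
  have hP' := eq_div_of_mul_eq (pow_ne_zero 2 hD) hP
  have hβ0 : v b ≠ 0 := (Valuation.ne_zero_iff v).mpr hb0
  have q₁ : v (x₁ / b) ≤ 1 := vdiv_le hb0 g₁
  have q₂ : v (x₂ / b) ≤ 1 := vdiv_le hb0 g₂
  have hcle := hc.le
  have h2le := v_two_le v
  have hble := hb1.le
  have hU : v (1 - b * (x₁ / b) * (x₂ / b)) = 1 :=
    v_one_sub (v_lt_mul_left (v_lt_mul_left hb1 q₁) q₂)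
  have h₂ : z₁ * z₂ * (x₁ / b - x₂ / b) ^ 2 = (1 - b * (x₁ / b) * (x₂ / b)) ^ 2 := by
    rw [hP']
    field_simp
    ring
  have h₁ : (z₁ + z₂) * (1 - b * (x₁ / b) * (x₂ / b)) ^ 2 = z₁ * z₂ *
      ((x₁ / b) * (x₂ / b) * (2 * b * (x₁ / b) + 2 * b * (x₂ / b) + c)
        + 2 * (x₁ / b + x₂ / b)) := by
    rw [hS', hP']
    field_simp
    ring
  have hs : v ((x₁ / b) * (x₂ / b) * (2 * b * (x₁ / b) + 2 * b * (x₂ / b) + c)
        + 2 * (x₁ / b + x₂ / b)) ≤ 1 := by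
    apply_rules [v.map_add_le, v.map_sub_le, vmul_le, vpow_le, (map_one v).le]
  have hπ : v ((x₁ / b - x₂ / b) ^ 2) ≤ 1 := by
    apply_rules [v.map_add_le, v.map_sub_le, vmul_le, vpow_le, (map_one v).le]
  obtain ⟨r₁, r₂⟩ := both_ge hU hs hπ h₁ h₂
  refine keyGoal_of_both (c₁ := v b) (c₂ := v b) (d := 1) (cl_of_le hble g₁) (cl_of_le hble g₂)
    (cl_of_ge hble r₁) (cl_of_ge hble r₂) ⟨-1, Or.inl ?_⟩ (FoldB.of_eq ?_)
  · rw [← sq, ← zpow_natCast, ← zpow_add₀ hβ0]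
    norm_num
  · rw [div_self hβ0]

theorem nkey_GH (hc : v c = 1) (hb0 : b ≠ 0) (hb1 : v b < 1)
    (hx : x₁ ≠ x₂)
    (hS : (z₁ + z₂) * (x₁ - x₂) ^ 2 = x₁ * x₂ * (2 * x₁ + 2 * x₂ + c) + 2 * b * (x₁ + x₂))
    (hP : z₁ * z₂ * (x₁ - x₂) ^ 2 = (x₁ * x₂ - b) ^ 2)
    (g₁ : 1 ≤ v x₁) (g₂ : v x₂ ≤ v b) : KeyGoal v b x₁ x₂ z₁ z₂ := by
  have hD : x₁ - x₂ ≠ 0 := sub_ne_zero.mpr hx
  have hS' := eq_div_of_mul_eq (pow_ne_zero 2 hD) hS
  have hP' := eq_div_of_mul_eq (pow_ne_zero 2 hD) hP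
  have hβ0 : v b ≠ 0 := (Valuation.ne_zero_iff v).mpr hb0
  have n₁ : x₁ ≠ 0 := ne_zero_of_lt_v (lt_of_lt_of_le (by rw [map_zero]; exact zero_lt_one) g₁)
  have p₁ : v x₁⁻¹ ≤ 1 := v_inv_le g₁
  have q₂ : v (x₂ / b) ≤ 1 := vdiv_le hb0 g₂
  have hcle := hc.le
  have h2le := v_two_le v
  have hble := hb1.le
  have hU : v (1 - b * x₁⁻¹ * (x₂ / b)) = 1 :=
    v_one_sub (v_lt_mul_left (v_lt_mul_left hb1 p₁) q₂)
  have h₁ : (z₁ + z₂) * (1 - b * x₁⁻¹ * (x₂ / b)) ^ 2 = b *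
      ((x₂ / b) * (2 + 2 * b * x₁⁻¹ * (x₂ / b) + c * x₁⁻¹) + 2 * x₁⁻¹
        + 2 * b * x₁⁻¹ ^ 2 * (x₂ / b)) := by
    rw [hS']
    field_simp
    ring
  have h₂ : z₁ * z₂ * (1 - b * x₁⁻¹ * (x₂ / b)) ^ 2 = b ^ 2 * (x₂ / b - x₁⁻¹) ^ 2 := by
    rw [hP']
    field_simp
  have hs : v ((x₂ / b) * (2 + 2 * b * x₁⁻¹ * (x₂ / b) + c * x₁⁻¹) + 2 * x₁⁻¹
        + 2 * b * x₁⁻¹ ^ 2 * (x₂ / b)) ≤ 1 := by
    apply_rules [v.map_add_le, v.map_sub_le, vmul_le, vpow_le, (map_one v).le]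
  have hπ : v ((x₂ / b - x₁⁻¹) ^ 2) ≤ 1 := by
    apply_rules [v.map_add_le, v.map_sub_le, vmul_le, vpow_le, (map_one v).le]
  obtain ⟨r₁, r₂⟩ := both_le hb0 hU hs hπ h₁ h₂
  refine keyGoal_of_both (c₁ := 1) (c₂ := v b) (d := v b) (cl_of_ge hble g₁)
    (cl_of_le hble g₂) (cl_of_le hble r₁) (cl_of_le hble r₂) (FoldB.of_eq (one_mul _).symm)
    ⟨0, Or.inr ?_⟩
  simp

theorem nkey_GN (hc : v c = 1) (hb0 : b ≠ 0) (hb1 : v b < 1)
    (hx : x₁ ≠ x₂)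
    (hS : (z₁ + z₂) * (x₁ - x₂) ^ 2 = x₁ * x₂ * (2 * x₁ + 2 * x₂ + c) + 2 * b * (x₁ + x₂))
    (hP : z₁ * z₂ * (x₁ - x₂) ^ 2 = (x₁ * x₂ - b) ^ 2)
    (g₁ : 1 ≤ v x₁) (g₂ : v b < v x₂) (g₂' : v x₂ < 1) : KeyGoal v b x₁ x₂ z₁ z₂ := by
  have hD : x₁ - x₂ ≠ 0 := sub_ne_zero.mpr hx
  have hS' := eq_div_of_mul_eq (pow_ne_zero 2 hD) hS
  have hP' := eq_div_of_mul_eq (pow_ne_zero 2 hD) hP
  have hβ0 : v b ≠ 0 := (Valuation.ne_zero_iff v).mpr hb0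
  have n₁ : x₁ ≠ 0 := ne_zero_of_lt_v (lt_of_lt_of_le (by rw [map_zero]; exact zero_lt_one) g₁)
  have n₂ : x₂ ≠ 0 := ne_zero_of_lt_v g₂
  have p₁ : v x₁⁻¹ ≤ 1 := v_inv_le g₁
  have e₂ : v (b / x₂) < 1 := vdiv_lt n₂ g₂
  have e₂le := e₂.le
  have x₂le := g₂'.le
  have hcle := hc.le
  have h2le := v_two_le v
  have hble := hb1.le
  have hU : v (1 - x₁⁻¹ * x₂) = 1 := v_one_sub (v_lt_mul_right p₁ g₂')
  have h₁ : (z₁ + z₂) * (1 - x₁⁻¹ * x₂) ^ 2 = x₂ *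
      (2 + 2 * x₁⁻¹ * x₂ + c * x₁⁻¹ + 2 * (b / x₂) * x₁⁻¹ * (1 + x₁⁻¹ * x₂)) := by
    rw [hS']
    field_simp
  have h₂ : z₁ * z₂ * (1 - x₁⁻¹ * x₂) ^ 2 = x₂ ^ 2 * (1 - b / x₂ * x₁⁻¹) ^ 2 := by
    rw [hP']
    field_simp
  have hs : v (2 + 2 * x₁⁻¹ * x₂ + c * x₁⁻¹ + 2 * (b / x₂) * x₁⁻¹ * (1 + x₁⁻¹ * x₂)) ≤ 1 := by
    apply_rules [v.map_add_le, v.map_sub_le, vmul_le, vpow_le, (map_one v).le]
  have hπ : v ((1 - b / x₂ * x₁⁻¹) ^ 2) = 1 :=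
    v_unit_pow (v_one_sub (v_lt_mul_left e₂ p₁)) 2
  obtain ⟨r₁, r₂⟩ := both_eq n₂ hU hs hπ h₁ h₂
  have c₂ : cl (v b) (v x₂) = v x₂ := cl_of_mid g₂.le g₂'.le
  have d₁ : cl (v b) (v z₁) = v x₂ := by rw [r₁]; exact c₂
  have d₂ : cl (v b) (v z₂) = v x₂ := by rw [r₂]; exact c₂
  refine keyGoal_of_both (c₁ := 1) (c₂ := v x₂) (d := v x₂) (cl_of_ge hble g₁) c₂ d₁ d₂
    (FoldB.of_eq (one_mul _).symm) ⟨0, Or.inr ?_⟩
  simp

theorem nkey_NH (hc : v c = 1) (hb0 : b ≠ 0) (hb1 : v b < 1)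
    (hx : x₁ ≠ x₂)
    (hS : (z₁ + z₂) * (x₁ - x₂) ^ 2 = x₁ * x₂ * (2 * x₁ + 2 * x₂ + c) + 2 * b * (x₁ + x₂))
    (hP : z₁ * z₂ * (x₁ - x₂) ^ 2 = (x₁ * x₂ - b) ^ 2)
    (g₁ : v b < v x₁) (g₁' : v x₁ < 1) (g₂ : v x₂ ≤ v b) : KeyGoal v b x₁ x₂ z₁ z₂ := by
  have hD : x₁ - x₂ ≠ 0 := sub_ne_zero.mpr hx
  have hS' := eq_div_of_mul_eq (pow_ne_zero 2 hD) hS
  have hP' := eq_div_of_mul_eq (pow_ne_zero 2 hD) hP
  have hβ0 : v b ≠ 0 := (Valuation.ne_zero_iff v).mpr hb0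
  have hβpos : 0 < v b := zero_lt_iff.mpr hβ0
  have n₁ : x₁ ≠ 0 := ne_zero_of_lt_v g₁
  have hx₁0 : v x₁ ≠ 0 := (Valuation.ne_zero_iff v).mpr n₁
  have hx₁pos : 0 < v x₁ := zero_lt_iff.mpr hx₁0
  have e₁ : v (b / x₁) < 1 := vdiv_lt n₁ g₁
  have q₂ : v (x₂ / b) ≤ 1 := vdiv_le hb0 g₂
  have e₁le := e₁.le
  have x₁le := g₁'.le
  have hcle := hc.le
  have h2le := v_two_le v
  have hble := hb1.le
  have hr : b / x₁ ≠ 0 := div_ne_zero hb0 n₁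
  have hU : v (1 - b / x₁ * (x₂ / b)) = 1 := v_one_sub (v_lt_mul_left e₁ q₂)
  have h₁ : (z₁ + z₂) * (1 - b / x₁ * (x₂ / b)) ^ 2 = b / x₁ *
      ((x₂ / b) * (2 * x₁ + 2 * b * (x₂ / b) + c) + 2 + 2 * (b / x₁) * (x₂ / b)) := by
    rw [hS']
    field_simp
    ring
  have h₂ : z₁ * z₂ * (1 - b / x₁ * (x₂ / b)) ^ 2 = (b / x₁) ^ 2 * (1 - x₁ * (x₂ / b)) ^ 2 := by
    rw [hP']
    field_simp
    ring
  have hs : v ((x₂ / b) * (2 * x₁ + 2 * b * (x₂ / b) + c) + 2 + 2 * (b / x₁) * (x₂ / b))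
      ≤ 1 := by
    apply_rules [v.map_add_le, v.map_sub_le, vmul_le, vpow_le, (map_one v).le]
  have hπ : v ((1 - x₁ * (x₂ / b)) ^ 2) = 1 :=
    v_unit_pow (v_one_sub (v_lt_mul_left g₁' q₂)) 2
  obtain ⟨r₁, r₂⟩ := both_eq hr hU hs hπ h₁ h₂
  rw [map_div₀] at r₁ r₂
  have m1 : v b ≤ v b / v x₁ := by
    rw [le_div_iff₀ hx₁pos]
    calc v b * v x₁ ≤ v b * 1 := mul_le_mul_right g₁'.le _
      _ = v b := mul_one _
  have m2 : v b / v x₁ ≤ 1 := (div_le_one₀ hx₁pos).mpr g₁.le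
  have d₁ : cl (v b) (v z₁) = v b / v x₁ := by rw [r₁]; exact cl_of_mid m1 m2
  have d₂ : cl (v b) (v z₂) = v b / v x₁ := by rw [r₂]; exact cl_of_mid m1 m2
  refine keyGoal_of_both (c₁ := v x₁) (c₂ := v b) (d := v b / v x₁) (cl_of_mid g₁.le g₁'.le)
    (cl_of_le hble g₂) d₁ d₂ ⟨1, Or.inr ?_⟩ ⟨0, Or.inr ?_⟩
  · have e : v b ^ (2 * 1 : ℤ) = v b * v b := by
      rw [mul_one]
      exact (zpow_ofNat (v b) 2).trans (sq _)
    rw [e, mul_inv, div_eq_mul_inv, mul_assoc, ← mul_assoc (v b)⁻¹, inv_mul_cancel₀ hβ0,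
      one_mul, mul_comm]
  · rw [inv_div]
    simp

theorem nkey_NN (hc : v c = 1) (hb0 : b ≠ 0) (hb1 : v b < 1)
    (hx : x₁ ≠ x₂)
    (hS : (z₁ + z₂) * (x₁ - x₂) ^ 2 = x₁ * x₂ * (2 * x₁ + 2 * x₂ + c) + 2 * b * (x₁ + x₂))
    (hP : z₁ * z₂ * (x₁ - x₂) ^ 2 = (x₁ * x₂ - b) ^ 2)
    (g₂ : v b < v x₂) (hle : v x₂ ≤ v x₁) (g₁' : v x₁ < 1) : KeyGoal v b x₁ x₂ z₁ z₂ := by
  have hD : x₁ - x₂ ≠ 0 := sub_ne_zero.mpr hx
  have hS' := eq_div_of_mul_eq (pow_ne_zero 2 hD) hS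
  have hP' := eq_div_of_mul_eq (pow_ne_zero 2 hD) hP
  have hβ0 : v b ≠ 0 := (Valuation.ne_zero_iff v).mpr hb0
  have hβpos : 0 < v b := zero_lt_iff.mpr hβ0
  have g₁ : v b < v x₁ := g₂.trans_le hle
  have g₂' : v x₂ < 1 := hle.trans_lt g₁'
  have n₁ : x₁ ≠ 0 := ne_zero_of_lt_v g₁
  have n₂ : x₂ ≠ 0 := ne_zero_of_lt_v g₂
  have hx₁0 : v x₁ ≠ 0 := (Valuation.ne_zero_iff v).mpr n₁
  have hx₁pos : 0 < v x₁ := zero_lt_iff.mpr hx₁0
  have hx₂0 : v x₂ ≠ 0 := (Valuation.ne_zero_iff v).mpr n₂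
  have hx₂pos : 0 < v x₂ := zero_lt_iff.mpr hx₂0
  have hD0 : v (x₁ - x₂) ≠ 0 := (Valuation.ne_zero_iff v).mpr hD
  have hDpos : 0 < v (x₁ - x₂) := zero_lt_iff.mpr hD0
  have e₁ : v (b / x₁) < 1 := vdiv_lt n₁ g₁
  have e₂ : v (b / x₂) < 1 := vdiv_lt n₂ g₂
  have t : v (x₂ / x₁) ≤ 1 := vdiv_le n₁ hle
  have hr : x₁ * x₂ / (x₁ - x₂) ^ 2 ≠ 0 :=
    div_ne_zero (mul_ne_zero n₁ n₂) (pow_ne_zero 2 hD)
  have h₁ : z₁ + z₂ = x₁ * x₂ / (x₁ - x₂) ^ 2 *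
      (c + 2 * (x₁ + x₂ + b / x₁ + b / x₂)) := by
    rw [hS']
    field_simp
    ring
  have h₂ : z₁ * z₂ = (x₁ * x₂ / (x₁ - x₂) ^ 2) ^ 2 *
      ((x₁ - b / x₂) * (1 - x₂ / x₁)) ^ 2 := by
    rw [hP']
    field_simp
  have hs : v (c + 2 * (x₁ + x₂ + b / x₁ + b / x₂)) = 1 := by
    refine v_unit_add hc (v_lt_mul_right (v_two_le v) ?_)
    exact v.map_add_lt (v.map_add_lt (v.map_add_lt g₁' g₂') e₁) e₂
  have hπ : v (((x₁ - b / x₂) * (1 - x₂ / x₁)) ^ 2) < 1 := by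
    have h1 : v ((x₁ - b / x₂) * (1 - x₂ / x₁)) < 1 :=
      v_lt_mul_left (v.map_sub_lt g₁' e₂) (v.map_sub_le (map_one v).le t)
    rw [map_pow]
    exact pow_lt_one₀ zero_le h1 (by norm_num)
  -- the two possible classes
  have hc₁ : cl (v b) (v x₁) = v x₁ := cl_of_mid g₁.le g₁'.le
  have hc₂ : cl (v b) (v x₂) = v x₂ := cl_of_mid g₂.le g₂'.le
  have hother : FoldB (v b) (cl (v b) (v x₁) * cl (v b) (v x₂))
      (cl (v b) (v (x₁ * x₂ / (x₁ - x₂) ^ 2) * v (((x₁ - b / x₂) * (1 - x₂ / x₁)) ^ 2))) := by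
    rw [hc₁, hc₂, ← map_mul v x₁ x₂]
    refine clamp_fold hb0 hb1 ?_ ?_ ?_
    · rw [map_mul, sq]
      exact mul_lt_mul'' g₁ g₂ zero_le zero_le
    · rw [map_mul]
      exact mul_lt_one_of_lt_of_le g₁' g₂'.le
    · rw [← map_mul, ← map_mul, ← map_pow]
      congr 1
      field_simp
  have hunit : FoldB (v b) (cl (v b) (v x₁) / cl (v b) (v x₂))
      (cl (v b) (v (x₁ * x₂ / (x₁ - x₂) ^ 2))) := by
    rw [hc₁, hc₂]
    rcases hle.lt_or_eq with hlt | heq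
    · have hvD : v (x₁ - x₂) = v x₁ := v.map_sub_eq_of_lt_left hlt
      have hvr : v (x₁ * x₂ / (x₁ - x₂) ^ 2) = v x₂ / v x₁ := by
        rw [map_div₀, map_pow, hvD, map_mul, sq, mul_div_mul_left _ _ hx₁0]
      have m1 : v b ≤ v x₂ / v x₁ := by
        rw [le_div_iff₀ hx₁pos]
        calc v b * v x₁ ≤ v b * 1 := mul_le_mul_right g₁'.le _
          _ = v b := mul_one _
          _ ≤ v x₂ := g₂.le
      have m2 : v x₂ / v x₁ ≤ 1 := (div_le_one₀ hx₁pos).mpr hle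
      rw [hvr, cl_of_mid m1 m2]
      refine ⟨0, Or.inr ?_⟩
      rw [inv_div]
      simp
    · have hvD : v (x₁ - x₂) ≤ v x₁ := v.map_sub_le le_rfl hle
      have hvr : 1 ≤ v (x₁ * x₂ / (x₁ - x₂) ^ 2) := by
        rw [map_div₀, map_pow, map_mul, heq, one_le_div₀ (pow_pos hDpos 2), ← sq]
        exact pow_le_pow_left' hvD 2
      rw [cl_of_ge hb1.le hvr, heq, div_self hx₁0]
      exact FoldB.refl _ _
  rcases split_roots hr hs hπ h₁ h₂ with ⟨r₁, r₂⟩ | ⟨r₂, r₁⟩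
  · right
    rw [r₁, r₂]
    exact ⟨hunit, hother⟩
  · left
    rw [r₁, r₂]
    exact ⟨hother, hunit⟩

theorem nkey_aux (hc : v c = 1) (hb0 : b ≠ 0) (hb1 : v b < 1)
    (hx : x₁ ≠ x₂)
    (hS : (z₁ + z₂) * (x₁ - x₂) ^ 2 = x₁ * x₂ * (2 * x₁ + 2 * x₂ + c) + 2 * b * (x₁ + x₂))
    (hP : z₁ * z₂ * (x₁ - x₂) ^ 2 = (x₁ * x₂ - b) ^ 2)
    (hle : v x₂ ≤ v x₁) : KeyGoal v b x₁ x₂ z₁ z₂ := by
  rcases le_or_gt 1 (v x₂) with g₂ | g₂
  · exact nkey_GG hc hb0 hb1 hx hS hP (g₂.trans hle) g₂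
  rcases le_or_gt 1 (v x₁) with g₁ | g₁
  · rcases le_or_gt (v x₂) (v b) with k | k
    · exact nkey_GH hc hb0 hb1 hx hS hP g₁ k
    · exact nkey_GN hc hb0 hb1 hx hS hP g₁ k g₂
  rcases le_or_gt (v x₂) (v b) with k | k
  · rcases le_or_gt (v x₁) (v b) with k' | k'
    · exact nkey_HH hc hb0 hb1 hx hS hP k' k
    · exact nkey_NH hc hb0 hb1 hx hS hP k' g₁ k
  · exact nkey_NN hc hb0 hb1 hx hS hP k hle g₁

/-- **Key lemma**: the classes of `x(P ± Q)`, for a unit `c = b₂`. -/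
theorem nkey (hc : v c = 1) (hb0 : b ≠ 0) (hb1 : v b < 1)
    (hx : x₁ ≠ x₂)
    (hS : (z₁ + z₂) * (x₁ - x₂) ^ 2 = x₁ * x₂ * (2 * x₁ + 2 * x₂ + c) + 2 * b * (x₁ + x₂))
    (hP : z₁ * z₂ * (x₁ - x₂) ^ 2 = (x₁ * x₂ - b) ^ 2) : KeyGoal v b x₁ x₂ z₁ z₂ := by
  rcases le_total (v x₂) (v x₁) with h | h
  · exact nkey_aux hc hb0 hb1 hx hS hP h
  · refine KeyGoal.swap (nkey_aux hc hb0 hb1 (Ne.symm hx) ?_ ?_ h)
    · linear_combination hS
    · linear_combination hP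

/-- the key lemma for duplication -/
theorem nkey_double (hc : v c = 1) (hb0 : b ≠ 0) (hb1 : v b < 1)
    {x z : K} (hy : x * (4 * x ^ 2 + c * x + 4 * b) ≠ 0)
    (hz : z * (x * (4 * x ^ 2 + c * x + 4 * b)) = (x ^ 2 - b) ^ 2) :
    FoldB (v b) (cl (v b) (v x) ^ 2) (cl (v b) (v z)) := by
  have hβ0 : v b ≠ 0 := (Valuation.ne_zero_iff v).mpr hb0
  have hβpos : 0 < v b := zero_lt_iff.mpr hβ0
  obtain ⟨f, hf⟩ : ∃ f : K, f = 4 * x ^ 2 + c * x + 4 * b := ⟨_, rfl⟩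
  rw [← hf] at hy hz
  have n : x ≠ 0 := left_ne_zero_of_mul hy
  have nf : f ≠ 0 := right_ne_zero_of_mul hy
  have hx0 : v x ≠ 0 := (Valuation.ne_zero_iff v).mpr n
  have hxpos : 0 < v x := zero_lt_iff.mpr hx0
  have hz' := eq_div_of_mul_eq hy hz
  have hcle := hc.le
  have h4le := v_four_le v
  have hble := hb1.le
  rcases le_or_gt 1 (v x) with g | g
  · -- type G
    have p : v x⁻¹ ≤ 1 := v_inv_le g
    have hU : v (1 - b * x⁻¹ ^ 2) = 1 := v_one_sub (v_lt_mul_left hb1 (vpow_le p 2))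
    have hw : v (x⁻¹ * (4 + c * x⁻¹ + 4 * b * x⁻¹ ^ 2)) ≤ 1 := by
      apply_rules [v.map_add_le, v.map_sub_le, vmul_le, vpow_le, (map_one v).le]
    have e : z * (x⁻¹ * (4 + c * x⁻¹ + 4 * b * x⁻¹ ^ 2)) = (1 - b * x⁻¹ ^ 2) ^ 2 := by
      rw [hz']
      field_simp
      rw [hf]
      ring
    have r := one_le_of_mul_eq hU hw e
    rw [cl_of_ge hble g, cl_of_ge hble r]
    exact FoldB.of_eq (one_pow 2).symm
  rcases le_or_gt (v x) (v b) with k | k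
  · -- type H
    have q : v (x / b) ≤ 1 := vdiv_le hb0 k
    have hU : v (1 - b * (x / b) ^ 2) = 1 := v_one_sub (v_lt_mul_left hb1 (vpow_le q 2))
    have hw : v ((x / b) * (4 * b * (x / b) ^ 2 + c * (x / b) + 4)) ≤ 1 := by
      apply_rules [v.map_add_le, v.map_sub_le, vmul_le, vpow_le, (map_one v).le]
    have e : z * ((x / b) * (4 * b * (x / b) ^ 2 + c * (x / b) + 4)) =
        (1 - b * (x / b) ^ 2) ^ 2 := by
      rw [hz']
      field_simp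
      rw [hf]
      ring
    have r := one_le_of_mul_eq hU hw e
    rw [cl_of_le hble k, cl_of_ge hble r]
    refine ⟨-1, Or.inl ?_⟩
    rw [← zpow_natCast, ← zpow_add₀ hβ0]
    norm_num
  · -- type N
    have e₁ : v (b / x) < 1 := vdiv_lt n k
    have hw : v (c + 4 * (x + b / x)) = 1 :=
      v_unit_add hc (v_lt_mul_right h4le (v.map_add_lt g e₁))
    have e : z * (c + 4 * (x + b / x)) = (x - b / x) ^ 2 := by
      rw [hz']
      field_simp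
      rw [hf]
      ring
    have hρ : v z * v (x * x) = v (x * x - b) ^ 2 := by
      have e' := congrArg v e
      rw [map_mul, hw, mul_one] at e'
      rw [e', ← map_pow, ← map_mul]
      congr 1
      field_simp
    have := clamp_fold (v := v) hb0 hb1 (c := x * x) (ρ := v z) (by
      rw [map_mul, sq]
      exact mul_lt_mul'' k k zero_le zero_le) (by
      rw [map_mul]
      exact mul_lt_one_of_lt_of_le g g.le) hρ
    rw [cl_of_mid k.le g.le, sq, ← map_mul]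
    exact this

end Key


/-! ### Part B: the group law on `x`-coordinates (`a₃ = a₆ = 0`) -/

section Formulas

variable [DecidableEq K] {W : WeierstrassCurve K}

theorem eqn_node (h3 : W.a₃ = 0) (h6 : W.a₆ = 0) {x y : K}
    (h : W.toAffine.Nonsingular x y) :
    y ^ 2 + W.a₁ * x * y = x ^ 3 + W.a₂ * x ^ 2 + W.a₄ * x := by
  have := (W.toAffine.equation_iff x y).mp h.1
  rw [h3, h6] at this
  linear_combination this

theorem negY_node (h3 : W.a₃ = 0) (x y : K) : W.toAffine.negY x y = -y - W.a₁ * x := by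
  simp [Affine.negY, h3]

/-- the `x`-coordinate of the sum, for `x₁ ≠ x₂` -/
theorem addX_mul_node {x₁ x₂ y₁ y₂ : K} (hx : x₁ ≠ x₂) :
    W.toAffine.addX x₁ x₂ (W.toAffine.slope x₁ x₂ y₁ y₂) * (x₁ - x₂) ^ 2 =
      (y₁ - y₂) ^ 2 + W.a₁ * (y₁ - y₂) * (x₁ - x₂) - (W.a₂ + x₁ + x₂) * (x₁ - x₂) ^ 2 := by
  have hD : x₁ - x₂ ≠ 0 := sub_ne_zero.mpr hx
  rw [Affine.slope_of_X_ne hx]
  simp only [Affine.addX]
  field_simp
  ring

/-- sum and product of `x(P + Q)` and `x(P - Q)` -/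
theorem addX_sum_prod_node (h3 : W.a₃ = 0) (h6 : W.a₆ = 0) {x₁ x₂ y₁ y₂ : K}
    (hP : W.toAffine.Nonsingular x₁ y₁) (hQ : W.toAffine.Nonsingular x₂ y₂) (hx : x₁ ≠ x₂) :
    (W.toAffine.addX x₁ x₂ (W.toAffine.slope x₁ x₂ y₁ y₂) +
      W.toAffine.addX x₁ x₂ (W.toAffine.slope x₁ x₂ y₁ (W.toAffine.negY x₂ y₂))) * (x₁ - x₂) ^ 2
      = x₁ * x₂ * (2 * x₁ + 2 * x₂ + (W.a₁ ^ 2 + 4 * W.a₂)) + 2 * W.a₄ * (x₁ + x₂) ∧
    W.toAffine.addX x₁ x₂ (W.toAffine.slope x₁ x₂ y₁ y₂) *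
      W.toAffine.addX x₁ x₂ (W.toAffine.slope x₁ x₂ y₁ (W.toAffine.negY x₂ y₂)) * (x₁ - x₂) ^ 2
      = (x₁ * x₂ - W.a₄) ^ 2 := by
  have hD : x₁ - x₂ ≠ 0 := sub_ne_zero.mpr hx
  have e₁ := eqn_node h3 h6 hP
  have e₂ := eqn_node h3 h6 hQ
  have hz₁ := addX_mul_node (W := W) (y₁ := y₁) (y₂ := y₂) hx
  have hz₂ := addX_mul_node (W := W) (y₁ := y₁) (y₂ := W.toAffine.negY x₂ y₂) hx
  rw [negY_node h3] at hz₂ ⊢
  set z₁ := W.toAffine.addX x₁ x₂ (W.toAffine.slope x₁ x₂ y₁ y₂) with hz₁def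
  set z₂ := W.toAffine.addX x₁ x₂ (W.toAffine.slope x₁ x₂ y₁ (-y₂ - W.a₁ * x₂)) with hz₂def
  refine ⟨?_, ?_⟩
  · linear_combination hz₁ + hz₂ + 2 * e₁ + 2 * e₂
  · have hD2 : (x₁ - x₂) ^ 2 ≠ 0 := pow_ne_zero 2 hD
    apply mul_right_cancel₀ hD2
    have key : z₁ * (x₁ - x₂) ^ 2 * (z₂ * (x₁ - x₂) ^ 2) =
        (x₁ * x₂ - W.a₄) ^ 2 * (x₁ - x₂) ^ 2 := by
      rw [hz₁, hz₂]
      linear_combination
        ((2 * (x₁ - x₂) * (x₁ ^ 2 + x₁ * x₂ + x₂ ^ 2 + W.a₂ * (x₁ + x₂) + W.a₄ - W.a₁ * y₁)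
            + ((y₁ ^ 2 + W.a₁ * x₁ * y₁ - (x₁ ^ 3 + W.a₂ * x₁ ^ 2 + W.a₄ * x₁))
              - (y₂ ^ 2 + W.a₁ * x₂ * y₂ - (x₂ ^ 3 + W.a₂ * x₂ ^ 2 + W.a₄ * x₂)))
            + W.a₁ * (x₁ - x₂) * (2 * y₁ + W.a₁ * x₁)
            + 2 * (W.a₂ + x₁ + x₂) * (x₁ - x₂) ^ 2)
          - (x₁ - x₂) ^ 2 * (W.a₁ ^ 2 + 4 * (W.a₂ + x₁ + x₂))) * e₁ +
        (-(2 * (x₁ - x₂) * (x₁ ^ 2 + x₁ * x₂ + x₂ ^ 2 + W.a₂ * (x₁ + x₂) + W.a₄ - W.a₁ * y₁)
            + ((y₁ ^ 2 + W.a₁ * x₁ * y₁ - (x₁ ^ 3 + W.a₂ * x₁ ^ 2 + W.a₄ * x₁))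
              - (y₂ ^ 2 + W.a₁ * x₂ * y₂ - (x₂ ^ 3 + W.a₂ * x₂ ^ 2 + W.a₄ * x₂)))
            + W.a₁ * (x₁ - x₂) * (2 * y₁ + W.a₁ * x₁)
            + 2 * (W.a₂ + x₁ + x₂) * (x₁ - x₂) ^ 2)) * e₂
    linear_combination key

theorem addX_self_mul (x N η : K) (h : η ≠ 0) :
    W.toAffine.addX x x (N / η) * η ^ 2 = N ^ 2 + W.a₁ * N * η - (W.a₂ + 2 * x) * η ^ 2 := by
  simp only [Affine.addX]
  field_simp
  ring

/-- the duplication formula -/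
theorem addX_double_node (h3 : W.a₃ = 0) (h6 : W.a₆ = 0) {x y : K}
    (hP : W.toAffine.Nonsingular x y) (hy : y ≠ W.toAffine.negY x y) :
    W.toAffine.addX x x (W.toAffine.slope x x y y) *
        (x * (4 * x ^ 2 + (W.a₁ ^ 2 + 4 * W.a₂) * x + 4 * W.a₄))
      = (x ^ 2 - W.a₄) ^ 2 := by
  have e₁ := eqn_node h3 h6 hP
  rw [Affine.slope_of_Y_ne rfl hy]
  rw [negY_node h3] at hy ⊢
  have hyy : y - (-y - W.a₁ * x) ≠ 0 := sub_ne_zero.mpr hy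
  have hz := addX_self_mul (W := W) x (3 * x ^ 2 + 2 * W.a₂ * x + W.a₄ - W.a₁ * y)
    (y - (-y - W.a₁ * x)) hyy
  linear_combination hz - (4 * W.toAffine.addX x x
        ((3 * x ^ 2 + 2 * W.a₂ * x + W.a₄ - W.a₁ * y) / (y - (-y - W.a₁ * x)))
      + W.a₁ ^ 2 + 4 * W.a₂ + 8 * x) * e₁

/-- at a point of order two, `x (4x² + b₂ x + 4a₄) = 0` -/
theorem two_torsion_node (h3 : W.a₃ = 0) (h6 : W.a₆ = 0) {x y : K}
    (hP : W.toAffine.Nonsingular x y) (hy : y = W.toAffine.negY x y) :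
    x * (4 * x ^ 2 + (W.a₁ ^ 2 + 4 * W.a₂) * x + 4 * W.a₄) = 0 := by
  have e₁ := eqn_node h3 h6 hP
  rw [negY_node h3] at hy
  have hη : 2 * y + W.a₁ * x = 0 := by linear_combination hy
  linear_combination (2 * y + W.a₁ * x) * hη - 4 * e₁

end Formulas

/-! ### Part C: points -/

section Exports

variable [DecidableEq K]

/-- `W` is `y² + a₁ x y = x³ + a₂ x² + a₄ x` with `b₂ = a₁² + 4 a₂` a unit and `a₄ ≠ 0` in the
maximal ideal: a node at the origin, in any residue characteristic. -/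
structure IsNodeModel (A : ValuationSubring K) (W : WeierstrassCurve K) : Prop where
  a₃ : W.a₃ = 0
  a₆ : W.a₆ = 0
  b₂_unit : A.valuation (W.a₁ ^ 2 + 4 * W.a₂) = 1
  a₄_lt : A.valuation W.a₄ < 1
  a₄_ne : W.a₄ ≠ 0

variable {A : ValuationSubring K} {W : WeierstrassCurve K}

/-- the case `a₁ = 1` in residue characteristic `2` (e.g. the Frey curve at `2`) -/
theorem isNodeModel_of_a₁_eq_one (h1 : W.a₁ = 1) (h3 : W.a₃ = 0) (h6 : W.a₆ = 0)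
    (h2 : A.valuation (2 : K) < 1) (ha₂ : A.valuation W.a₂ ≤ 1)
    (ha₄ : A.valuation W.a₄ < 1) (hne : W.a₄ ≠ 0) : IsNodeModel A W where
  a₃ := h3
  a₆ := h6
  b₂_unit := by
    rw [h1, one_pow]
    have h4 : A.valuation ((4 : K) * W.a₂) < 1 := by
      have e : (4 : K) * W.a₂ = 2 * (2 * W.a₂) := by ring
      rw [e]
      exact v_lt_mul_left h2 (vmul_le h2.le ha₂)
    exact v_unit_add (map_one _) h4
  a₄_lt := ha₄
  a₄_ne := hne

/-- the case `a₁ = 0` in residue characteristic `≠ 2` (the models of `S05`) -/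
theorem isNodeModel_of_isMultModel (hW : IsMultModel A W) : IsNodeModel A W where
  a₃ := hW.a₃
  a₆ := hW.a₆
  b₂_unit := by
    rw [hW.a₁]
    have e : (0 : K) ^ 2 + 4 * W.a₂ = 2 * (2 * W.a₂) := by ring
    rw [e]
    exact v_unit_mul hW.two (v_unit_mul hW.two hW.a₂_unit)
  a₄_lt := hW.a₄_lt
  a₄_ne := hW.a₄_ne

theorem node_beta_le_ell (hW : IsNodeModel A W) (P : W.toAffine.Point) :
    A.valuation W.a₄ ≤ ell A W P := by
  cases P with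
  | zero => exact hW.a₄_lt.le
  | some x y h => exact le_max_left _ _

theorem node_ell_le_one (hW : IsNodeModel A W) (P : W.toAffine.Point) : ell A W P ≤ 1 := by
  cases P with
  | zero => exact le_rfl
  | some x y h => exact max_le hW.a₄_lt.le (min_le_left _ _)

theorem node_beta_ne_zero (hW : IsNodeModel A W) : A.valuation W.a₄ ≠ 0 :=
  (Valuation.ne_zero_iff _).mpr hW.a₄_ne

theorem node_ell_ne_zero (hW : IsNodeModel A W) (P : W.toAffine.Point) : ell A W P ≠ 0 := by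
  have h1 := node_beta_le_ell hW P
  have h2 : 0 < A.valuation W.a₄ := zero_lt_iff.mpr (node_beta_ne_zero hW)
  exact (h2.trans_le h1).ne'

/-- duplication -/
theorem node_fold_double (hW : IsNodeModel A W) (P : W.toAffine.Point) :
    Fold A W (ell A W P * ell A W P) (ell A W (P + P)) := by
  cases P with
  | zero =>
    change FoldB (A.valuation W.a₄) (1 * 1) 1
    exact FoldB.of_eq (one_mul 1).symm
  | some x y h =>
    have hβ0 := node_beta_ne_zero hW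
    by_cases hy : y = W.toAffine.negY x y
    · rw [Point.add_self_of_Y_eq hy]
      change FoldB (A.valuation W.a₄) (cl (A.valuation W.a₄) (A.valuation x) *
        cl (A.valuation W.a₄) (A.valuation x)) 1
      have hxf := two_torsion_node hW.a₃ hW.a₆ h hy
      -- the class of `x` is `1` or `β`
      have hcases : cl (A.valuation W.a₄) (A.valuation x) = 1 ∨
          cl (A.valuation W.a₄) (A.valuation x) = A.valuation W.a₄ := by
        rcases le_or_gt 1 (A.valuation x) with g | g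
        · exact Or.inl (cl_of_ge hW.a₄_lt.le g)
        rcases le_or_gt (A.valuation x) (A.valuation W.a₄) with k | k
        · exact Or.inr (cl_of_le hW.a₄_lt.le k)
        exfalso
        have n : x ≠ 0 := ne_zero_of_lt_v k
        have hxpos : 0 < A.valuation x := zero_lt_iff.mpr ((Valuation.ne_zero_iff _).mpr n)
        have hf : 4 * x ^ 2 + (W.a₁ ^ 2 + 4 * W.a₂) * x + 4 * W.a₄ = 0 := by
          rcases mul_eq_zero.mp hxf with h | h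
          · exact absurd h n
          · exact h
        have h1 : A.valuation ((W.a₁ ^ 2 + 4 * W.a₂) * x) = A.valuation x := by
          rw [map_mul, hW.b₂_unit, one_mul]
        have h2 : A.valuation (4 * x ^ 2) < A.valuation ((W.a₁ ^ 2 + 4 * W.a₂) * x) := by
          rw [h1, map_mul, map_pow, sq]
          calc A.valuation 4 * (A.valuation x * A.valuation x)
              ≤ 1 * (A.valuation x * A.valuation x) :=
                mul_le_mul_left (v_four_le A.valuation) _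
            _ = A.valuation x * A.valuation x := one_mul _
            _ < A.valuation x * 1 := (mul_lt_mul_iff_of_pos_left hxpos).mpr g
            _ = A.valuation x := mul_one _
        have h3 : A.valuation (4 * x ^ 2 + (W.a₁ ^ 2 + 4 * W.a₂) * x) = A.valuation x := by
          rw [Valuation.map_add_eq_of_lt_right _ h2, h1]
        have h4' : A.valuation (4 * W.a₄) < A.valuation x := by
          rw [map_mul]
          calc A.valuation 4 * A.valuation W.a₄ ≤ 1 * A.valuation W.a₄ :=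
                mul_le_mul_left (v_four_le A.valuation) _
            _ = A.valuation W.a₄ := one_mul _
            _ < A.valuation x := k
        have h4 : A.valuation (4 * x ^ 2 + (W.a₁ ^ 2 + 4 * W.a₂) * x + 4 * W.a₄) =
            A.valuation x := by
          rw [Valuation.map_add_eq_of_lt_left _ (by rw [h3]; exact h4'), h3]
        rw [hf, map_zero] at h4
        exact (Valuation.ne_zero_iff _).mpr n h4.symm
      rcases hcases with h | h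
      · rw [h]
        exact FoldB.of_eq (one_mul 1).symm
      · rw [h]
        refine ⟨-1, Or.inl ?_⟩
        rw [← sq, ← zpow_natCast, ← zpow_add₀ hβ0]
        norm_num
    · rw [Point.add_self_of_Y_ne hy]
      have hz := addX_double_node hW.a₃ hW.a₆ h hy
      have hxf : x * (4 * x ^ 2 + (W.a₁ ^ 2 + 4 * W.a₂) * x + 4 * W.a₄) ≠ 0 := by
        have e₁ := eqn_node hW.a₃ hW.a₆ h
        rw [negY_node hW.a₃] at hy
        have hη : 2 * y + W.a₁ * x ≠ 0 := by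
          intro h0
          apply hy
          linear_combination h0
        have : x * (4 * x ^ 2 + (W.a₁ ^ 2 + 4 * W.a₂) * x + 4 * W.a₄) =
            (2 * y + W.a₁ * x) ^ 2 := by linear_combination -4 * e₁
        rw [this]
        exact pow_ne_zero 2 hη
      have := nkey_double (v := A.valuation) hW.b₂_unit hW.a₄_ne hW.a₄_lt hxf hz
      rw [sq] at this
      exact this

/-- **The pair rule.** -/
theorem node_fold_add_sub (hW : IsNodeModel A W) (P Q : W.toAffine.Point) :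
    (Fold A W (ell A W P * ell A W Q) (ell A W (P + Q)) ∧
      Fold A W (ell A W P / ell A W Q) (ell A W (P - Q))) ∨
    (Fold A W (ell A W P / ell A W Q) (ell A W (P + Q)) ∧
      Fold A W (ell A W P * ell A W Q) (ell A W (P - Q))) := by
  have hβ0 := node_beta_ne_zero hW
  by_cases h1 : P = Q
  · subst h1
    left
    refine ⟨node_fold_double hW P, ?_⟩
    rw [sub_self, div_self (node_ell_ne_zero hW P)]
    exact FoldB.refl _ _
  by_cases h2 : P = -Q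
  · subst h2
    right
    rw [neg_add_cancel, ell_neg, div_self (node_ell_ne_zero hW Q), sub_eq_add_neg, ← neg_add,
      ell_neg]
    exact ⟨FoldB.refl _ _, node_fold_double hW Q⟩
  cases P with
  | zero =>
    left
    rw [Point.zero_def.symm, zero_add, zero_sub, ell_neg, ell_zero, one_mul]
    refine ⟨FoldB.refl _ _, ⟨0, Or.inr ?_⟩⟩
    simp
  | some x₁ y₁ h₁ =>
    cases Q with
    | zero =>
      left
      rw [Point.zero_def.symm, add_zero, sub_zero, ell_zero, mul_one, div_one]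
      exact ⟨FoldB.refl _ _, FoldB.refl _ _⟩
    | some x₂ y₂ h₂ =>
      have hx : x₁ ≠ x₂ := by
        intro hx
        rcases Point.X_eq_iff.mp hx with h | h
        · exact h1 h
        · exact h2 h
      rw [sub_eq_add_neg, Point.neg_some, Point.add_of_X_ne hx, Point.add_of_X_ne hx]
      obtain ⟨hS, hP⟩ := addX_sum_prod_node hW.a₃ hW.a₆ h₁ h₂ hx
      exact nkey (v := A.valuation) hW.b₂_unit hW.a₄_ne hW.a₄_lt hx hS hP

/-- **Multiples.** -/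
theorem node_fold_nsmul (hW : IsNodeModel A W) (P : W.toAffine.Point) (k : ℕ) :
    Fold A W (ell A W P ^ k) (ell A W (k • P)) := by
  have hβ0 := node_beta_ne_zero hW
  have hε := node_ell_ne_zero hW P
  have main : ∀ k : ℕ, Fold A W (ell A W P ^ k) (ell A W (k • P)) ∧
      Fold A W (ell A W P ^ (k + 1)) (ell A W ((k + 1) • P)) := by
    intro k
    induction k with
    | zero =>
      refine ⟨?_, ?_⟩
      · rw [zero_nsmul, pow_zero, ell_zero]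
        exact FoldB.refl _ _
      · rw [zero_add, one_nsmul, pow_one]
        exact FoldB.refl _ _
    | succ k ih =>
      obtain ⟨ih0, ih1⟩ := ih
      refine ⟨ih1, ?_⟩
      have e1 : (k + 1 + 1) • P = (k + 1) • P + P := succ_nsmul P (k + 1)
      have e2 : (k + 1) • P - P = k • P := by
        rw [succ_nsmul, add_sub_cancel_right]
      have h := node_fold_add_sub hW ((k + 1) • P) P
      rw [e2, ← e1] at h
      have c := FoldB.mul_div ih1 (ell A W P)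
      have p1 : ell A W P ^ (k + 1) * ell A W P = ell A W P ^ (k + 1 + 1) := (pow_succ _ _).symm
      have p2 : ell A W P ^ (k + 1) / ell A W P = ell A W P ^ k := by
        rw [pow_succ, mul_div_assoc, div_self hε, mul_one]
      rw [p1, p2] at c
      rcases c with ⟨c1, c2⟩ | ⟨c1, c2⟩
      · rcases h with ⟨h1, h2⟩ | ⟨h1, h2⟩
        · exact FoldB.trans hβ0 c1 h1
        · exact FoldB.trans hβ0 (FoldB.trans hβ0 (FoldB.trans hβ0 c1 h2)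
            (FoldB.symm hβ0 ih0)) (FoldB.trans hβ0 c2 h1)
      · rcases h with ⟨h1, h2⟩ | ⟨h1, h2⟩
        · exact FoldB.trans hβ0 (FoldB.trans hβ0 (FoldB.trans hβ0 c2 h2)
            (FoldB.symm hβ0 ih0)) (FoldB.trans hβ0 c1 h1)
        · exact FoldB.trans hβ0 c2 h1
  exact (main k).1

/-- **Torsion points.** -/
theorem node_exists_zpow_of_nsmul_eq_zero (hW : IsNodeModel A W) {P : W.toAffine.Point}
    {n : ℕ} (h : n • P = 0) : ∃ m : ℤ, ell A W P ^ n = A.valuation W.a₄ ^ (2 * m) := by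
  have hβ0 := node_beta_ne_zero hW
  have hε := node_ell_ne_zero hW P
  obtain ⟨m, hm | hm⟩ := node_fold_nsmul hW P n
  · rw [h, ell_zero] at hm
    refine ⟨-m, ?_⟩
    rw [mul_neg, zpow_neg]
    exact eq_inv_of_mul_eq_one_left hm.symm
  · rw [h, ell_zero] at hm
    refine ⟨m, ?_⟩
    have : ell A W P ^ n * 1 = ell A W P ^ n * ((ell A W P ^ n)⁻¹ * A.valuation W.a₄ ^ (2 * m)) :=
      congrArg _ hm
    rw [mul_one, ← mul_assoc, mul_inv_cancel₀ (pow_ne_zero n hε), one_mul] at this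
    exact this

end Exports

end Fermat.Agent.S13.KummerNode
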